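import Fermat.Agent.Reps.Model

/-!
# `T_q` has no eigenvalue of absolute value `q + 1` on weight two cusp forms

`eq_zero_of_heckeT_eq_smul`: if `T_q f = c f` with `|c| = q + 1` then `f = 0`. The function
`|f(z)| y` attains its maximum (`exists_max_peterssonAbs`); the eigen equation forces the maximum
to be attained again at `q • z`, hence arbitrarily high, where the function tends to zero.
`det_heckeT_sub_ne_zero` deduces that `τ(T_q) - c` has nonzero determinant for every faithful
integral matrix action `τ` of the Hecke algebra and every integer `c` with `|c| = q + 1`.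
-/

set_option autoImplicit false

noncomputable section

open UpperHalfPlane CongruenceSubgroup Filter Topology Polynomial
open scoped Modular MatrixGroups ModularForm Pointwise

namespace FLTAgent.Local

variable {N : ℕ} [NeZero N]

/-- `|f(z)| y`. -/
def peterssonAbs (f : ℍ → ℂ) (z : ℍ) : ℝ := ‖f z‖ * z.im

theorem sq_peterssonAbs (f : ℍ → ℂ) (z : ℍ) :
    peterssonAbs f z ^ 2 = ‖petersson 2 f f z‖ := by
  simp [peterssonAbs, petersson, mul_pow, abs_of_pos z.im_pos, ← sq]

theorem peterssonAbs_nonneg (f : ℍ → ℂ) (z : ℍ) : 0 ≤ peterssonAbs f z :=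
  mul_nonneg (norm_nonneg _) z.im_pos.le

/-- A continuous function invariant under a finite index subgroup and tending to zero at all cusps
attains its maximum. -/
theorem exists_max_of_invariant {F : ℍ → ℝ} (hc : Continuous F) (hnn : ∀ z, 0 ≤ F z)
    {Γ : Subgroup SL(2, ℤ)} [Γ.FiniteIndex] (hinv : ∀ g ∈ Γ, ∀ z, F (g • z) = F z)
    (hzero : ∀ g : SL(2, ℤ), Tendsto (fun z => F (g • z)) atImInfty (𝓝 0)) :
    ∃ z₀, ∀ z, F z ≤ F z₀ := by
  classical
  by_cases hpos : ∀ z, F z = 0
  · exact ⟨UpperHalfPlane.I, fun z => by rw [hpos, hpos]⟩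
  push Not at hpos
  obtain ⟨w, hw⟩ := hpos
  have hw' : 0 < F w := (hnn w).lt_of_ne (Ne.symm hw)
  have : Fintype (SL(2, ℤ) ⧸ Γ) := Subgroup.fintypeQuotientOfFiniteIndex
  let r : SL(2, ℤ) ⧸ Γ → SL(2, ℤ) := fun c => c.out
  have hev : ∀ᶠ z in atImInfty, ∀ c, F ((r c)⁻¹ • z) < F w :=
    eventually_all.mpr fun c => (hzero _).eventually (eventually_lt_nhds hw')
  rw [atImInfty, eventually_comap, eventually_atTop] at hev
  obtain ⟨y, hy⟩ := hev
  let K : Set ℍ := insert w (⋃ c, (fun z => (r c)⁻¹ • z) '' ModularGroup.truncatedFundamentalDomain y)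
  have hK : IsCompact K := by
    refine IsCompact.insert (isCompact_iUnion fun c =>
      (ModularGroup.isCompact_truncatedFundamentalDomain y).image ?_) w
    simp only [ModularGroup.sl_moeb]
    exact continuous_const_smul _
  obtain ⟨z₀, hz₀, hmax⟩ := hK.exists_isMaxOn ⟨w, Set.mem_insert _ _⟩ hc.continuousOn
  refine ⟨z₀, fun z => ?_⟩
  obtain ⟨g, hg⟩ := ModularGroup.exists_smul_mem_fd z
  obtain ⟨γ, hγ⟩ : ∃ γ : Γ, r (QuotientGroup.mk g) = g * γ := QuotientGroup.mk_out_eq_mul Γ g
  have hz : F z = F ((r (QuotientGroup.mk g))⁻¹ • (g • z)) := by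
    rw [hγ, _root_.mul_inv_rev, mul_smul, inv_smul_smul, hinv _ (inv_mem γ.2)]
  rw [hz]
  rcases le_or_gt (g • z).im y with h | h
  · exact hmax (Set.mem_insert_of_mem _ (Set.mem_iUnion.mpr ⟨_, ⟨_, ⟨hg, h⟩, rfl⟩⟩))
  · exact ((hy _ h.le _ rfl _).le).trans (hmax (Set.mem_insert _ _))

/-- `|f(z)| y` attains its maximum. -/
theorem exists_max_peterssonAbs (f : CuspForm (Gamma0 N) 2) :
    ∃ z₀, ∀ z, peterssonAbs f z ≤ peterssonAbs f z₀ := by
  have hinv : ∀ g ∈ Gamma0 N, ∀ z, ‖petersson 2 f f (g • z)‖ = ‖petersson 2 f f z‖ := by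
    intro g hg z
    exact SlashInvariantFormClass.norm_petersson_smul
      (Γ := (Gamma0 N : Subgroup (GL (Fin 2) ℝ))) (k := 2) (f := f) (f' := f) (τ := z) ⟨g, hg, rfl⟩
  have hzero : ∀ g : SL(2, ℤ), Tendsto (fun z => ‖petersson 2 f f (g • z)‖) atImInfty (𝓝 0) := by
    intro g
    simp_rw [← UpperHalfPlane.petersson_slash_SL]
    rw [← tendsto_zero_iff_norm_tendsto_zero]
    have : (ConjAct.toConjAct (g : GL (Fin 2) ℝ)⁻¹ •
        (Gamma0 N : Subgroup (GL (Fin 2) ℝ))).IsArithmetic := by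
      simpa [(show Rat.castHom ℝ = algebraMap ℚ ℝ by rfl), map_inv, Matrix.SpecialLinearGroup.map_mapGL]
        using! Subgroup.IsArithmetic.conj (Gamma0 N : Subgroup (GL (Fin 2) ℝ))
          (Matrix.SpecialLinearGroup.mapGL ℚ g)⁻¹
    exact (CuspFormClass.zero_at_infty <| CuspForm.translate f g).petersson_isZeroAtImInfty_left 2 _
      (ModularForm.translate f g)
  obtain ⟨z₀, hz₀⟩ := exists_max_of_invariant (F := fun z => ‖petersson 2 f f z‖)
    (by fun_prop) (fun z => norm_nonneg _) hinv hzero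
  refine ⟨z₀, fun z => ?_⟩
  have := hz₀ z
  rw [← sq_peterssonAbs, ← sq_peterssonAbs] at this
  exact (sq_le_sq₀ (peterssonAbs_nonneg _ _) (peterssonAbs_nonneg _ _)).mp this

/-- A cusp form of weight two with `T_q f = c f`, `|c| = q + 1`, vanishes. -/
theorem eq_zero_of_heckeT_eq_smul {q : ℕ} (hq : q.Prime) (hqN : ¬ q ∣ N)
    {f : CuspForm (Gamma0 N) 2} {c : ℂ} (hc : ‖c‖ = (q : ℝ) + 1)
    (hf : CuspForm.heckeTLin 2 hq hqN f = c • f) : f = 0 := by
  obtain ⟨z₀, hmax⟩ := exists_max_peterssonAbs f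
  set C := peterssonAbs f z₀ with hC
  have hq0 : q ≠ 0 := hq.ne_zero
  have him₁ : ∀ z : ℍ, (ModularForm.heckeDiagMatrix q • z).im = q * z.im := fun z => by
    have := congrArg Complex.im (ModularForm.coe_heckeDiagMatrix_smul hq0 z)
    simpa using this
  have him₂ : ∀ (z : ℍ) (j : ℕ), (ModularForm.heckeMatrix q j • z).im = z.im / q := fun z j => by
    have := congrArg Complex.im (ModularForm.coe_heckeMatrix_smul hq0 j z)
    simpa using this
  have hstep : ∀ z, peterssonAbs f z = C → peterssonAbs f (ModularForm.heckeDiagMatrix q • z) = C := by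
    intro z hz
    refine le_antisymm (hmax _) ?_
    have h1 : c * f z = (q : ℂ)⁻¹ * ∑ j ∈ Finset.range q, f (ModularForm.heckeMatrix q j • z)
        + (q : ℂ) * f (ModularForm.heckeDiagMatrix q • z) := by
      have h2 := congrArg (fun g : CuspForm (Gamma0 N) 2 => g z) hf
      simp only [CuspForm.heckeTLin_apply_apply, ModularForm.heckeT_apply 2 hq0] at h2
      norm_num at h2
      exact h2.symm
    have h3 := (norm_add_le ((q : ℂ)⁻¹ * ∑ j ∈ Finset.range q, f (ModularForm.heckeMatrix q j • z))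
      ((q : ℂ) * f (ModularForm.heckeDiagMatrix q • z)))
    rw [← h1, norm_mul, hc, norm_mul, norm_mul, norm_inv, Complex.norm_natCast] at h3
    have h4 : (((q : ℝ) + 1) * ‖f z‖) * z.im ≤
        ((q : ℝ)⁻¹ * ∑ j ∈ Finset.range q, ‖f (ModularForm.heckeMatrix q j • z)‖
          + (q : ℝ) * ‖f (ModularForm.heckeDiagMatrix q • z)‖) * z.im := by
      refine mul_le_mul_of_nonneg_right (h3.trans ?_) z.im_pos.le
      gcongr
      exact norm_sum_le _ _
    have h5 : ((q : ℝ)⁻¹ * ∑ j ∈ Finset.range q, ‖f (ModularForm.heckeMatrix q j • z)‖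
          + (q : ℝ) * ‖f (ModularForm.heckeDiagMatrix q • z)‖) * z.im =
        ∑ j ∈ Finset.range q, peterssonAbs f (ModularForm.heckeMatrix q j • z)
          + peterssonAbs f (ModularForm.heckeDiagMatrix q • z) := by
      simp only [peterssonAbs, him₁, him₂, add_mul, Finset.mul_sum, Finset.sum_mul]
      congr 1
      · refine Finset.sum_congr rfl fun j _ => ?_
        field_simp
      · ring
    rw [h5, mul_assoc, show ‖f z‖ * z.im = C from hz] at h4
    have h6 : ∑ j ∈ Finset.range q, peterssonAbs f (ModularForm.heckeMatrix q j • z) ≤ q * C := by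
      refine (Finset.sum_le_card_nsmul _ _ C fun j _ => hmax _).trans ?_
      simp
    linarith
  have hiter : ∀ n : ℕ, ∃ z : ℍ, z.im = (q : ℝ) ^ n * z₀.im ∧ peterssonAbs f z = C := by
    intro n
    induction n with
    | zero => exact ⟨z₀, by simp, rfl⟩
    | succ n ih =>
      obtain ⟨z, hz, hF⟩ := ih
      exact ⟨_, by rw [him₁, hz, pow_succ']; ring, hstep z hF⟩
  choose w hw hwC using hiter
  have htend : Tendsto w atTop atImInfty := by
    rw [atImInfty, tendsto_comap_iff]
    simp only [Function.comp_def, hw]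
    exact (tendsto_pow_atTop_atTop_of_one_lt (mod_cast hq.one_lt)).atTop_mul_const z₀.im_pos
  have h0 : Tendsto (fun z : ℍ => ‖petersson 2 f f z‖) atImInfty (𝓝 0) :=
    tendsto_zero_iff_norm_tendsto_zero.mp
      ((CuspFormClass.zero_at_infty f).petersson_isZeroAtImInfty_left 2
        (Gamma0 N : Subgroup (GL (Fin 2) ℝ)) f)
  have h1 := (h0.comp htend)
  simp only [Function.comp_def, ← sq_peterssonAbs, hwC] at h1
  have hC0 : C = 0 := pow_eq_zero_iff two_ne_zero |>.mp (tendsto_nhds_unique tendsto_const_nhds h1)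
  ext z
  have h2 := le_antisymm ((hmax z).trans_eq hC0) (peterssonAbs_nonneg f z)
  have h3 : ‖f z‖ = 0 := (mul_eq_zero.mp h2).resolve_right z.im_ne_zero
  simpa using h3

open FLTAgent.Reps

/-- `τ(T_q) ∓ (q + 1)` is invertible over `ℚ`, for any faithful integral action. -/
theorem det_heckeT_sub_ne_zero {q : ℕ} (hq : q.Prime) (hqN : ¬ q ∣ N) {r : ℕ}
    (τ : TZ N →+* Matrix (Fin r) (Fin r) ℤ) (hτ : Function.Injective τ) {c : ℤ}
    (hc : |c| = (q : ℤ) + 1) :
    (τ (heckeTOf hq hqN) - (c : Matrix (Fin r) (Fin r) ℤ)).det ≠ 0 := by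
  intro hdet
  let t : TZ N := heckeTOf hq hqN - (c : TZ N)
  have hinj : ∀ f : CuspForm (Gamma0 N) 2,
      (t : Module.End ℂ (CuspForm (Gamma0 N) 2)) f = 0 → f = 0 := by
    intro f hf
    refine eq_zero_of_heckeT_eq_smul hq hqN (c := (c : ℂ)) ?_ ?_
    · rw [Complex.norm_intCast, ← Int.cast_abs, hc]; simp
    · simp only [t, AddSubgroupClass.coe_sub, LinearMap.sub_apply, sub_eq_zero] at hf
      refine hf.trans ?_
      rw [SubringClass.coe_intCast, Module.End.intCast_apply, Int.cast_smul_eq_zsmul]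
  have hcancel : ∀ s : TZ N, t * s = 0 → s = 0 := by
    intro s hs
    apply Subtype.ext
    refine LinearMap.ext fun f => hinj _ ?_
    rw [← Module.End.mul_apply]
    have := congrArg Subtype.val hs
    rw [MulMemClass.coe_mul] at this
    rw [this]; rfl
  let B : Matrix (Fin r) (Fin r) ℤ := τ t
  have hB : B.det = 0 := by
    simp only [B, t, map_sub, map_intCast]; exact hdet
  obtain ⟨Q, hQ, hQ0⟩ := exists_eq_pow_rootMultiplicity_mul_and_not_dvd B.charpoly
    (Matrix.charpoly_monic B).ne_zero (0 : ℤ)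
  have h1 : aeval B B.charpoly = 0 := Matrix.aeval_self_charpoly B
  have haev : ∀ P : ℤ[X], aeval B P = τ (aeval t P) := fun P =>
    (aeval_algHom_apply τ.toIntAlgHom t P)
  rw [haev, ← map_zero τ, hτ.eq_iff, hQ, map_mul, map_pow, map_sub, aeval_X, map_zero, map_zero,
    sub_zero] at h1
  have h2 : aeval t Q = 0 := by
    generalize rootMultiplicity 0 B.charpoly = e at h1
    induction e with
    | zero => simpa using h1
    | succ e ih => rw [pow_succ', mul_assoc] at h1; exact ih (hcancel _ h1)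
  have h3 : aeval B Q = 0 := by rw [haev, h2, map_zero]
  rw [map_zero, sub_zero] at hQ0
  have hQc : Q.coeff 0 ≠ 0 := fun h => hQ0 (X_dvd_iff.mpr h)
  rw [← X_mul_divX_add Q, map_add, map_mul, aeval_X, aeval_C, Algebra.algebraMap_eq_smul_one] at h3
  have h4 : B * aeval B Q.divX = (-Q.coeff 0) • (1 : Matrix (Fin r) (Fin r) ℤ) := by
    exact (eq_neg_of_add_eq_zero_left h3).trans (_root_.neg_smul _ _).symm
  have h5 := congrArg Matrix.det h4
  rw [Matrix.det_mul, hB, zero_mul, Matrix.det_smul, Matrix.det_one, mul_one] at h5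
  exact pow_ne_zero _ (neg_ne_zero.mpr hQc) h5.symm

end FLTAgent.Local
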