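import Mathlib

/-!
# Linear algebra behind unipotence of inertia

For a representation `ρ` and a character `χ`, with `aOp = ρ(g) + χ(g) ρ(g)⁻¹`: `trace_symm` gives
`tr ρ(g) = χ(g) tr ρ(g⁻¹)` from an injective operator anticommuting with an involution `ρ(c)` and
commuting with all `aOp`. `finrank_count` then shows `dim O + 2 dim K ≤ dim V` when `ρ(F)²` is
`q²` on `K` and has no eigenvalue `1`, `q²` on the stable subspace `O`, by comparing the traces of
a projector built from a polynomial in `ρ(F)` and in `q ρ(F)⁻¹`.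
-/

set_option autoImplicit false
set_option linter.style.haveILetI false

noncomputable section

open Polynomial Module

namespace FLTAgent.Local

variable {L V G : Type*} [Field L] [CharZero L] [AddCommGroup V] [Module L V]
  [FiniteDimensional L V] [Group G]

/-- The operator `ρ(g) + χ(g) ρ(g)⁻¹`. -/
def aOp (ρ : G →* End L V) (χ : G →* L) (g : G) : End L V := ρ g + χ g • ρ g⁻¹

/-- Trace symmetry on a subspace stable under the group and under an operator anticommuting with
a complex conjugation. -/
theorem trace_symm (ρ : G →* End L V) (χ : G →* L) {c : G} (hcc : c * c = 1) {θ : End L V}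
    (hθ : Function.Injective θ) (hanti : θ * ρ c = -(ρ c * θ))
    (hA : ∀ g h : G, Commute (ρ h) (aOp ρ χ g)) (hAθ : ∀ g, Commute θ (aOp ρ χ g)) (g : G) :
    LinearMap.trace L V (ρ g) = χ g * LinearMap.trace L V (ρ g⁻¹) := by
  rcases subsingleton_or_nontrivial V with hV | hV
  · simp [Subsingleton.elim (ρ g) 0, Subsingleton.elim (ρ g⁻¹) 0]
  have hc1 : ρ c * ρ c = 1 := by rw [← map_mul, hcc, map_one]
  have hcinv : c⁻¹ = c := inv_eq_of_mul_eq_one_left hcc
  have hχc : χ c = -1 := by
    have h1 : aOp ρ χ c = (1 + χ c) • ρ c := by rw [aOp, hcinv, add_smul, one_smul]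
    by_contra hne
    have hne' : (1 + χ c) ≠ 0 := fun h => hne (by linear_combination h)
    have h2 := hAθ c
    rw [h1, Commute, SemiconjBy, mul_smul_comm, smul_mul_assoc] at h2
    have h3 : θ * ρ c = ρ c * θ := smul_right_injective _ hne' h2
    rw [hanti, neg_eq_iff_add_eq_zero, ← two_smul L, smul_eq_zero] at h3
    have h4 : θ = 0 := by
      calc θ = ρ c * ρ c * θ := by rw [hc1, one_mul]
        _ = 0 := by rw [mul_assoc, h3.resolve_left two_ne_zero, mul_zero]
    obtain ⟨v, hv⟩ := exists_ne (0 : V)
    exact hv (hθ (by simp [h4]))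
  set t := aOp ρ χ g with ht
  set t' := aOp ρ χ (g * c) with ht'
  have key : ρ g - t + ρ c * ρ g * ρ c = t' * ρ c := by
    have e1 : t' * ρ c = ρ g - χ g • (ρ c * ρ g⁻¹ * ρ c) := by
      rw [ht', aOp, map_mul ρ g c, map_mul χ, hχc, _root_.mul_inv_rev, hcinv, map_mul, add_mul,
        mul_assoc, hc1, mul_one, smul_mul_assoc, mul_neg, mul_one, neg_smul, sub_eq_add_neg]
    have e2 : ρ c * ρ g * ρ c = t - χ g • (ρ c * ρ g⁻¹ * ρ c) := by
      have h1 : ρ c * t * ρ c = t := by rw [(hA g c).eq, mul_assoc, hc1, mul_one]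
      rw [ht, aOp, mul_add, add_mul, mul_smul_comm, smul_mul_assoc] at h1
      rw [eq_sub_iff_add_eq, h1, ht, aOp]
    rw [e1, e2]
    abel
  have h0 : LinearMap.trace L V (t' * ρ c) = 0 := by
    have hbij : Function.Bijective θ := ⟨hθ, LinearMap.injective_iff_surjective.mp hθ⟩
    let e : V ≃ₗ[L] V := LinearEquiv.ofBijective θ hbij
    have h1 : e.conj (t' * ρ c) = -(t' * ρ c) := by
      refine LinearMap.ext fun v => ?_
      obtain ⟨w, rfl⟩ := e.surjective v
      rw [LinearEquiv.conj_apply_apply, LinearEquiv.symm_apply_apply]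
      change (θ * (t' * ρ c)) w = -(t' * ρ c) (θ w)
      rw [← mul_assoc, (hAθ (g * c)).eq, mul_assoc, hanti, mul_neg, ← mul_assoc]
      rfl
    have h2 := LinearMap.trace_conj' (t' * ρ c) e
    rw [h1, map_neg, neg_eq_iff_add_eq_zero, ← two_mul, mul_eq_zero] at h2
    exact h2.resolve_left two_ne_zero
  have h3 := congrArg (LinearMap.trace L V) key
  rw [map_add, map_sub, h0, LinearMap.trace_mul_cycle, hc1, one_mul] at h3
  have h4 : LinearMap.trace L V t =
      LinearMap.trace L V (ρ g) + χ g * LinearMap.trace L V (ρ g⁻¹) := by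
    rw [ht, aOp, map_add, map_smul, smul_eq_mul]
  linear_combination h3 + h4

omit [CharZero L] [FiniteDimensional L V] [Group G] in
theorem pow_mul_pow_eq {f : End L V} {x : V} {c : L} (h : f x = c • x) (P : L[X]) :
    aeval f P x = P.eval c • x := by
  induction P using Polynomial.induction_on' with
  | add P Q hP hQ => rw [map_add, LinearMap.add_apply, hP, hQ, eval_add, add_smul]
  | monomial n a =>
    have hn : (f ^ n) x = c ^ n • x := by
      induction n with
      | zero => simp
      | succ n ih => rw [pow_succ', Module.End.mul_apply, ih, map_smul, h, smul_smul, pow_succ]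
    rw [aeval_monomial, eval_monomial, Module.End.mul_apply, hn, Module.algebraMap_end_apply,
      smul_smul]

/-- The dimension count: the eigenvalues `±q` on `K` force as many eigenvalues `±1`. -/
theorem finrank_count (ρ : G →* End L V) (χ : G →* L)
    (hsym : ∀ g, LinearMap.trace L V (ρ g) = χ g * LinearMap.trace L V (ρ g⁻¹))
    {F : G} {q : L} (hχ : χ F = q) (hq : q ^ 2 ≠ 1)
    (O K : Submodule L V) (hOF : ∀ x ∈ O, ρ F x ∈ O)
    (hO1 : ∀ x ∈ O, ρ F (ρ F x) = x → x = 0)
    (hOq : ∀ x ∈ O, ρ F (ρ F x) = q ^ 2 • x → x = 0)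
    (hK : ∀ x ∈ K, ρ F (ρ F x) = q ^ 2 • x) :
    finrank L O + 2 * finrank L K ≤ finrank L V := by
  classical
  let f := ρ F
  let g := q • ρ F⁻¹
  -- a polynomial killing `f` and `g`, split off at `±1`
  let m₀ : L[X] := (X - C 1) * (X - C (-1)) * (f.charpoly * g.charpoly)
  have hm₀ : m₀ ≠ 0 := by
    refine mul_ne_zero (mul_ne_zero (X_sub_C_ne_zero _) (X_sub_C_ne_zero _))
      (mul_ne_zero f.charpoly_monic.ne_zero g.charpoly_monic.ne_zero)
  obtain ⟨m₁, hm₁, hnd₁⟩ := exists_eq_pow_rootMultiplicity_mul_and_not_dvd m₀ hm₀ (1 : L)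
  have hm₁0 : m₁ ≠ 0 := fun h => hm₀ (by rw [hm₁, h, mul_zero])
  obtain ⟨h, hh, hnd₂⟩ := exists_eq_pow_rootMultiplicity_mul_and_not_dvd m₁ hm₁0 (-1 : L)
  set a := rootMultiplicity (1 : L) m₀
  set b := rootMultiplicity (-1 : L) m₁
  let n := max a b + 1
  let Q : L[X] := (X - C 1) * (X - C (-1))
  have hQ : Q = X ^ 2 - 1 := by simp only [Q, map_neg, map_one]; ring
  have hdvd : m₀ ∣ Q ^ n * h := by
    rw [hm₁, hh, mul_pow, ← mul_assoc]
    refine mul_dvd_mul_right (mul_dvd_mul ?_ ?_) h
    · exact pow_dvd_pow _ (by omega)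
    · exact pow_dvd_pow _ (by omega)
  have hcop : IsCoprime (Q ^ n) h := by
    refine IsCoprime.pow_left (IsCoprime.mul_left ?_ ?_)
    · refine (irreducible_X_sub_C (1 : L)).coprime_iff_not_dvd.mpr fun hd => hnd₁ ?_
      rw [hh]; exact hd.mul_left _
    · exact (irreducible_X_sub_C (-1 : L)).coprime_iff_not_dvd.mpr hnd₂
  obtain ⟨u, v, huv⟩ := hcop
  let P : L[X] := v * h
  have hkill : ∀ φ : End L V, (φ.charpoly ∣ m₀) → aeval φ (Q ^ n * h) = 0 := by
    intro φ hφ
    obtain ⟨r, hr⟩ := hφ.trans hdvd
    rw [hr, map_mul, LinearMap.aeval_self_charpoly, zero_mul]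
  have hkf : aeval f (Q ^ n * h) = 0 := hkill f ((dvd_mul_right _ _).mul_left _)
  have hkg : aeval g (Q ^ n * h) = 0 := hkill g ((dvd_mul_left _ _).mul_left _)
  have hidem : IsIdempotentElem (aeval f P) := by
    have hP : P * P = P - u * v * (Q ^ n * h) := by
      simp only [P]; linear_combination (v * h) * huv
    rw [IsIdempotentElem, ← map_mul, hP, map_sub, map_mul (aeval f) (u * v), hkf, mul_zero, sub_zero]
  have hidemg : IsIdempotentElem (aeval g P) := by
    have hP : P * P = P - u * v * (Q ^ n * h) := by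
      simp only [P]; linear_combination (v * h) * huv
    rw [IsIdempotentElem, ← map_mul, hP, map_sub, map_mul (aeval g) (u * v), hkg, mul_zero, sub_zero]
  -- `P(f)` vanishes on `O` and on `K`; `P(g)` is the identity on `K`
  have hQapply : ∀ (φ : End L V) x, aeval φ Q x = φ (φ x) - x := fun φ x => by
    rw [hQ, map_sub, map_pow, aeval_X, map_one, LinearMap.sub_apply, sq, Module.End.mul_apply,
      Module.End.one_apply]
  have hOpoly : ∀ (R : L[X]), ∀ x ∈ O, aeval f R x ∈ O := by
    intro R
    induction R using Polynomial.induction_on' with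
    | add R S hR hS => intro x hx; rw [map_add, LinearMap.add_apply]; exact O.add_mem (hR x hx) (hS x hx)
    | monomial k r =>
      intro x hx
      rw [aeval_monomial, Module.End.mul_apply, Module.algebraMap_end_apply]
      refine O.smul_mem r ?_
      clear hO1 hOq
      induction k with
      | zero => simpa using hx
      | succ k ih => rw [pow_succ', Module.End.mul_apply]; exact hOF _ ih
  have hPO : ∀ x ∈ O, aeval f P x = 0 := by
    intro x hx
    have hinj : ∀ k, ∀ y ∈ O, aeval f (Q ^ k) y = 0 → y = 0 := by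
      intro k
      induction k with
      | zero => intro y _ h0; simpa using h0
      | succ k ih =>
        intro y hy h0
        rw [pow_succ', map_mul, Module.End.mul_apply, hQapply, sub_eq_zero] at h0
        exact ih y hy (hO1 _ (hOpoly _ y hy) h0)
    have h1 : aeval f h x = 0 := by
      refine hinj n _ (hOpoly h x hx) ?_
      rw [← Module.End.mul_apply, ← map_mul, hkf, LinearMap.zero_apply]
    rw [map_mul, Module.End.mul_apply, h1, map_zero]
  have hPK : ∀ x ∈ K, aeval f P x = 0 := by
    intro x hx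
    have hx2 : aeval f Q x = (q ^ 2 - 1) • x := by
      rw [hQapply, hK x hx, sub_smul, one_smul]
    have h1 : aeval f (Q ^ n * h) x = (q ^ 2 - 1) ^ n • aeval f h x := by
      rw [mul_comm (Q ^ n) h, map_mul, map_pow, Module.End.mul_apply]
      have := pow_mul_pow_eq hx2 (X ^ n)
      rw [map_pow, aeval_X, eval_pow, eval_X] at this
      rw [this, map_smul]
    rw [hkf, LinearMap.zero_apply, eq_comm, smul_eq_zero] at h1
    rw [map_mul, Module.End.mul_apply, h1.resolve_left (pow_ne_zero _ (sub_ne_zero.mpr hq)),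
      map_zero]
  have hgK : ∀ x ∈ K, aeval g P x = x := by
    intro x hx
    have h2 : aeval g Q x = 0 := by
      rw [hQapply]
      have h3 : ρ F⁻¹ (ρ F⁻¹ (ρ F (ρ F x))) = x := by
        simp only [← Module.End.mul_apply, ← map_mul]
        simp
      rw [hK x hx, map_smul, map_smul] at h3
      change q • ρ F⁻¹ (q • ρ F⁻¹ x) - x = 0
      rw [map_smul, smul_smul, ← sq, h3, sub_self]
    have h3 : aeval g (u * Q ^ n) x = 0 := by
      rw [show u * Q ^ n = u * Q ^ (n - 1) * Q by rw [mul_assoc, ← pow_succ, Nat.sub_add_cancel (by omega)],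
        map_mul, Module.End.mul_apply, h2, map_zero]
    have h4 := congrArg (fun R : L[X] => aeval g R x) huv
    simp only [map_add, map_one, LinearMap.add_apply, h3, zero_add, Module.End.one_apply] at h4
    exact h4
  -- traces
  have htr : ∀ R : L[X], LinearMap.trace L V (aeval f R) = LinearMap.trace L V (aeval g R) := by
    intro R
    induction R using Polynomial.induction_on' with
    | add R S hR hS => rw [map_add, map_add, map_add, map_add, hR, hS]
    | monomial k r =>
      rw [aeval_monomial, aeval_monomial, ← Algebra.smul_def, ← Algebra.smul_def, map_smul,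
        map_smul]
      congr 1
      rw [_root_.smul_pow, map_smul, smul_eq_mul, ← map_pow, ← map_pow, inv_pow, hsym, map_pow, hχ]
  have hef := (LinearMap.isProj_range_iff_isIdempotentElem _).mpr hidem
  have heg := (LinearMap.isProj_range_iff_isIdempotentElem _).mpr hidemg
  have hrk : finrank L (LinearMap.range (aeval f P)) = finrank L (LinearMap.range (aeval g P)) := by
    have h1 := htr P
    rw [hef.trace, heg.trace] at h1
    exact_mod_cast h1
  have hKle : K ≤ LinearMap.range (aeval g P) := fun x hx => ⟨x, hgK x hx⟩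
  have hker : O ⊔ K ≤ LinearMap.ker (aeval f P) :=
    sup_le (fun x hx => LinearMap.mem_ker.mpr (hPO x hx))
      (fun x hx => LinearMap.mem_ker.mpr (hPK x hx))
  have hdisj : O ⊓ K = ⊥ := by
    rw [eq_bot_iff]
    rintro x ⟨hxO, hxK⟩
    exact (Submodule.mem_bot L).mpr (hOq x hxO (hK x hxK))
  have h1 := Submodule.finrank_sup_add_finrank_inf_eq O K
  rw [hdisj, finrank_bot, add_zero] at h1
  have h2 := Submodule.finrank_mono hker
  have h3 := Submodule.finrank_mono hKle
  have h4 := LinearMap.finrank_range_add_finrank_ker (aeval f P)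
  omega

end FLTAgent.Local
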