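import Fermat.Agent.Local.Span
import Fermat.Agent.Local.Counting
import Fermat.Agent.Local.Bound

/-!
# A prime dividing the level exactly once

Works over a field `L` with the scalar extensions `galRep`, `heckeL` of a model. On a level prime
to `q` Frobenius has no eigenvalue `±1`, `±q` (`frobenius_sq_ne_one`, `frobenius_sq_ne_q`). With
`DataOneCore`, counting dimensions against the toric part gives `M(i) + M(i)⁻¹ = 2` on inertia at
`q` (`inertia_add_inv_L`, `traceOp_inertia`), and an eigenvector of `M(F) + q M(F)⁻¹` with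
eigenvalue `a`, `a² ≠ (q + 1)²`, lies in the old range (`mem_oldRange_of_eigen`).
-/

set_option autoImplicit false
set_option linter.style.haveILetI false

noncomputable section

open CuspForm Matrix Module

namespace FLTAgent.Local

open FLTAgent.Reps

local notation "ℚ̄" => AlgebraicClosure ℚ
local notation "Γℚ" => (AlgebraicClosure ℚ ≃ₐ[ℚ] AlgebraicClosure ℚ)

variable {p : ℕ} [Fact p.Prime] {L : Type} [Field L]

/-! ### Extension of scalars -/

section Base

variable {R : Type*} [CommRing R]

/-- A matrix over `R` as a linear map over `L`. -/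
def linMap (f : R →+* L) {m n : Type*} [Fintype n] (A : Matrix m n R) : (n → L) →ₗ[L] m → L :=
  (A.map f).mulVecLin

theorem linMap_apply (f : R →+* L) {m n : Type*} [Fintype n] (A : Matrix m n R) (v : n → L) :
    linMap f A v = A.map f *ᵥ v := rfl

theorem linMap_mul (f : R →+* L) {l m n : Type*} [Fintype m] [Fintype n] (A : Matrix l m R)
    (B : Matrix m n R) (v : n → L) :
    linMap f (A * B) v = linMap f A (linMap f B v) := by
  simp only [linMap_apply, Matrix.map_mul, Matrix.mulVec_mulVec]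

theorem linMap_add (f : R →+* L) {m n : Type*} [Fintype n] (A B : Matrix m n R) (v : n → L) :
    linMap f (A + B) v = linMap f A v + linMap f B v := by
  simp only [linMap_apply, Matrix.map_add (f : R → L) (map_add f), Matrix.add_mulVec]

theorem linMap_sub (f : R →+* L) {m n : Type*} [Fintype n] (A B : Matrix m n R) (v : n → L) :
    linMap f (A - B) v = linMap f A v - linMap f B v := by
  simp only [linMap_apply, Matrix.map_sub (f : R → L) (map_sub f), Matrix.sub_mulVec]

theorem linMap_smul (f : R →+* L) {m n : Type*} [Fintype n] (c : R) (A : Matrix m n R) (v : n → L) :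
    linMap f (c • A) v = f c • linMap f A v := by
  rw [linMap_apply, linMap_apply, ← Matrix.smul_mulVec]
  congr 1
  ext i j
  simp

/-- Square matrices act through a ring homomorphism. -/
def linEnd (f : R →+* L) (r : ℕ) : Matrix (Fin r) (Fin r) R →+* Module.End L (Fin r → L) :=
  (Matrix.toLinAlgEquiv' (R := L) (n := Fin r)).toRingEquiv.toRingHom.comp f.mapMatrix

theorem linEnd_apply (f : R →+* L) {r : ℕ} (A : Matrix (Fin r) (Fin r) R) (v : Fin r → L) :
    linEnd f r A v = linMap f A v := rfl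

theorem linMap_icast [CharZero L] (f : R →+* L) {m n : Type*} [Fintype n] (A : Matrix m n ℤ) :
    linMap f (icast R A) = linMap (Int.castRingHom L) A := by
  refine LinearMap.ext fun v => ?_
  rw [linMap_apply, linMap_apply]
  congr 1
  ext i j
  simp

/-- Injectivity of a matrix survives extension to a field. -/
theorem linMap_injective [IsDomain R] {f : R →+* L} (hf : Function.Injective f) {m n : Type*}
    [Fintype m] [Fintype n] [DecidableEq m] [DecidableEq n]
    {A : Matrix m n R} (hA : Function.Injective fun v : n → R => A *ᵥ v) :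
    Function.Injective (linMap f A) := by
  let K := FractionRing R
  let A' := A.map (algebraMap R K)
  have hA' : Function.Injective A'.mulVecLin := by
    rw [injective_iff_map_eq_zero]
    intro x hx
    obtain ⟨⟨b, hb⟩, hbx⟩ := IsLocalization.exist_integer_multiples_of_finite (nonZeroDivisors R) x
    choose y hy using hbx
    have hy' : (algebraMap R K) ∘ y = b • x := funext fun i => by simpa using hy i
    have h1 : A *ᵥ y = 0 := by
      ext i
      apply IsFractionRing.injective R K
      rw [RingHom.map_mulVec, hy', Matrix.mulVec_smul, Pi.smul_apply]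
      rw [Matrix.mulVecLin_apply] at hx
      simp [A', hx]
    have h2 : y = 0 := hA (by simpa using h1)
    have hb0 : algebraMap R K b ≠ 0 := by
      simpa using nonZeroDivisors.ne_zero hb
    funext i
    have h3 := congrFun hy' i
    rw [h2] at h3
    simp only [Function.comp_apply, Pi.zero_apply, map_zero, Pi.smul_apply, Algebra.smul_def] at h3
    simpa [hb0] using h3.symm
  obtain ⟨g, hg⟩ := LinearMap.exists_leftInverse_of_injective _ (LinearMap.ker_eq_bot.mpr hA')
  have hC : LinearMap.toMatrix' g * A' = 1 := by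
    rw [← LinearMap.toMatrix'_toLin' A', ← LinearMap.toMatrix'_comp, ← LinearMap.toMatrix'_id]
    exact congrArg _ hg
  let φ : K →+* L := IsFractionRing.lift hf
  have h2 : (LinearMap.toMatrix' g).map φ * A.map f = 1 := by
    have := congrArg (fun X : Matrix n n K => X.map φ) hC
    simp only [Matrix.map_mul, Matrix.map_one φ (map_zero φ) (map_one φ)] at this
    convert this using 2
    ext i j
    simp [A', φ]
  intro x y hxy
  have h3 := congrArg (fun z => (LinearMap.toMatrix' g).map φ *ᵥ z) hxy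
  simpa [linMap_apply, Matrix.mulVec_mulVec, h2] using h3

theorem linMap_zero_iff {f : R →+* L} (hf : Function.Injective f) {m n : Type*} [Fintype n]
    [DecidableEq n]
    {A : Matrix m n R} (h : ∀ v, linMap f A v = 0) : A = 0 := by
  ext i j
  have := congrFun (h (Pi.single j 1)) i
  apply hf
  simpa [linMap_apply] using this

end Base

section Galois

variable {N : ℕ} [NeZero N] (f : ℤ_[p] →+* L)

/-- The Galois action over `L`. -/
def galRep (G : GalModel N p) : Γℚ →* Module.End L (Fin G.r → L) :=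
  (linEnd f G.r).toMonoidHom.comp G.M

/-- The cyclotomic character in `L`. -/
def chiL : Γℚ →* L := f.toMonoidHom.comp (cyc p)

theorem galRep_apply (G : GalModel N p) (g : Γℚ) (v : Fin G.r → L) :
    galRep f G g v = linMap f (G.M g) v := rfl

theorem linEnd_traceOp (G : GalModel N p) (g : Γℚ) :
    linEnd f G.r (traceOp G.M g) = aOp (galRep f G) (chiL f) g := by
  refine LinearMap.ext fun v => ?_
  rw [linEnd_apply, traceOp, linMap_add, linMap_smul]
  rfl

theorem commute_galRep_aOp (G : GalModel N p) (g h : Γℚ) :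
    Commute (galRep f G h) (aOp (galRep f G) (chiL f) g) := by
  rw [← linEnd_traceOp]
  exact (commute_galois_traceOp G g h).map (linEnd f G.r)

theorem galMap_comm {N' : ℕ} [NeZero N'] {G : GalModel N p} {G' : GalModel N' p} [CharZero L]
    (φ : GalMap G G') (g : Γℚ) (v : Fin G.r → L) :
    galRep f G' g (linMap (Int.castRingHom L) φ.mat v) =
      linMap (Int.castRingHom L) φ.mat (galRep f G g v) := by
  rw [← linMap_icast f, galRep_apply, galRep_apply, ← linMap_mul, ← linMap_mul, φ.galois]

theorem galMap_aOp {N' : ℕ} [NeZero N'] {G : GalModel N p} {G' : GalModel N' p} [CharZero L]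
    (φ : GalMap G G') (g : Γℚ) (v : Fin G.r → L) :
    aOp (galRep f G') (chiL f) g (linMap (Int.castRingHom L) φ.mat v) =
      linMap (Int.castRingHom L) φ.mat (aOp (galRep f G) (chiL f) g v) := by
  simp only [aOp, LinearMap.add_apply, LinearMap.smul_apply, galMap_comm, map_add, map_smul]

theorem chiL_inertia {q : ℕ} (hq : q.Prime) (hqp : q ≠ p) {A : ValuationSubring ℚ̄}
    (hA : A.LiesOverPrime q) {i : Γℚ} (hi : i ∈ A.inertiaSubgroupIn ℚ) : chiL f i = 1 := by
  simp [chiL, cyc_inertia hq hqp hA hi]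

theorem chiL_frobenius {q : ℕ} (hq : q.Prime) (hqp : q ≠ p) {A : ValuationSubring ℚ̄}
    (hA : A.LiesOverPrime q) {F : Γℚ} (hF : A.IsFrobeniusAt F q) : chiL f F = q := by
  simp [chiL, cyc_frobenius hq hqp hA hF]

/-- Inertia at `q` acts trivially on a level prime to `q`. -/
theorem galRep_inertia_eq_one {q : ℕ} (G : GalModel N p) (hq : q.Prime) (hqN : ¬ q ∣ N)
    (hqp : q ≠ p) {A : ValuationSubring ℚ̄} (hA : A.LiesOverPrime q) {i : Γℚ}
    (hi : i ∈ A.inertiaSubgroupIn ℚ) : galRep f G i = 1 := by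
  show linEnd f G.r (G.M i) = 1
  rw [G.inertia_trivial q hq hqN hqp A hA i hi, map_one]

/-- `T_q` acting over `L`. -/
def heckeL (G : GalModel N p) {q : ℕ} (hq : q.Prime) (hqN : ¬ q ∣ N) :
    Module.End L (Fin G.r → L) :=
  linEnd (Int.castRingHom L) G.r (G.τ (heckeTOf hq hqN))

variable [CharZero L] (G : GalModel N p) {q : ℕ} (hq : q.Prime) (hqN : ¬ q ∣ N) (hqp : q ≠ p)
  {A : ValuationSubring ℚ̄} (hA : A.LiesOverPrime q) {F : Γℚ} (hF : A.IsFrobeniusAt F q)

theorem linEnd_icast (X : Matrix (Fin G.r) (Fin G.r) ℤ) :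
    linEnd f G.r (icast ℤ_[p] X) = linEnd (Int.castRingHom L) G.r X :=
  LinearMap.ext fun v => by rw [linEnd_apply, linEnd_apply, linMap_icast]

theorem heckeL_comm (g : Γℚ) : Commute (galRep f G g) (heckeL (L := L) G hq hqN) := by
  rw [heckeL, ← linEnd_icast f]
  exact (G.commute_hecke g _).map (linEnd f G.r)

include hqp hA hF in
theorem frobenius_rel_L (u : Fin G.r → L) :
    galRep f G F (galRep f G F u) + (q : L) • u = heckeL G hq hqN (galRep f G F u) := by
  have h := congrArg (linEnd f G.r) (G.frobenius_rel q hq hqN hqp A hA F hF)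
  rw [map_add, map_sub, map_mul, map_mul, map_zero, map_natCast,
    show (Int.castRingHom ℤ_[p]).mapMatrix (G.τ (heckeTOf hq hqN)) =
      icast ℤ_[p] (G.τ (heckeTOf hq hqN)) from rfl, linEnd_icast f G] at h
  have h2 := LinearMap.congr_fun h u
  simp only [LinearMap.add_apply, LinearMap.sub_apply, Module.End.mul_apply, LinearMap.zero_apply,
    Module.End.natCast_apply] at h2
  rw [← Nat.cast_smul_eq_nsmul L] at h2
  exact sub_eq_zero.mp (by rw [← h2]; simp only [heckeL]; exact (sub_add_eq_add_sub _ _ _).symm)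

include hqp hA hF in
theorem aOp_frobenius (u : Fin G.r → L) :
    aOp (galRep f G) (chiL f) F u = heckeL G hq hqN u := by
  have h := frobenius_rel_L f G hq hqN hqp hA hF (galRep f G F⁻¹ u)
  rw [← Module.End.mul_apply (galRep f G F) (galRep f G F⁻¹), ← map_mul, mul_inv_cancel, map_one,
    Module.End.one_apply] at h
  rw [aOp, LinearMap.add_apply, LinearMap.smul_apply, chiL_frobenius f hq hqp hA hF]
  exact h

omit [CharZero L] in
theorem heckeL_sq_injective [CharZero L] {u : Fin G.r → L}
    (h : heckeL G hq hqN (heckeL G hq hqN u) = ((q : L) + 1) ^ 2 • u) : u = 0 := by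
  have hinj : ∀ c : ℤ, |c| = (q : ℤ) + 1 → ∀ w : Fin G.r → L,
      heckeL G hq hqN w = (c : L) • w → w = 0 := by
    intro c hc w hw
    have hdet := det_heckeT_sub_ne_zero hq hqN G.τ G.τ_injective hc
    set X := G.τ (heckeTOf hq hqN) - (c : Matrix (Fin G.r) (Fin G.r) ℤ) with hX
    have h1 : linEnd (Int.castRingHom L) G.r X w = 0 := by
      rw [hX, map_sub, map_intCast, LinearMap.sub_apply, sub_eq_zero]
      refine hw.trans ?_
      rw [Module.End.intCast_apply, Int.cast_smul_eq_zsmul]
    have h2 : (X.map (Int.castRingHom L)).det ≠ 0 := by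
      rw [← RingHom.mapMatrix_apply, ← RingHom.map_det]
      simpa using hdet
    exact (Matrix.mulVec_injective_iff_isUnit.mpr
      ((Matrix.isUnit_iff_isUnit_det _).mpr (isUnit_iff_ne_zero.mpr h2)))
      (h1.trans (Matrix.mulVec_zero _).symm)
  let w := heckeL G hq hqN u + ((q : L) + 1) • u
  have hw : w = 0 := by
    refine hinj ((q : ℤ) + 1) (abs_of_nonneg (by positivity)) w ?_
    simp only [w, map_add, map_smul, h, smul_add, smul_smul, Int.cast_add, Int.cast_natCast,
      Int.cast_one, ← sq]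
    abel
  refine hinj (-((q : ℤ) + 1)) (by rw [abs_neg, abs_of_nonneg (by positivity)]) u ?_
  rw [Int.cast_neg, Int.cast_add, Int.cast_natCast, Int.cast_one, neg_smul]
  exact eq_neg_of_add_eq_zero_left hw

include hq hqN hqp hA hF in
/-- Frobenius has no eigenvalue `±1` on a level prime to `q`. -/
theorem frobenius_sq_ne_one {u : Fin G.r → L} (h : galRep f G F (galRep f G F u) = u) : u = 0 := by
  refine heckeL_sq_injective G hq hqN ?_
  have hc : ∀ v, galRep f G F (heckeL G hq hqN v) = heckeL G hq hqN (galRep f G F v) :=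
    LinearMap.congr_fun (heckeL_comm f G hq hqN F).eq
  have h1 := frobenius_rel_L f G hq hqN hqp hA hF u
  rw [h] at h1
  have h3 : heckeL G hq hqN u = ((q : L) + 1) • galRep f G F u := by
    have h4 := congrArg (galRep f G F) h1
    rw [map_add, map_smul, hc, h] at h4
    rw [← h4, add_smul, one_smul, add_comm]
  rw [h3, map_smul, ← h1]
  module

include hq hqN hqp hA hF in
/-- Frobenius has no eigenvalue `±q` on a level prime to `q`. -/
theorem frobenius_sq_ne_q {u : Fin G.r → L}
    (h : galRep f G F (galRep f G F u) = (q : L) ^ 2 • u) : u = 0 := by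
  refine heckeL_sq_injective G hq hqN ?_
  have hc : ∀ v, galRep f G F (heckeL G hq hqN v) = heckeL G hq hqN (galRep f G F v) :=
    LinearMap.congr_fun (heckeL_comm f G hq hqN F).eq
  have h1 := frobenius_rel_L f G hq hqN hqp hA hF u
  rw [h] at h1
  have hq2 : ((q : L) ^ 2) ≠ 0 := pow_ne_zero _ (Nat.cast_ne_zero.mpr hq.ne_zero)
  have h4 := congrArg (galRep f G F) h1
  rw [map_add, map_smul, map_smul, hc, h, map_smul] at h4
  have h5 := congrArg (heckeL G hq hqN) h4
  rw [map_add, map_smul, map_smul, ← h1, map_smul, smul_add, smul_smul, smul_smul] at h5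
  apply smul_right_injective _ hq2
  show (q : L) ^ 2 • _ = (q : L) ^ 2 • _
  rw [← h5]
  module

end Galois

/-- The toric vectors over a field. -/
theorem HasToricPart.exists_sub {N : ℕ} [NeZero N] {G : GalModel N p} {q k : ℕ}
    (h : HasToricPart G q k) {f : ℤ_[p] →+* L} (hf : Function.Injective f)
    {A : ValuationSubring ℚ̄} (hA : A.LiesOverPrime q) :
    ∃ K : Submodule L (Fin G.r → L), finrank L K = k ∧
      (∀ i ∈ A.inertiaSubgroupIn ℚ, ∀ v ∈ K, galRep f G i v = v) ∧
      ∀ F : Γℚ, A.IsFrobeniusAt F q → ∀ v ∈ K,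
        galRep f G F (galRep f G F v) = (q : L) ^ 2 • v := by
  obtain ⟨B, hB, hBi, hBF⟩ := h A hA
  refine ⟨LinearMap.range (linMap f B), ?_, ?_, ?_⟩
  · rw [LinearMap.finrank_range_of_inj (linMap_injective hf hB), Module.finrank_fin_fun]
  · rintro i hi _ ⟨x, rfl⟩
    rw [galRep_apply, ← linMap_mul, hBi i hi]
  · rintro F hF _ ⟨x, rfl⟩
    rw [galRep_apply, galRep_apply, ← linMap_mul, ← linMap_mul, Matrix.mul_assoc, hBF F hF,
      ← Nat.cast_smul_eq_nsmul ℤ_[p], linMap_smul, map_natCast, Nat.cast_pow]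

/-! ### Invariant subspaces -/

section One

variable [CharZero L] {q N₀ N₁ M M₁ : ℕ} [NeZero N₀] [NeZero N₁] [NeZero M] [NeZero M₁]
  (D : DataOneCore p q N₀ N₁ M M₁) {f : ℤ_[p] →+* L} (hf : Function.Injective f)
  (hq : q.Prime) (hqp : q ≠ p) {A : ValuationSubring ℚ̄} (hA : A.LiesOverPrime q)

/-- The two degeneracy maps over `L`. -/
def DataOneCore.oldMap : ((Fin D.h₀.r → L) × (Fin D.h₀.r → L)) →ₗ[L] (Fin D.h₁.r → L) :=
  (linMap (Int.castRingHom L) D.sq.a.mat).coprod (linMap (Int.castRingHom L) D.sq.b.mat)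

/-- The old subspace. -/
def DataOneCore.oldSub : Submodule L (Fin D.h₁.r → L) := LinearMap.range D.oldMap

theorem oldMap_injective : Function.Injective (D.oldMap (L := L)) := by
  have hinj : Function.Injective fun v => Matrix.fromCols D.sq.a.mat D.sq.b.mat *ᵥ v := by
    intro v w hvw
    have h0 : Matrix.fromCols D.sq.a.mat D.sq.b.mat *ᵥ (v - w) = 0 := by
      rw [Matrix.mulVec_sub]; exact sub_eq_zero.mpr hvw
    rw [Matrix.fromCols_mulVec] at h0
    obtain ⟨h2, h3⟩ := D.deg_injective _ _ h0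
    funext i
    rcases i with s | s
    · exact sub_eq_zero.mp (congrFun h2 s)
    · exact sub_eq_zero.mp (congrFun h3 s)
  rw [injective_iff_map_eq_zero]
  rintro ⟨x, y⟩ hxy
  have h4 : linMap (Int.castRingHom L) (Matrix.fromCols D.sq.a.mat D.sq.b.mat) (Sum.elim x y) = 0 := by
    rw [linMap_apply, Matrix.fromCols_map, Matrix.fromCols_mulVec]
    simpa [DataOneCore.oldMap, linMap_apply] using hxy
  have h5 := (injective_iff_map_eq_zero _).mp
    (linMap_injective (RingHom.injective_int _) hinj) _ h4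
  exact Prod.ext (funext fun s => congrFun h5 (Sum.inl s))
    (funext fun s => congrFun h5 (Sum.inr s))

theorem finrank_oldSub : finrank L (D.oldSub (L := L)) = 2 * D.h₀.r := by
  rw [DataOneCore.oldSub, LinearMap.finrank_range_of_inj (oldMap_injective D), Module.finrank_prod,
    Module.finrank_fin_fun, two_mul]

theorem galRep_oldMap (g : Γℚ) (x : (Fin D.h₀.r → L) × (Fin D.h₀.r → L)) :
    galRep f D.h₁ g (D.oldMap x) = D.oldMap (galRep f D.h₀ g x.1, galRep f D.h₀ g x.2) := by
  simp only [DataOneCore.oldMap, LinearMap.coprod_apply, map_add, galMap_comm]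

include hq hqp hA in
theorem inertia_oldSub {i : Γℚ} (hi : i ∈ A.inertiaSubgroupIn ℚ) {v : Fin D.h₁.r → L}
    (hv : v ∈ D.oldSub) : galRep f D.h₁ i v = v := by
  obtain ⟨x, rfl⟩ := hv
  rw [galRep_oldMap, galRep_inertia_eq_one f D.h₀ hq D.not_dvd hqp hA hi]
  rfl

include hq hqp hA in
theorem frobenius_oldSub {F : Γℚ} (hF : A.IsFrobeniusAt F q) :
    (∀ v ∈ D.oldSub, galRep f D.h₁ F v ∈ D.oldSub) ∧
    (∀ v ∈ D.oldSub, galRep f D.h₁ F (galRep f D.h₁ F v) = v → v = 0) ∧
    (∀ v ∈ D.oldSub, galRep f D.h₁ F (galRep f D.h₁ F v) = (q : L) ^ 2 • v → v = 0) := by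
  refine ⟨?_, ?_, ?_⟩
  · rintro _ ⟨x, rfl⟩
    exact ⟨_, (galRep_oldMap D F x).symm⟩
  · rintro _ ⟨x, rfl⟩ h
    rw [galRep_oldMap, galRep_oldMap] at h
    have h2 := oldMap_injective D h
    rw [Prod.ext_iff] at h2
    rw [show x = 0 from Prod.ext (frobenius_sq_ne_one f D.h₀ hq D.not_dvd hqp hA hF h2.1)
      (frobenius_sq_ne_one f D.h₀ hq D.not_dvd hqp hA hF h2.2), map_zero]
  · rintro _ ⟨x, rfl⟩ h
    rw [galRep_oldMap, galRep_oldMap, ← map_smul] at h
    have h2 := oldMap_injective D h
    rw [Prod.ext_iff] at h2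
    rw [show x = 0 from Prod.ext (frobenius_sq_ne_q f D.h₀ hq D.not_dvd hqp hA hF h2.1)
      (frobenius_sq_ne_q f D.h₀ hq D.not_dvd hqp hA hF h2.2), map_zero]

omit [CharZero L] in
include hf hA in
/-- The toric vectors over `L`. -/
theorem exists_toric_L :
    ∃ K : Submodule L (Fin D.h₁.r → L), finrank L K = D.k ∧
      (∀ i ∈ A.inertiaSubgroupIn ℚ, ∀ v ∈ K, galRep f D.h₁ i v = v) ∧
      ∀ F : Γℚ, A.IsFrobeniusAt F q → ∀ v ∈ K,
        galRep f D.h₁ F (galRep f D.h₁ F v) = (q : L) ^ 2 • v :=
  D.toric.exists_sub hf hA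

/-- The operator `θ` over `L`. -/
def DataOneCore.thetaL : Module.End L (Fin D.h₁.r → L) := linEnd (Int.castRingHom L) D.h₁.r D.θ

theorem thetaL_injective : Function.Injective (D.thetaL (L := L)) := by
  have h2 : (D.θ.map (Int.castRingHom L)).det ≠ 0 := by
    rw [← RingHom.mapMatrix_apply, ← RingHom.map_det]
    simpa using D.θ_det
  exact Matrix.mulVec_injective_iff_isUnit.mpr
    ((Matrix.isUnit_iff_isUnit_det _).mpr (isUnit_iff_ne_zero.mpr h2))

theorem thetaL_anti :
    D.thetaL * galRep f D.h₁ D.h₁.cc = -(galRep f D.h₁ D.h₁.cc * D.thetaL) := by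
  have h := congrArg (linEnd f D.h₁.r) D.θ_anti
  rw [map_mul, map_neg, map_mul, linEnd_icast] at h
  exact h

theorem thetaL_aOp (g : Γℚ) : Commute D.thetaL (aOp (galRep f D.h₁) (chiL f) g) := by
  rw [← linEnd_traceOp, DataOneCore.thetaL, ← linEnd_icast f]
  exact (traceOp_comm D.h₁ g D.θ_comm).map (linEnd f D.h₁.r)

include hf hq hqp hA in
/-- The dimension count on a subspace stable under Galois and `θ` containing the toric part. -/
theorem finrank_le_of_stable (W : Submodule L (Fin D.h₁.r → L))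
    (hWg : ∀ g, ∀ v ∈ W, galRep f D.h₁ g v ∈ W) (hWθ : ∀ v ∈ W, D.thetaL v ∈ W)
    (O : Submodule L (Fin D.h₁.r → L)) (hOW : O ≤ W) (hOo : O ≤ D.oldSub)
    (hOF : ∀ F, A.IsFrobeniusAt F q → ∀ v ∈ O, galRep f D.h₁ F v ∈ O)
    (hKW : ∀ v, (∀ i ∈ A.inertiaSubgroupIn ℚ, galRep f D.h₁ i v = v) →
      (∀ F, A.IsFrobeniusAt F q → galRep f D.h₁ F (galRep f D.h₁ F v) = (q : L) ^ 2 • v) → v ∈ W) :
    finrank L O + 2 * D.k ≤ finrank L W := by
  obtain ⟨K, hKk, hKi, hKF⟩ := exists_toric_L D hf hA
  obtain ⟨F, hF⟩ := GalCommon.exists_isFrobeniusAt hq hA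
  let ρW : Γℚ →* Module.End L W :=
    { toFun := fun g => (galRep f D.h₁ g).restrict (hWg g)
      map_one' := LinearMap.ext fun v => Subtype.ext (by simp [LinearMap.restrict_apply])
      map_mul' := fun g h => LinearMap.ext fun v => Subtype.ext (by simp [LinearMap.restrict_apply]) }
  let θW : Module.End L W := D.thetaL.restrict hWθ
  have haOp : ∀ g (v : W), ((aOp ρW (chiL f) g v : W) : Fin D.h₁.r → L) =
      aOp (galRep f D.h₁) (chiL f) g v := fun g v => rfl
  have hsym := trace_symm ρW (chiL f) D.h₁.cc_mul_self (θ := θW)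
    (fun v w h => Subtype.ext (thetaL_injective D (congrArg Subtype.val h)))
    (LinearMap.ext fun v => Subtype.ext (LinearMap.congr_fun (thetaL_anti D) (v : Fin D.h₁.r → L)))
    (fun g h => LinearMap.ext fun v => Subtype.ext (by
      simp only [Module.End.mul_apply]
      exact LinearMap.congr_fun (commute_galRep_aOp f D.h₁ g h).eq (v : Fin D.h₁.r → L)))
    (fun g => LinearMap.ext fun v => Subtype.ext (by
      simp only [Module.End.mul_apply]
      exact LinearMap.congr_fun (thetaL_aOp D g).eq (v : Fin D.h₁.r → L)))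
  obtain ⟨-, hO1, hOq⟩ := frobenius_oldSub D hq hqp hA (f := f) hF
  have hK' : ∀ v ∈ K, v ∈ W := fun v hv =>
    hKW v (fun i hi => hKi i hi v hv) (fun F' hF' => hKF F' hF' v hv)
  have key := finrank_count ρW (chiL f) hsym (chiL_frobenius f hq hqp hA hF)
    (by rw [← Nat.cast_pow, Ne, Nat.cast_eq_one]; exact (one_lt_pow₀ hq.one_lt two_ne_zero).ne')
    (O.comap W.subtype) (K.comap W.subtype)
    (fun x hx => hOF F hF _ hx)
    (fun x hx h => Subtype.ext (hO1 _ (hOo hx) (congrArg Subtype.val h)))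
    (fun x hx h => Subtype.ext (hOq _ (hOo hx) (congrArg Subtype.val h)))
    (fun x hx => Subtype.ext (hKF F hF _ hx))
  rwa [(Submodule.comapSubtypeEquivOfLe hOW).finrank_eq,
    (Submodule.comapSubtypeEquivOfLe (p := K) (q := W) hK').finrank_eq, hKk] at key

include hf hq hqp hA in
/-- Inertia satisfies `i + i⁻¹ = 2` at level `M₁`. -/
theorem inertia_add_inv_L {i : Γℚ} (hi : i ∈ A.inertiaSubgroupIn ℚ) :
    aOp (galRep f D.h₁) (chiL f) i = (2 : L) • 1 := by
  let z := aOp (galRep f D.h₁) (chiL f) i - (2 : L) • 1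
  have hfix : ∀ v, galRep f D.h₁ i v = v → v ∈ LinearMap.ker z := by
    intro v hv
    have hv' : galRep f D.h₁ i⁻¹ v = v := by
      conv_lhs => rw [← hv]
      rw [← Module.End.mul_apply, ← map_mul, inv_mul_cancel, map_one, Module.End.one_apply]
    simp [z, aOp, chiL_inertia f hq hqp hA hi, hv, hv', two_smul]
  have hcom : ∀ (X : Module.End L (Fin D.h₁.r → L)),
      Commute X (aOp (galRep f D.h₁) (chiL f) i) →
      ∀ v ∈ LinearMap.ker z, X v ∈ LinearMap.ker z := by
    intro X hX v hv
    rw [LinearMap.mem_ker] at hv ⊢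
    have : Commute X z := hX.sub_right ((Commute.one_right X).smul_right _)
    rw [← Module.End.mul_apply, ← this.eq, Module.End.mul_apply, hv, map_zero]
  have h1 := finrank_le_of_stable D hf hq hqp hA (LinearMap.ker z)
    (fun g => hcom _ (commute_galRep_aOp f D.h₁ i g)) (hcom _ (thetaL_aOp D i))
    D.oldSub (fun v hv => hfix v (inertia_oldSub D hq hqp hA hi hv)) le_rfl
    (fun F hF => (frobenius_oldSub D hq hqp hA hF).1) (fun v hv _ => hfix v (hv i hi))
  rw [finrank_oldSub] at h1
  have h2 : LinearMap.ker z = ⊤ := by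
    refine Submodule.eq_top_of_finrank_eq (le_antisymm (Submodule.finrank_le _) ?_)
    rw [Module.finrank_fin_fun]
    exact D.rank_le.trans h1
  exact sub_eq_zero.mp (LinearMap.ker_eq_top.mp h2)

include hf hq hqp hA in
/-- Outside the old part `A(F)² = (q + 1)²`. -/
theorem mem_oldRange_of_eigen {F : Γℚ} (hF : A.IsFrobeniusAt F q) {v : Fin D.g₁.r → L} {a : L}
    (hv : aOp (galRep f D.g₁) (chiL f) F v = a • v) (ha : a ^ 2 ≠ ((q : L) + 1) ^ 2) :
    v ∈ LinearMap.range ((linMap (Int.castRingHom L) D.sq.a₀.mat).coprod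
      (linMap (Int.castRingHom L) D.sq.b₀.mat)) := by
  let T := aOp (galRep f D.h₁) (chiL f) F
  let c : L := ((q : L) + 1) ^ 2
  let z := T * T - c • 1
  have hold : ∀ x, T (D.oldMap x) =
      D.oldMap (heckeL D.h₀ hq D.not_dvd x.1, heckeL D.h₀ hq D.not_dvd x.2) := by
    intro x
    simp only [DataOneCore.oldMap, LinearMap.coprod_apply, map_add, T, galMap_aOp,
      aOp_frobenius f D.h₀ hq D.not_dvd hqp hA hF]
  have hzold : ∀ w ∈ D.oldSub, z w ∈ D.oldSub := by
    rintro _ ⟨x, rfl⟩
    simp only [z, LinearMap.sub_apply, Module.End.mul_apply, hold, LinearMap.smul_apply,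
      Module.End.one_apply]
    exact sub_mem ⟨_, rfl⟩ (D.oldSub.smul_mem _ ⟨_, rfl⟩)
  have hdisj : Disjoint (D.oldSub) (LinearMap.ker z) := by
    rw [Submodule.disjoint_def]
    rintro _ ⟨x, rfl⟩ hx
    simp only [LinearMap.mem_ker, z, LinearMap.sub_apply, Module.End.mul_apply, hold,
      LinearMap.smul_apply, Module.End.one_apply, sub_eq_zero, ← map_smul] at hx
    have h2 := oldMap_injective D hx
    rw [Prod.ext_iff] at h2
    rw [show x = 0 from Prod.ext (heckeL_sq_injective D.h₀ hq D.not_dvd h2.1)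
      (heckeL_sq_injective D.h₀ hq D.not_dvd h2.2), map_zero]
  have hcom : ∀ (X : Module.End L (Fin D.h₁.r → L)), Commute X T →
      ∀ v ∈ LinearMap.ker z, X v ∈ LinearMap.ker z := by
    intro X hX v hv
    rw [LinearMap.mem_ker] at hv ⊢
    have : Commute X z := (hX.mul_right hX).sub_right ((Commute.one_right X).smul_right _)
    rw [← Module.End.mul_apply, ← this.eq, Module.End.mul_apply, hv, map_zero]
  have h1 := finrank_le_of_stable D hf hq hqp hA (LinearMap.ker z)
    (fun g => hcom _ (commute_galRep_aOp f D.h₁ F g)) (hcom _ (thetaL_aOp D F))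
    ⊥ bot_le bot_le (fun F' _ v hv => by rw [(Submodule.mem_bot L).mp hv, map_zero]; exact zero_mem _)
    (fun w _ hw => by
      have hT : ∀ u, galRep f D.h₁ F (galRep f D.h₁ F u) = (q : L) ^ 2 • u →
          T (T u) = c • u := by
        intro u hu
        have hinv : ∀ y, galRep f D.h₁ F⁻¹ (galRep f D.h₁ F y) = y := fun y => by
          rw [← Module.End.mul_apply, ← map_mul, inv_mul_cancel, map_one, Module.End.one_apply]
        have hinv' : ∀ y, galRep f D.h₁ F (galRep f D.h₁ F⁻¹ y) = y := fun y => by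
          rw [← Module.End.mul_apply, ← map_mul, mul_inv_cancel, map_one, Module.End.one_apply]
        have h3 : galRep f D.h₁ F u = (q : L) ^ 2 • galRep f D.h₁ F⁻¹ u := by
          have := congrArg (galRep f D.h₁ F⁻¹) hu
          rwa [hinv, map_smul] at this
        have h4 : (q : L) ^ 2 • galRep f D.h₁ F⁻¹ (galRep f D.h₁ F⁻¹ u) = u := by
          rw [← map_smul, ← h3, hinv]
        simp only [T, aOp, chiL_frobenius f hq hqp hA hF, LinearMap.add_apply,
          LinearMap.smul_apply, map_add, map_smul, smul_add, smul_smul, hu, hinv, hinv', ← sq,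
          h4, c]
        module
      rw [LinearMap.mem_ker]
      simp only [z, LinearMap.sub_apply, Module.End.mul_apply, LinearMap.smul_apply,
        Module.End.one_apply, hT w (hw F hF), sub_self])
  rw [finrank_bot, zero_add] at h1
  have htop : D.oldSub ⊔ LinearMap.ker z = ⊤ := by
    refine Submodule.eq_top_of_finrank_eq (le_antisymm (Submodule.finrank_le _) ?_)
    have h3 := Submodule.finrank_sup_add_finrank_inf_eq D.oldSub (LinearMap.ker z)
    rw [disjoint_iff.mp hdisj, finrank_bot, add_zero, finrank_oldSub] at h3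
    have h4 := D.rank_le
    rw [Module.finrank_fin_fun]
    omega
  let x := linMap (Int.castRingHom L) D.sq.up.mat v
  obtain ⟨o, ho, w, hw, hxow⟩ :=
    Submodule.mem_sup.mp (htop.ge (Submodule.mem_top (x := x)))
  have hTx : T x = a • x := by simp only [T, x, galMap_aOp, hv, map_smul]
  have hzx : z x = (a ^ 2 - c) • x := by
    simp only [z, LinearMap.sub_apply, Module.End.mul_apply, LinearMap.smul_apply,
      Module.End.one_apply, hTx, map_smul, smul_smul, ← sub_smul, sq]
  have hxold : x ∈ D.oldSub := by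
    have h3 : z x ∈ D.oldSub := by
      rw [← hxow, map_add, LinearMap.mem_ker.mp hw, add_zero]
      exact hzold o ho
    rw [hzx] at h3
    exact (D.oldSub.smul_mem_iff (sub_ne_zero.mpr ha)).mp h3
  obtain ⟨y, hy⟩ := hxold
  have hd : (D.sq.d : L) ≠ 0 := Nat.cast_ne_zero.mpr D.sq.d_ne_zero
  have h3 : (D.sq.d : L) • v = linMap (Int.castRingHom L) D.sq.down (D.oldMap y) := by
    rw [hy, ← linMap_mul, D.sq.down_up, linMap_smul, eq_intCast, Int.cast_natCast]
    simp [linMap_apply]
  rw [DataOneCore.oldMap, LinearMap.coprod_apply, map_add, ← linMap_mul, ← linMap_mul, D.sq.down_a,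
    D.sq.down_b, linMap_mul, linMap_mul] at h3
  refine (Submodule.smul_mem_iff _ hd).mp ?_
  rw [h3]
  exact ⟨(_, _), rfl⟩

end One

/-- Inertia at a prime dividing the level exactly once: `M(i) + M(i)⁻¹ = 2`. -/
theorem traceOp_inertia {q N₀ N₁ M M₁ : ℕ} [NeZero N₀] [NeZero N₁] [NeZero M] [NeZero M₁]
    (D : DataOneCore p q N₀ N₁ M M₁) (hq : q.Prime) (hqp : q ≠ p) {A : ValuationSubring ℚ̄}
    (hA : A.LiesOverPrime q) {i : Γℚ} (hi : i ∈ A.inertiaSubgroupIn ℚ) :
    traceOp D.g₁.M i = 2 := by
  let f : ℤ_[p] →+* ℚ_[p] := PadicInt.Coe.ringHom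
  have hf : Function.Injective f := Subtype.val_injective
  have h1 := inertia_add_inv_L D hf hq hqp hA hi
  rw [← sub_eq_zero]
  refine linMap_zero_iff hf fun v => ?_
  have hd : (D.sq.d : ℚ_[p]) ≠ 0 := Nat.cast_ne_zero.mpr D.sq.d_ne_zero
  have hup : ∀ u, linMap (Int.castRingHom ℚ_[p]) D.sq.up.mat u = 0 → u = 0 := by
    intro u hu
    have := congrArg (linMap (Int.castRingHom ℚ_[p]) D.sq.down) hu
    rw [← linMap_mul, D.sq.down_up, map_zero, linMap_smul, eq_intCast, Int.cast_natCast] at this
    simpa [linMap_apply, hd] using this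
  apply hup
  rw [linMap_sub, map_sub, ← linEnd_apply, linEnd_traceOp, ← galMap_aOp, h1, ← linEnd_apply,
    map_ofNat]
  simp [one_add_one_eq_two.symm, add_smul]

end FLTAgent.Local
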