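import Fermat.Agent.Local.LevelOne
import Fermat.Prelude.Def_GaloisRep_LocalConditions

/-!
# Representations attached to points of the Hecke algebra, read on a model

`IsAttached π ρ p` says that `ρ` has the Frobenius characteristic polynomials prescribed by `π`.
Then the trace of `ρ` is computed by any expansion of `traceOp` in Hecke operators
(`IsAttached.trace_eq_sum`, by density and faithfulness modulo prime powers), eigenvectors see it
(`aOp_eigen`), the determinant is cyclotomic, and inertia at a prime dividing the level exactly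
once acts unipotently (`IsAttached.isUnipotentOnInertiaAt`).
-/

set_option autoImplicit false
set_option linter.style.haveILetI false
set_option linter.unusedSectionVars false

noncomputable section

open CuspForm Matrix IsLocalRing Polynomial

namespace FLTAgent.Local

open FLTAgent.Reps

local notation "ℚ̄" => AlgebraicClosure ℚ
local notation "Γℚ" => (AlgebraicClosure ℚ ≃ₐ[ℚ] AlgebraicClosure ℚ)

variable {p : ℕ} [Fact p.Prime] {N : ℕ} [NeZero N] {S : Finset ℕ}
  {T : Type} [CommRing T] [IsLocalRing T] [IsNoetherianRing T]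
  [IsAdicComplete (maximalIdeal T) T]

/-- `ρ` has the Frobenius characteristic polynomials prescribed by `π`. -/
structure IsAttached (π : ↥(heckeAlgebra N 2 (↑S : Set ℕ)) →+* T) (ρ : GaloisRepAdic T)
    (p : ℕ) : Prop where
  p_mem : p ∈ S
  bad_mem : ∀ q : ℕ, q.Prime → q ∣ N → q ∈ S
  p_max : (p : T) ∈ maximalIdeal T
  charpoly_frob : ∀ (ℓ : ℕ) (hℓ : ℓ.Prime) (hℓN : ¬ ℓ ∣ N) (hℓS : ℓ ∉ (↑S : Set ℕ)),
    ∀ A : ValuationSubring ℚ̄, A.LiesOverPrime ℓ → ∀ σ : Γℚ, A.IsFrobeniusAt σ ℓ →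
      LinearMap.charpoly (ρ.ρ σ) =
        X ^ 2 - C (π (heckeAlgebra.T hℓ hℓN hℓS)) * X + C ((ℓ : T))

/-- The Hecke ring away from `S` acting through a model. -/
def tauS (G : GalModel N p) (S : Finset ℕ) :
    ↥(heckeAlgebra N 2 (↑S : Set ℕ)) →+* Matrix (Fin G.r) (Fin G.r) ℤ :=
  G.τ.comp (Subalgebra.inclusion (heckeAlgebra_mono (Set.empty_subset (↑S : Set ℕ)))).toRingHom

variable {π : ↥(heckeAlgebra N 2 (↑S : Set ℕ)) →+* T} {ρ : GaloisRepAdic T}

/-- The determinant is the cyclotomic character modulo each power of the maximal ideal. -/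
theorem IsAttached.det_eq (h : IsAttached π ρ p) {m n : ℕ} (hmn : n ≤ m) (g : Γℚ) :
    Ideal.Quotient.mk (maximalIdeal T ^ n) (LinearMap.det (ρ.ρ g)) =
      zmodToQuotLE (maximalIdeal T) h.p_max hmn (cycMod p m g) :=
  mk_det_eq_cycMod h.p_max ρ S h.p_mem (fun ℓ hℓ hℓS A hA σ hσ =>
    (trace_det_of_charpoly_eq ρ.finrank_eq (h.charpoly_frob ℓ hℓ
      (fun hd => hℓS (h.bad_mem ℓ hℓ hd)) (mod_cast hℓS) A hA σ hσ)).2) hmn g

theorem eq_of_forall_mk {x y : T}
    (h : ∀ n : ℕ, Ideal.Quotient.mk (maximalIdeal T ^ n) x =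
      Ideal.Quotient.mk (maximalIdeal T ^ n) y) : x = y := by
  refine sub_eq_zero.mp (IsHausdorff.haus (inferInstance : IsHausdorff (maximalIdeal T) T) _
    fun n => ?_)
  rw [SModEq.zero, smul_eq_mul, Ideal.mul_top]
  exact Ideal.Quotient.eq.mp (h n)

/-- At a good Frobenius element the model and `ρ` see the same Hecke operator. -/
theorem IsAttached.frob (h : IsAttached π ρ p) (G : GalModel N p) {ℓ : ℕ} (hℓ : ℓ.Prime)
    (hℓS : ℓ ∉ S) {A : ValuationSubring ℚ̄} (hA : A.LiesOverPrime ℓ) {σ : Γℚ}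
    (hσ : A.IsFrobeniusAt σ ℓ) :
    ∃ t, G.M σ * G.M σ - icast ℤ_[p] (tauS G S t) * G.M σ
        + (ℓ : Matrix (Fin G.r) (Fin G.r) ℤ_[p]) = 0 ∧
      LinearMap.trace T ρ.V (ρ.ρ σ) = π t := by
  have hℓN : ¬ ℓ ∣ N := fun hd => hℓS (h.bad_mem ℓ hℓ hd)
  exact ⟨heckeAlgebra.T hℓ hℓN (mod_cast hℓS),
    G.frobenius_rel ℓ hℓ hℓN (fun hp => hℓS (hp ▸ h.p_mem)) A hA σ hσ,
    (trace_det_of_charpoly_eq ρ.finrank_eq
      (h.charpoly_frob ℓ hℓ hℓN (mod_cast hℓS) A hA σ hσ)).1⟩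

/-- The trace relation modulo prime powers. -/
theorem IsAttached.trace_rel (h : IsAttached π ρ p) (G : GalModel N p) {m n : ℕ} (hmn : n ≤ m)
    (g : Γℚ) :
    ∃ t, (PadicInt.toZModPow m).mapMatrix (traceOp G.M g) =
        icast (ZMod (p ^ m)) (tauS G S t) ∧
      Ideal.Quotient.mk (maximalIdeal T ^ n) (LinearMap.trace T ρ.V (ρ.ρ g)) =
        Ideal.Quotient.mk (maximalIdeal T ^ n) (π t) := by
  obtain ⟨L₁, hL₁, hfix₁⟩ := ρ.isAdicContinuous n
  refine exists_mod_rel (tauS G S) G.M G.continuous_level S h.p_mem m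
    (fun g t => Ideal.Quotient.mk (maximalIdeal T ^ n) (LinearMap.trace T ρ.V (ρ.ρ g)) =
      Ideal.Quotient.mk (maximalIdeal T ^ n) (π t)) L₁ ?_ ?_ ?_ g
  · intro g u t hu htr
    rw [← trace_matMod, map_mul, matMod_eq_one ρ _ (hfix₁ u hu), mul_one, trace_matMod]
    exact htr
  · intro g t k htr
    rw [map_pow, trace_pow_eq_luc ρ.finrank_eq, map_luc, htr, h.det_eq hmn g, map_luc, map_luc,
      map_natCast, map_natCast]
    congr 1
    haveI : NeZero (p ^ m) := ⟨pow_ne_zero m (Fact.out : p.Prime).ne_zero⟩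
    conv_lhs => rw [← ZMod.natCast_zmod_val (cycMod p m g), map_natCast]
  · intro ℓ hℓ hℓS A hA σ hσ
    obtain ⟨t, ht, htr⟩ := h.frob G hℓ hℓS hA hσ
    exact ⟨t, ht, by rw [htr]⟩

/-- The trace of `ρ` is read off from any expansion of the trace operator. -/
theorem IsAttached.trace_eq_sum (h : IsAttached π ρ p) (G : GalModel N p) (ι : ℤ_[p] →+* T)
    (g : Γℚ) {κ : Type*} (s : Finset κ) (c : κ → ℤ_[p])
    (t : κ → ↥(heckeAlgebra N 2 (↑S : Set ℕ)))
    (hg : traceOp G.M g = ∑ i ∈ s, c i • icast ℤ_[p] (tauS G S (t i))) :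
    LinearMap.trace T ρ.V (ρ.ρ g) = ∑ i ∈ s, ι (c i) * π (t i) := by
  obtain ⟨k, hk⟩ := G.tauMod_faithful (↑S : Set ℕ) π h.p_max
  refine eq_of_forall_mk fun n => ?_
  obtain ⟨t₀, ht₀, htr⟩ := h.trace_rel G (m := n + k) (Nat.le_add_right n k) g
  haveI : NeZero (p ^ (n + k)) := ⟨pow_ne_zero _ (Fact.out : p.Prime).ne_zero⟩
  let e : κ → ℕ := fun i => (PadicInt.toZModPow (n + k) (c i)).val
  have he : ∀ i, PadicInt.toZModPow (n + k) (c i) = (e i : ZMod (p ^ (n + k))) := fun i =>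
    (ZMod.natCast_zmod_val _).symm
  let t₁ : ↥(heckeAlgebra N 2 (↑S : Set ℕ)) :=
    ∑ i ∈ s, Nat.cast (R := ↥(heckeAlgebra N 2 (↑S : Set ℕ))) (e i) * t i
  have h1 : icast (ZMod (p ^ (n + k))) (tauS G S t₀) =
      icast (ZMod (p ^ (n + k))) (tauS G S t₁) := by
    rw [← ht₀, hg]
    ext a b
    simp only [t₁, icast, RingHom.mapMatrix_apply, Matrix.map_apply, Matrix.sum_apply, map_sum,
      Matrix.smul_apply, smul_eq_mul, map_mul, map_natCast, he]
    refine Finset.sum_congr rfl fun i _ => ?_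
    rw [← nsmul_eq_mul, ← nsmul_eq_mul, Matrix.smul_apply, map_nsmul]
    congr 1
    simp
  have h2 : π (t₀ - t₁) ∈ maximalIdeal T ^ n := by
    refine hk n _ ?_
    show icast (ZMod (p ^ (n + k))) (tauS G S (t₀ - t₁)) = 0
    rw [map_sub, icast, Matrix.map_sub _ (map_sub _)]
    exact sub_eq_zero.mpr h1
  rw [htr, Ideal.Quotient.eq.mpr (by rwa [map_sub] at h2 : π t₀ - π t₁ ∈ maximalIdeal T ^ n),
    show π t₁ = ∑ i ∈ s, π (Nat.cast (R := ↥(heckeAlgebra N 2 (↑S : Set ℕ))) (e i) * t i) from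
      map_sum π _ _, map_sum, map_sum]
  simp only [map_mul, map_natCast]
  refine Finset.sum_congr rfl fun i _ => ?_
  congr 1
  rw [← map_natCast (Ideal.Quotient.mk (maximalIdeal T ^ n)), Ideal.Quotient.eq, ← neg_sub]
  refine neg_mem ?_
  have h3 : PadicInt.toZModPow (n + k) (c i - (e i : ℤ_[p])) = 0 := by
    rw [map_sub, map_natCast, he, sub_self]
  rw [← RingHom.mem_ker, PadicInt.ker_toZModPow, Ideal.mem_span_singleton] at h3
  obtain ⟨x, hx⟩ := h3
  have h4 := congrArg ι hx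
  rw [map_sub, map_natCast, map_mul, map_pow, map_natCast] at h4
  rw [h4]
  exact Ideal.mul_mem_right _ _ (Ideal.pow_le_pow_right (Nat.le_add_right n k)
    (Ideal.pow_mem_pow h.p_max _))

/-- Eigenvectors of the Hecke ring see the trace of `ρ`. -/
theorem IsAttached.aOp_eigen (h : IsAttached π ρ p) (G : GalModel N p) {L : Type} [Field L]
    (j : T →+* L) (ι : ℤ_[p] →+* T) {v : Fin G.r → L}
    (hv : ∀ t, linMap (Int.castRingHom L) (tauS G S t) v = j (π t) • v) [CharZero L] (g : Γℚ) :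
    aOp (galRep (j.comp ι) G) (chiL (j.comp ι)) g v = j (LinearMap.trace T ρ.V (ρ.ρ g)) • v := by
  have hmem : traceOp G.M g ∈
      Submodule.span ℤ_[p] (Set.range fun t => icast ℤ_[p] (tauS G S t)) :=
    traceOp_mem_span (tauS G S) G.M G.continuous_level S h.p_mem
      (fun ℓ hℓ hℓS A hA σ hσ => by
        obtain ⟨t, ht, -⟩ := h.frob G hℓ hℓS hA hσ
        exact ⟨t, ht⟩) g
  obtain ⟨c, hc⟩ := Finsupp.mem_span_range_iff_exists_finsupp.mp hmem
  rw [h.trace_eq_sum G ι g c.support c id (by rw [← hc]; rfl), map_sum, Finset.sum_smul,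
    ← linEnd_traceOp, ← hc, Finsupp.sum, map_sum, LinearMap.sum_apply]
  refine Finset.sum_congr rfl fun t _ => ?_
  rw [linEnd_apply, linMap_smul, linMap_icast, hv, smul_smul, map_mul]
  rfl

/-- If `M(g) + χ(g) M(g)⁻¹ = 2` then `tr ρ(g) = 2`. -/
theorem IsAttached.trace_eq_two (h : IsAttached π ρ p) (G : GalModel N p) {g : Γℚ}
    (hg : traceOp G.M g = 2) : LinearMap.trace T ρ.V (ρ.ρ g) = 2 := by
  haveI : IsAdicComplete (maximalIdeal T) T := inferInstance
  have := h.trace_eq_sum G (padicHom (maximalIdeal T) h.p_max) g (Finset.univ : Finset (Fin 1))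
    (fun _ => 2) (fun _ => 1)
    (by rw [hg]; ext a b; simp [icast, Matrix.ofNat_apply, Matrix.one_apply])
  simpa [map_ofNat] using this

/-- The determinant is trivial on inertia away from `p`. -/
theorem IsAttached.det_inertia (h : IsAttached π ρ p) {q : ℕ} (hq : q.Prime) (hqp : q ≠ p)
    {A : ValuationSubring ℚ̄} (hA : A.LiesOverPrime q) {i : Γℚ}
    (hi : i ∈ A.inertiaSubgroupIn ℚ) : LinearMap.det (ρ.ρ i) = 1 := by
  refine eq_of_forall_mk fun n => ?_
  rw [h.det_eq le_rfl i, show cycMod p n i = 1 by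
    show PadicInt.toZModPow n (cyc p i) = 1
    rw [cyc_inertia hq hqp hA hi, map_one], map_one, map_one]

/-- The determinant at a Frobenius element at `q ≠ p` is `q`. -/
theorem IsAttached.det_frobenius (h : IsAttached π ρ p) {q : ℕ} (hq : q.Prime) (hqp : q ≠ p)
    {A : ValuationSubring ℚ̄} (hA : A.LiesOverPrime q) {F : Γℚ} (hF : A.IsFrobeniusAt F q) :
    LinearMap.det (ρ.ρ F) = q := by
  refine eq_of_forall_mk fun n => ?_
  rw [h.det_eq le_rfl F, show cycMod p n F = (q : ZMod (p ^ n)) by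
    show PadicInt.toZModPow n (cyc p F) = _
    rw [cyc_frobenius hq hqp hA hF, map_natCast], map_natCast, map_natCast]

theorem charpoly_eq_X_sub_one_sq (ρ : GaloisRepAdic T) {g : Γℚ}
    (htr : LinearMap.trace T ρ.V (ρ.ρ g) = 2) (hdet : LinearMap.det (ρ.ρ g) = 1) :
    LinearMap.charpoly (ρ.ρ g) = (X - 1) ^ 2 := by
  rw [charpoly_of_finrank_eq_two ρ.finrank_eq, htr, hdet, map_one]
  simp only [map_ofNat]
  ring

/-- Inertia is unipotent at a prime dividing the level exactly once. -/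
theorem IsAttached.isUnipotentOnInertiaAt {q N₀ : ℕ} (h : IsAttached π ρ p) (hq : q.Prime)
    (hqp : q ≠ p) {M M₁ : ℕ} [NeZero N₀] [NeZero M] [NeZero M₁] (D : DataOne p q N₀ N M M₁) :
    ρ.IsUnipotentOnInertiaAt q := fun _ hA _ hi =>
  charpoly_eq_X_sub_one_sq ρ (h.trace_eq_two D.g₁ (traceOp_inertia D.toDataOneCore hq hqp hA hi))
    (h.det_inertia hq hqp hA hi)

end FLTAgent.Local
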