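import Fermat.Agent.IntStr.Main
import Fermat.Agent.Small2.Duality
import Fermat.Agent.Reps.Coeff
import Fermat.Agent.Reps.HeckeEigen
import Fermat.Agent.Local.LevelOne
import Fermat.Agent.Local.Rho

/-!
# From systems of eigenvalues back to eigenforms

`exists_eigenform_of_hom`: a homomorphism from the weight two Hecke algebra to `ℂ` is the system of
a normalised eigenform (perfect pairing with cusp forms). `exists_eigenform_of_hom_away` is the
version away from a set `S` (extension of homomorphisms along an integral inclusion).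
`exists_eigvec`: every system occurs in a model; `exists_hom_of_range`: an eigenvector in the image
of two degeneracy maps gives a system at the lower level with the same good eigenvalues.
-/

set_option autoImplicit false
set_option linter.style.haveILetI false
set_option maxHeartbeats 400000

noncomputable section

open CuspForm Matrix ModularFormClass CongruenceSubgroup

namespace FLTAgent.Local

open FLTAgent.Reps

/-- A system of eigenvalues of the full Hecke algebra is that of a normalised eigenform. -/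
theorem exists_eigenform_of_hom {N : ℕ} [NeZero N] (χ : TZ N →+* ℂ) :
    ∃ g : CuspForm (Gamma0 N) 2, g.IsNormalizedEigenform ∧
      ∀ (ℓ : ℕ) (hℓ : ℓ.Prime) (hℓN : ¬ ℓ ∣ N), qCoeff g ℓ = χ (heckeTOf hℓ hℓN) := by
  obtain ⟨g, hg⟩ := (IntStr.heckePairing_two_bijective N).2 χ.toAddMonoidHom.toIntLinearMap
  have hev : ∀ t : TZ N, qCoeff ((t : Module.End ℂ (CuspForm (Gamma0 N) 2)) g) 1 = χ t :=
    fun t => LinearMap.congr_fun hg t
  have heig : ∀ t : TZ N, (t : Module.End ℂ (CuspForm (Gamma0 N) 2)) g = χ t • g := by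
    intro t
    refine (IntStr.heckePairing_two_bijective N).1 (LinearMap.ext fun s => ?_)
    rw [map_smul, LinearMap.smul_apply, IntStr.heckePairing_apply, IntStr.heckePairing_apply,
      hev s, smul_eq_mul, ← map_mul, ← hev (t * s), mul_comm t s]
    rfl
  have h1 : Small2.coeffL 1 g = 1 := by
    refine Eq.trans ?_ (map_one χ)
    exact hev 1
  have hgn : g.IsNormalizedEigenform := by
    refine Small2.isNormalizedEigenform_of_eigen h1 (fun p => if hp : p.Prime then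
      if hpN : p ∣ N then χ ⟨_, heckeULin_mem_heckeAlgebra hp hpN (Set.notMem_empty p)⟩
      else χ (heckeTOf hp hpN) else 0) ?_ ?_
    · intro p hp hpN
      rw [dif_pos hp, dif_neg hpN]
      exact heig (heckeTOf hp hpN)
    · intro p hp hpN
      rw [dif_pos hp, dif_pos hpN]
      exact heig ⟨_, heckeULin_mem_heckeAlgebra hp hpN (Set.notMem_empty p)⟩
  refine ⟨g, hgn, fun ℓ hℓ hℓN => ?_⟩
  rw [← hev (heckeTOf hℓ hℓN)]
  show qCoeff g ℓ = qCoeff (heckeTLin 2 hℓ hℓN g) 1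
  rw [heckeT_eigen hgn hℓ hℓN]
  show _ = Small2.coeffL 1 (qCoeff g ℓ • g)
  rw [map_smul, h1, smul_eq_mul, mul_one]

/-- The Hecke algebra away from `S` inside the full one. -/
def inclS {N : ℕ} [NeZero N] (S : Set ℕ) : ↥(heckeAlgebra N 2 S) →+* TZ N :=
  (Subalgebra.inclusion (heckeAlgebra_mono (Set.empty_subset S))).toRingHom

theorem inclS_injective {N : ℕ} [NeZero N] (S : Set ℕ) :
    Function.Injective (inclS (N := N) S) :=
  Subalgebra.inclusion_injective _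

theorem inclS_isIntegral {N : ℕ} [NeZero N] (S : Set ℕ) : (inclS (N := N) S).IsIntegral := by
  haveI := IntStr.moduleFinite_heckeAlgebra_two N
  intro x
  refine RingHom.IsIntegralElem.of_comp (g := inclS (N := N) S)
    (f := Int.castRingHom ↥(heckeAlgebra N 2 S)) ?_
  rw [RingHom.ext_int ((inclS (N := N) S).comp (Int.castRingHom _)) (algebraMap ℤ (TZ N))]
  exact Algebra.IsIntegral.isIntegral x

/-- A homomorphism from an integral domain finite over `ℤ` to characteristic zero is injective. -/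
theorem injective_of_int_integral {C L : Type*} [CommRing C] [IsDomain C] [CharZero C] [CommRing L]
    [IsDomain L] [CharZero L] [Algebra.IsIntegral ℤ C] (e : C →+* L) : Function.Injective e := by
  rw [RingHom.injective_iff_ker_eq_bot]
  refine Ideal.eq_bot_of_comap_eq_bot (R := ℤ) ?_
  rw [eq_bot_iff]
  intro z hz
  simpa using hz

theorem isIntegral_hecke_value {N : ℕ} [NeZero N] {S : Set ℕ} {R : Type*} [CommRing R]
    (χ : ↥(heckeAlgebra N 2 S) →+* R) (x : ↥(heckeAlgebra N 2 S)) : IsIntegral ℤ (χ x) := by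
  haveI := IntStr.moduleFinite_heckeAlgebra_two N
  have h1 : IsIntegral ℤ x :=
    (isIntegral_algHom_iff ((inclS (N := N) S).toIntAlgHom) (inclS_injective S)).mp
      (Algebra.IsIntegral.isIntegral _)
  exact map_isIntegral_int χ h1

theorem range_isIntegral {N : ℕ} [NeZero N] {S : Set ℕ} (χ : ↥(heckeAlgebra N 2 S) →+* ℂ) :
    Algebra.IsIntegral ℤ χ.range := by
  refine ⟨fun y => ?_⟩
  obtain ⟨x, hx⟩ := y.2
  rw [show y = χ.rangeRestrict x from Subtype.ext hx.symm]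
  exact isIntegral_hecke_value χ.rangeRestrict x

/-- Induction on the Hecke algebra away from a set containing the primes of the level. -/
theorem hecke_induction {N : ℕ} [NeZero N] {S : Set ℕ} (hS : ∀ q : ℕ, q.Prime → q ∣ N → q ∈ S)
    {P : ↥(heckeAlgebra N 2 S) → Prop}
    (hgen : ∀ (ℓ : ℕ) (hℓ : ℓ.Prime) (hℓN : ¬ ℓ ∣ N) (hℓS : ℓ ∉ S),
      P (heckeAlgebra.T hℓ hℓN hℓS))
    (hint : ∀ r : ℤ, P r) (hadd : ∀ s t, P s → P t → P (s + t))
    (hmul : ∀ s t, P s → P t → P (s * t)) (t : ↥(heckeAlgebra N 2 S)) : P t := by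
  obtain ⟨t, ht⟩ := t
  induction ht using Algebra.adjoin_induction with
  | mem x hx =>
    rcases hx with ⟨ℓ, hℓ, hℓN, hℓS, rfl⟩ | ⟨q, hqN, hq, hqS, rfl⟩
    · exact hgen ℓ hℓ hℓN hℓS
    · exact absurd (hS q hq hqN) hqS
  | algebraMap r =>
    exact (show (r : ↥(heckeAlgebra N 2 S)) = ⟨algebraMap ℤ _ r, Subalgebra.algebraMap_mem _ r⟩ from
      (eq_intCast (algebraMap ℤ ↥(heckeAlgebra N 2 S)) r).symm) ▸ hint r
  | add x y hx hy hx' hy' => exact hadd ⟨x, hx⟩ ⟨y, hy⟩ hx' hy'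
  | mul x y hx hy hx' hy' => exact hmul ⟨x, hx⟩ ⟨y, hy⟩ hx' hy'

/-- An eigen system away from `S` whose values at `T_ℓ` lie in a ring of complex numbers is that
of a normalised eigenform. -/
theorem exists_eigenform_of_hom_away {N : ℕ} [NeZero N] {S : Set ℕ}
    (hS : ∀ q : ℕ, q.Prime → q ∣ N → q ∈ S) {L : Type} [Field L] {C : Subring ℂ} (e : C →+* L)
    (he : Function.Injective e) (c : ℕ → C) (ψ : ↥(heckeAlgebra N 2 S) →+* L)
    (hψ : ∀ (ℓ : ℕ) (hℓ : ℓ.Prime) (hℓN : ¬ ℓ ∣ N) (hℓS : ℓ ∉ S),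
      ψ (heckeAlgebra.T hℓ hℓN hℓS) = e (c ℓ)) :
    ∃ g : CuspForm (Gamma0 N) 2, g.IsNormalizedEigenform ∧
      ∀ ℓ : ℕ, ℓ.Prime → ℓ ∉ S → qCoeff g ℓ = (c ℓ : ℂ) := by
  have hrange : ∀ t, ψ t ∈ e.range := hecke_induction hS (P := fun t => ψ t ∈ e.range)
    (fun ℓ hℓ hℓN hℓS => ⟨c ℓ, (hψ ℓ hℓ hℓN hℓS).symm⟩)
    (fun r => ⟨(r : C), by rw [map_intCast, map_intCast]⟩)
    (fun s t hs ht => by rw [map_add]; exact add_mem hs ht)
    (fun s t hs ht => by rw [map_mul]; exact mul_mem hs ht)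
  let E := RingEquiv.ofBijective e.rangeRestrict
    ⟨fun x y h => he (congrArg Subtype.val h), e.rangeRestrict_surjective⟩
  let ψ' : ↥(heckeAlgebra N 2 S) →+* ℂ :=
    C.subtype.comp (E.symm.toRingHom.comp (ψ.codRestrict e.range hrange))
  obtain ⟨χ, hχ⟩ := exists_ringHom_extension (inclS_injective S) (inclS_isIntegral S) ψ'
  obtain ⟨g, hg, hgc⟩ := exists_eigenform_of_hom χ
  refine ⟨g, hg, fun ℓ hℓ hℓS => ?_⟩
  have hℓN : ¬ ℓ ∣ N := fun h => hℓS (hS ℓ hℓ h)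
  rw [hgc ℓ hℓ hℓN,
    show χ (heckeTOf hℓ hℓN) = ψ' (heckeAlgebra.T hℓ hℓN hℓS) from
      RingHom.congr_fun hχ (heckeAlgebra.T hℓ hℓN hℓS)]
  show C.subtype (E.symm (ψ.codRestrict e.range hrange (heckeAlgebra.T hℓ hℓN hℓS))) = _
  rw [show ψ.codRestrict e.range hrange (heckeAlgebra.T hℓ hℓN hℓS) = E (c ℓ) from
    Subtype.ext (hψ ℓ hℓ hℓN hℓS), E.symm_apply_apply]
  rfl

variable {p : ℕ} [Fact p.Prime]

/-- Every system of eigenvalues occurs in the model. -/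
theorem exists_eigvec {N : ℕ} [NeZero N] (G : GalModel N p) {L : Type} [Field L] [CharZero L]
    (χ : TZ N →+* L) :
    ∃ v : Fin G.r → L, v ≠ 0 ∧ ∀ t, linMap (Int.castRingHom L) (G.τ t) v = χ t • v := by
  haveI : Nontrivial ↥(eigenSub (fun t => (Int.castRingHom L).mapMatrix (G.τ t)) χ) :=
    Module.nontrivial_of_finrank_eq_succ (G.finrank_eigen L χ)
  obtain ⟨v, hv⟩ :=
    exists_ne (0 : ↥(eigenSub (fun t => (Int.castRingHom L).mapMatrix (G.τ t)) χ))
  exact ⟨v.1, fun h => hv (Subtype.ext h), mem_eigenSub.mp v.2⟩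

theorem tauS_eq {N : ℕ} [NeZero N] (G : GalModel N p) (S : Finset ℕ)
    (t : ↥(heckeAlgebra N 2 (↑S : Set ℕ))) : tauS G S t = G.τ (inclS _ t) := rfl

/-- An eigenvector in the image of two degeneracy maps gives an eigen system at the lower level. -/
theorem exists_hom_of_range {N₀ N : ℕ} [NeZero N₀] [NeZero N] {G₀ : GalModel N₀ p}
    {G : GalModel N p} (a b : DegMap G₀ G) (S : Finset ℕ)
    (hS₀ : ∀ q : ℕ, q.Prime → q ∣ N₀ → q ∈ S) (hS : ∀ q : ℕ, q.Prime → q ∣ N → q ∈ S)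
    {L : Type} [Field L] (χ : ↥(heckeAlgebra N 2 (↑S : Set ℕ)) →+* L) {v : Fin G.r → L}
    (hv0 : v ≠ 0) (hv : ∀ t, linMap (Int.castRingHom L) (tauS G S t) v = χ t • v)
    (hrange : v ∈ LinearMap.range ((linMap (Int.castRingHom L) a.mat).coprod
      (linMap (Int.castRingHom L) b.mat))) :
    ∃ ψ : ↥(heckeAlgebra N₀ 2 (↑S : Set ℕ)) →+* L,
      ∀ (ℓ : ℕ) (hℓ : ℓ.Prime) (hℓN₀ : ¬ ℓ ∣ N₀) (hℓN : ¬ ℓ ∣ N) (hℓS : ℓ ∉ (↑S : Set ℕ)),
        ψ (heckeAlgebra.T hℓ hℓN₀ hℓS) = χ (heckeAlgebra.T hℓ hℓN hℓS) := by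
  obtain ⟨⟨x, y⟩, hxy⟩ := hrange
  rw [LinearMap.coprod_apply] at hxy
  let R : ↥(heckeAlgebra N₀ 2 (↑S : Set ℕ)) → ↥(heckeAlgebra N 2 (↑S : Set ℕ)) → Prop :=
    fun t₀ t => a.mat * tauS G₀ S t₀ = tauS G S t * a.mat ∧
      b.mat * tauS G₀ S t₀ = tauS G S t * b.mat
  have hgen : ∀ (ℓ : ℕ) (hℓ : ℓ.Prime) (hℓN₀ : ¬ ℓ ∣ N₀) (hℓN : ¬ ℓ ∣ N)
      (hℓS : ℓ ∉ (↑S : Set ℕ)),
      R (heckeAlgebra.T hℓ hℓN₀ hℓS) (heckeAlgebra.T hℓ hℓN hℓS) :=
    fun ℓ hℓ hℓN₀ hℓN _ => ⟨a.hecke ℓ hℓ hℓN₀ hℓN, b.hecke ℓ hℓ hℓN₀ hℓN⟩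
  have hadd : ∀ {s₀ t₀ s t}, R s₀ s → R t₀ t → R (s₀ + t₀) (s + t) := fun h h' =>
    ⟨by rw [map_add, map_add, Matrix.mul_add, Matrix.add_mul, h.1, h'.1],
     by rw [map_add, map_add, Matrix.mul_add, Matrix.add_mul, h.2, h'.2]⟩
  have hmul : ∀ {s₀ t₀ s t}, R s₀ s → R t₀ t → R (s₀ * t₀) (s * t) := fun h h' =>
    ⟨by rw [map_mul, map_mul, ← Matrix.mul_assoc, h.1, Matrix.mul_assoc, h'.1, Matrix.mul_assoc],
     by rw [map_mul, map_mul, ← Matrix.mul_assoc, h.2, Matrix.mul_assoc, h'.2, Matrix.mul_assoc]⟩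
  have hint : ∀ r : ℤ, R (r : ↥(heckeAlgebra N₀ 2 (↑S : Set ℕ))) r := fun r =>
    ⟨by rw [map_intCast, map_intCast]; ext i j; simp [Matrix.intCast_apply, Matrix.mul_apply,
      mul_comm],
     by rw [map_intCast, map_intCast]; ext i j; simp [Matrix.intCast_apply, Matrix.mul_apply,
      mul_comm]⟩
  have hex : ∀ t₀, ∃ t, R t₀ t :=
    hecke_induction (fun q hq hqN => Finset.mem_coe.mpr (hS₀ q hq hqN))
      (P := fun t₀ => ∃ t, R t₀ t)
      (fun ℓ hℓ hℓN₀ hℓS =>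
        ⟨_, hgen ℓ hℓ hℓN₀ (fun h => hℓS (Finset.mem_coe.mpr (hS ℓ hℓ h))) hℓS⟩)
      (fun r => ⟨_, hint r⟩)
      (fun _ _ ⟨s, hs⟩ ⟨t, ht⟩ => ⟨s + t, hadd hs ht⟩)
      (fun _ _ ⟨s, hs⟩ ⟨t, ht⟩ => ⟨s * t, hmul hs ht⟩)
  have huniq : ∀ {t₀ s t}, R t₀ s → R t₀ t → χ s = χ t := by
    intro t₀ s t hs ht
    have key : ∀ t, R t₀ t → χ t • v =
        linMap (Int.castRingHom L) a.mat (linMap (Int.castRingHom L) (tauS G₀ S t₀) x) +
        linMap (Int.castRingHom L) b.mat (linMap (Int.castRingHom L) (tauS G₀ S t₀) y) := by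
      intro t ht
      rw [← linMap_mul, ← linMap_mul, ht.1, ht.2, linMap_mul, linMap_mul, ← map_add, hxy, hv]
    exact smul_left_injective L hv0 ((key s hs).trans (key t ht).symm)
  choose φ hφ using hex
  refine ⟨{ toFun := fun t₀ => χ (φ t₀)
            map_one' := ?_
            map_mul' := fun s t => (huniq (hφ (s * t)) (hmul (hφ s) (hφ t))).trans (map_mul χ _ _)
            map_zero' := ?_
            map_add' := fun s t =>
              (huniq (hφ (s + t)) (hadd (hφ s) (hφ t))).trans (map_add χ _ _) },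
    fun ℓ hℓ hℓN₀ hℓN hℓS => huniq (hφ _) (hgen ℓ hℓ hℓN₀ hℓN hℓS)⟩
  · have h := huniq (hφ 1) (by simpa using hint 1 : R 1 1)
    rwa [map_one] at h
  · have h := huniq (hφ 0) (by simpa using hint 0 : R 0 0)
    rwa [map_zero] at h

end FLTAgent.Local
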