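import Fermat.Agent.Reps.Model

/-!
# Bad reduction data at a prime `q` of the level

Definitions used by `Local/*`: maps of integral models of Tate modules (`GalMap`, `DegMap`), the
transfer square `DegSquare`, the toric part `HasToricPart`, and the hypotheses packaged as
`DataOneCore` and `DataOne` (levels `N₁ = q N₀`, `M₁ = q M`) and `DataTwo` (levels `N₂ = q² N₀`,
`M₂ = q² M`), where `M` is an auxiliary level prime to `q`. They are constructed in
`Local/Existence`. The lemma `fixed_one_le` deduces the bound on inertia invariants at level `q M`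
from that at level `q² M` by linear algebra. All matrices act on column vectors.
-/

set_option autoImplicit false

noncomputable section

open CuspForm Matrix

namespace FLTAgent.Local

open FLTAgent.Reps

local notation "ℚ̄" => AlgebraicClosure ℚ
local notation "Γℚ" => (AlgebraicClosure ℚ ≃ₐ[ℚ] AlgebraicClosure ℚ)

variable {p : ℕ} [Fact p.Prime]

/-- An integral matrix read in an arbitrary ring. -/
abbrev icast (R : Type*) [CommRing R] {m n : Type*} (A : Matrix m n ℤ) : Matrix m n R :=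
  A.map (Int.castRingHom R)

/-- A Galois equivariant map of Tate modules given by an integral matrix. -/
structure GalMap {N N' : ℕ} [NeZero N] [NeZero N'] (G : GalModel N p) (G' : GalModel N' p) where
  /-- The matrix. -/
  mat : Matrix (Fin G'.r) (Fin G.r) ℤ
  galois : ∀ σ : Γℚ, icast ℤ_[p] mat * G.M σ = G'.M σ * icast ℤ_[p] mat

/-- A degeneracy map: Galois equivariant and commuting with `T_ℓ` for `ℓ` prime to both levels. -/
structure DegMap {N N' : ℕ} [NeZero N] [NeZero N'] (G : GalModel N p) (G' : GalModel N' p)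
    extends GalMap G G' where
  hecke : ∀ (ℓ : ℕ) (hℓ : ℓ.Prime) (hN : ¬ ℓ ∣ N) (hN' : ¬ ℓ ∣ N'),
    mat * G.τ (heckeTOf hℓ hN) = G'.τ (heckeTOf hℓ hN') * mat

/-- The two degeneracy maps at the small and at the auxiliary level, with the transfer square. -/
structure DegSquare {A₀ A₁ B₀ B₁ : ℕ} [NeZero A₀] [NeZero A₁] [NeZero B₀] [NeZero B₁]
    (g₀ : GalModel A₀ p) (g₁ : GalModel A₁ p) (h₀ : GalModel B₀ p) (h₁ : GalModel B₁ p) where
  /-- First degeneracy at the small level. -/
  a₀ : DegMap g₀ g₁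
  /-- Second degeneracy at the small level. -/
  b₀ : DegMap g₀ g₁
  /-- First degeneracy at the auxiliary level. -/
  a : GalMap h₀ h₁
  /-- Second degeneracy at the auxiliary level. -/
  b : GalMap h₀ h₁
  /-- Pullback from the small to the auxiliary level. -/
  up : GalMap g₁ h₁
  /-- The degree of the covering. -/
  d : ℕ
  d_ne_zero : d ≠ 0
  /-- Pushforward from the auxiliary to the small level. -/
  down : Matrix (Fin g₁.r) (Fin h₁.r) ℤ
  /-- Pushforward on the sources of `a`. -/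
  downA : Matrix (Fin g₀.r) (Fin h₀.r) ℤ
  /-- Pushforward on the sources of `b`. -/
  downB : Matrix (Fin g₀.r) (Fin h₀.r) ℤ
  down_up : down * up.mat = (d : ℤ) • (1 : Matrix (Fin g₁.r) (Fin g₁.r) ℤ)
  down_a : down * a.mat = a₀.mat * downA
  down_b : down * b.mat = b₀.mat * downB

/-- `inertia` fixed vectors with `Frobenius² = q²` (the graph part of a semistable reduction). -/
def HasToricPart {N : ℕ} [NeZero N] (G : GalModel N p) (q k : ℕ) : Prop :=
  ∀ A : ValuationSubring ℚ̄, A.LiesOverPrime q →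
    ∃ B : Matrix (Fin G.r) (Fin k) ℤ_[p],
      Function.Injective (fun v : Fin k → ℤ_[p] => B *ᵥ v) ∧
      (∀ i ∈ A.inertiaSubgroupIn ℚ, G.M i * B = B) ∧
      ∀ F : Γℚ, A.IsFrobeniusAt F q → G.M F * (G.M F * B) = (q ^ 2 : ℕ) • B

/-- What the toric part alone gives at a prime dividing the level exactly once. -/
structure DataOneCore (p : ℕ) [Fact p.Prime] (q N₀ N₁ M M₁ : ℕ) [NeZero N₀] [NeZero N₁] [NeZero M]
    [NeZero M₁] where
  g₀ : GalModel N₀ p
  g₁ : GalModel N₁ p
  h₀ : GalModel M p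
  h₁ : GalModel M₁ p
  sq : DegSquare g₀ g₁ h₀ h₁
  not_dvd : ¬ q ∣ M
  /-- The two degeneracy maps at the auxiliary level are jointly injective. -/
  deg_injective : ∀ x y : Fin h₀.r → ℤ, sq.a.mat *ᵥ x + sq.b.mat *ᵥ y = 0 → x = 0 ∧ y = 0
  /-- The number of toric vectors. -/
  k : ℕ
  rank_le : h₁.r ≤ 2 * h₀.r + 2 * k
  toric : HasToricPart h₁ q k
  /-- A rational isomorphism between the two eigenspaces of complex conjugation. -/
  θ : Matrix (Fin h₁.r) (Fin h₁.r) ℤ
  θ_det : θ.det ≠ 0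
  θ_comm : ∀ t : TZ M₁, Commute θ (h₁.τ t)
  θ_anti : icast ℤ_[p] θ * h₁.M h₁.cc = -(h₁.M h₁.cc * icast ℤ_[p] θ)

/-- Everything needed at a prime dividing the level exactly once. -/
structure DataOne (p : ℕ) [Fact p.Prime] (q N₀ N₁ M M₁ : ℕ) [NeZero N₀] [NeZero N₁] [NeZero M]
    [NeZero M₁] extends DataOneCore p q N₀ N₁ M M₁ where
  /-- The bound on inertia invariants (a consequence of the bound one level higher, see
  `fixed_one_le`). -/
  fixed_le : ∀ A : ValuationSubring ℚ̄, A.LiesOverPrime q →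
    ∀ (L : Type) [Field L] [CharZero L] (f : ℤ_[p] →+* L),
      Module.finrank L (⨅ i ∈ A.inertiaSubgroupIn ℚ,
        LinearMap.ker ((f.mapMatrix (h₁.M i)).mulVecLin - LinearMap.id) :
          Submodule L (Fin h₁.r → L)) ≤ 2 * h₀.r + k

/-- Everything needed at a prime dividing the level exactly twice. -/
structure DataTwo (p : ℕ) [Fact p.Prime] (q N₁ N₂ M M₁ M₂ : ℕ) [NeZero N₁] [NeZero N₂] [NeZero M]
    [NeZero M₁] [NeZero M₂] where
  g₁ : GalModel N₁ p
  g₂ : GalModel N₂ p
  h₀ : GalModel M p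
  h₁ : GalModel M₁ p
  h₂ : GalModel M₂ p
  sq : DegSquare g₁ g₂ h₁ h₂
  not_dvd : ¬ q ∣ M
  /-- The degeneracy maps from level `M` to level `M₁`. -/
  a : GalMap h₀ h₁
  b : GalMap h₀ h₁
  deg_injective : ∀ x y : Fin h₀.r → ℤ, a.mat *ᵥ x + b.mat *ᵥ y = 0 → x = 0 ∧ y = 0
  k : ℕ
  rank_le : h₁.r ≤ 2 * h₀.r + 2 * k
  toric : HasToricPart h₁ q k
  /-- The common part of the two images at level `M₂` comes from level `M`. -/
  ker_le : ∀ (L : Type) [Field L] [CharZero L],
    Module.finrank L (LinearMap.ker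
      (((icast L sq.a.mat).mulVecLin).coprod ((icast L sq.b.mat).mulVecLin))) ≤ h₀.r
  /-- The bound on inertia invariants. -/
  fixed_le : ∀ A : ValuationSubring ℚ̄, A.LiesOverPrime q →
    ∀ (L : Type) [Field L] [CharZero L] (f : ℤ_[p] →+* L),
      Module.finrank L (⨅ i ∈ A.inertiaSubgroupIn ℚ,
        LinearMap.ker ((f.mapMatrix (h₂.M i)).mulVecLin - LinearMap.id) :
          Submodule L (Fin h₂.r → L)) ≤ h₀.r + h₁.r

/-- The bound at level `q M` follows from the bound at level `q² M`. -/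
theorem fixed_one_le {M₁ M₂ : ℕ} [NeZero M₁] [NeZero M₂] {h₁ : GalModel M₁ p} {h₂ : GalModel M₂ p}
    (a b : GalMap h₁ h₂) {r₀ k : ℕ} (rank_le : h₁.r ≤ 2 * r₀ + 2 * k)
    {L : Type} [Field L] [CharZero L] (f : ℤ_[p] →+* L) (I : Set Γℚ)
    (ker_le : Module.finrank L (LinearMap.ker
      (((icast L a.mat).mulVecLin).coprod ((icast L b.mat).mulVecLin))) ≤ r₀)
    (fixed_le : Module.finrank L (⨅ i ∈ I,
        LinearMap.ker ((f.mapMatrix (h₂.M i)).mulVecLin - LinearMap.id) :
          Submodule L (Fin h₂.r → L)) ≤ r₀ + h₁.r) :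
    Module.finrank L (⨅ i ∈ I,
        LinearMap.ker ((f.mapMatrix (h₁.M i)).mulVecLin - LinearMap.id) :
          Submodule L (Fin h₁.r → L)) ≤ 2 * r₀ + k := by
  set Z₁ : Submodule L (Fin h₁.r → L) := ⨅ i ∈ I,
    LinearMap.ker ((f.mapMatrix (h₁.M i)).mulVecLin - LinearMap.id)
  set Z₂ : Submodule L (Fin h₂.r → L) := ⨅ i ∈ I,
    LinearMap.ker ((f.mapMatrix (h₂.M i)).mulVecLin - LinearMap.id)
  set Φ := ((icast L a.mat).mulVecLin).coprod ((icast L b.mat).mulVecLin)
  have hcomm : ∀ (m : GalMap h₁ h₂) (i : Γℚ) (x : Fin h₁.r → L),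
      f.mapMatrix (h₂.M i) *ᵥ (icast L m.mat *ᵥ x) =
        icast L m.mat *ᵥ (f.mapMatrix (h₁.M i) *ᵥ x) := by
    intro m i x
    have he : f.toFun ∘ (Int.castRingHom ℤ_[p]) = Int.castRingHom L :=
      congrArg DFunLike.coe (Subsingleton.elim (f.comp (Int.castRingHom ℤ_[p])) (Int.castRingHom L))
    have h := congrArg (fun X : Matrix (Fin h₂.r) (Fin h₁.r) ℤ_[p] => X.map f) (m.galois i)
    simp only [Matrix.map_mul, icast, Matrix.map_map] at h
    rw [show ((f : ℤ_[p] → L) ∘ (Int.castRingHom ℤ_[p])) = Int.castRingHom L from he] at h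
    rw [Matrix.mulVec_mulVec, Matrix.mulVec_mulVec, RingHom.mapMatrix_apply,
      RingHom.mapMatrix_apply]
    exact congrArg (· *ᵥ x) h.symm
  let Φ' := Φ.comp (Z₁.prod Z₁).subtype
  have hle : LinearMap.range Φ' ≤ Z₂ := by
    rintro _ ⟨⟨⟨x, y⟩, hxy⟩, rfl⟩
    simp only [Submodule.mem_prod, Z₁, Submodule.mem_iInf, LinearMap.mem_ker, LinearMap.sub_apply,
      LinearMap.id_apply, sub_eq_zero, Matrix.mulVecLin_apply] at hxy
    simp only [Z₂, Φ', Φ, Submodule.mem_iInf, LinearMap.mem_ker, LinearMap.sub_apply,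
      LinearMap.id_apply, sub_eq_zero, LinearMap.comp_apply, Submodule.subtype_apply,
      LinearMap.coprod_apply, Matrix.mulVecLin_apply, Matrix.mulVec_add]
    intro i hi
    rw [hcomm, hcomm, hxy.1 i hi, hxy.2 i hi]
  have h1 := (Submodule.finrank_mono hle).trans fixed_le
  have h2 := LinearMap.finrank_range_add_finrank_ker Φ'
  have h3 : Module.finrank L (LinearMap.ker Φ') ≤ r₀ := by
    refine le_trans ?_ ker_le
    rw [show LinearMap.ker Φ' = (LinearMap.ker Φ).comap (Z₁.prod Z₁).subtype from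
      LinearMap.ker_comp _ _]
    refine LinearMap.finrank_le_finrank_of_injective
      (f := ((Z₁.prod Z₁).subtype.comp (Submodule.subtype _)).codRestrict (LinearMap.ker Φ)
        fun z => z.2) ?_
    intro z w hzw
    have h := congrArg (fun t : ↥(LinearMap.ker Φ) => t.1) hzw
    exact Subtype.ext (Subtype.ext h)
  have h4 : Module.finrank L (Z₁.prod Z₁) = Module.finrank L Z₁ + Module.finrank L Z₁ := by
    rw [← Module.finrank_prod]
    exact (LinearEquiv.finrank_eq
      { toFun := fun z => (⟨z.1.1, z.2.1⟩, ⟨z.1.2, z.2.2⟩)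
        invFun := fun z => ⟨(z.1.1, z.2.1), z.1.2, z.2.2⟩
        map_add' := fun _ _ => rfl
        map_smul' := fun _ _ => rfl
        left_inv := fun _ => rfl
        right_inv := fun _ => rfl })
  omega

end FLTAgent.Local
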