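import Fermat.Agent.EllP.NodeBridge
import Fermat.Agent.EllLocal.Semistable
import Fermat.Agent.EllTorsion.MulXChar0

/-!
# Inertia on the torsion of a semistable integral model

Inertia is trivial on torsion prime to a good prime (`smul_eq_of_good`) and unipotent on odd
torsion prime to a semistable prime (`smul_sub_smul_sub_eq_zero`). At a multiplicative prime `q`
some inertia element moves the `r`-torsion when `r ∤ v_q(Δ)` (`exists_inertia_smul_ne_of_not_dvd`):
otherwise the abscissa of a torsion point outside `E₀` on the node model would be fixed by inertia,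
so its valuation would be an integral power of that of `q`, against `r ∤ v_q(Δ)`.
`card_bounds` is the trivial bound `1 ≤ #E(𝔽_q) ≤ 2q + 1`.
-/

set_option autoImplicit false
set_option linter.style.haveILetI false
set_option maxHeartbeats 400000

noncomputable section

open Polynomial WeierstrassCurve
open scoped WeierstrassCurve.Affine

namespace FLTAgent.Local.Curve

open FLTAgent.EllP

local notation "Qb" => AlgebraicClosure ℚ
local notation "GQ" => (AlgebraicClosure ℚ ≃ₐ[ℚ] AlgebraicClosure ℚ)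

variable {W : WeierstrassCurve ℤ} {A : ValuationSubring Qb} {q : ℕ}

theorem natCast_residue_ne_zero_of_coprime (hq : q.Prime) (hA : A.LiesOverPrime q) {n : ℕ}
    (hn : ¬ q ∣ n) : (n : IsLocalRing.ResidueField A) ≠ 0 := by
  have h := residue_map_ne_zero hq hA (n := (n : ℤ)) (mod_cast hn)
  simpa using h

theorem eq_zero_of_E1 (hq : q.Prime) (hA : A.LiesOverPrime q) {n : ℕ} (hn : ¬ q ∣ n)
    {P : QPoint W} (hP : n • P = 0) (h : toModel A P ∈ EllLocal.E1 A (modelAt A W)) : P = 0 :=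
  (toModel A).injective ((EllLocal.eq_zero_of_nsmul_eq_zero h
    (natCast_residue_ne_zero_of_coprime hq hA hn) (by rw [← map_nsmul, hP, _root_.map_zero])).trans
      (_root_.map_zero _).symm)

theorem nsmul_smul_sub {n : ℕ} {P : QPoint W} (hP : n • P = 0) (σ : GQ) :
    n • (σ • P - P) = 0 := by
  rw [nsmul_sub, hP, sub_zero, show n • σ • P = σ • (n • P) from
    (map_nsmul (DistribSMul.toAddMonoidHom (QPoint W) σ) n P).symm, hP]
  exact smul_zero (A := QPoint W) σ

/-- Inertia is trivial on torsion prime to a good prime. -/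
theorem smul_eq_of_good (hq : q.Prime) (hA : A.LiesOverPrime q) (hgood : ¬ (q : ℤ) ∣ W.Δ)
    {n : ℕ} (hn : ¬ q ∣ n) {σ : GQ} (hσ : σ ∈ A.inertiaSubgroupIn ℚ) {P : QPoint W}
    (hP : n • P = 0) : σ • P = P :=
  sub_eq_zero.mp (eq_zero_of_E1 hq hA hn (nsmul_smul_sub hP σ) (smul_sub_mem_E1 A hq hA hσ
    (EllLocal.mem_E0_of_good (by rw [map_Δ]; exact residue_map_ne_zero hq hA hgood) _)))

/-- Inertia is unipotent on odd torsion prime to a semistable prime. -/
theorem smul_sub_smul_sub_eq_zero (hq : q.Prime) (hA : A.LiesOverPrime q) (hΔ : W.Δ ≠ 0)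
    (hss : (q : ℤ) ∣ W.Δ → ¬ (q : ℤ) ∣ W.c₄) {n : ℕ} (hodd : Odd n) (hn : ¬ q ∣ n) {σ : GQ}
    (hσ : σ ∈ A.inertiaSubgroupIn ℚ) {P : QPoint W} (hP : n • P = 0) :
    σ • (σ • P - P) - (σ • P - P) = 0 := by
  refine eq_zero_of_E1 hq hA hn (nsmul_smul_sub (nsmul_smul_sub hP σ) σ)
    (smul_sub_mem_E1 A hq hA hσ ?_)
  rw [map_sub]
  refine EllLocal.sub_mem_E0_of_semistable ?_ ?_ (EllLocal.inertiaLike_of_mem hσ)
    (genCurve_map_fixed σ) (isConjPoint_toModel σ P) hodd (by rw [← map_nsmul, hP, _root_.map_zero])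
  · by_cases hd : (q : ℤ) ∣ W.Δ
    · exact Or.inr (by rw [map_c₄]; exact residue_map_ne_zero hq hA (hss hd))
    · exact Or.inl (by rw [map_Δ]; exact residue_map_ne_zero hq hA hd)
  · rw [map_Δ]
    intro h
    have := congrArg (fun z : A => (z : Qb)) h
    exact hΔ (by simpa using this)

theorem preΨ'_nodeZero_eval {k : Type*} [CommRing k] :
    ∀ n : ℕ, 3 ≤ n → ((EllLocal.nodeCurve (0 : k)).preΨ' n).eval 0 = 0 := by
  intro n
  induction n using Nat.strong_induction_on with
  | _ n ih =>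
    intro hn
    obtain ⟨m, rfl | rfl⟩ := Nat.even_or_odd' n
    · rcases le_or_gt 3 m with hm | hm
      · obtain ⟨j, rfl⟩ := Nat.exists_eq_add_of_le hm
        rw [add_comm 3 j, preΨ'_even, eval_sub, eval_mul, eval_mul, eval_mul, eval_mul,
          ih (j + 3) (by omega) (by omega)]
        simp
      · obtain rfl : m = 2 := by omega
        simp [preΨ'_four, preΨ₄, EllLocal.nodeCurve, b₂, b₄, b₆, b₈]
    · rcases le_or_gt 2 m with hm | hm
      · obtain ⟨j, rfl⟩ := Nat.exists_eq_add_of_le hm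
        rw [add_comm 2 j, preΨ'_odd, eval_sub, eval_mul, eval_mul, eval_mul, eval_mul,
          ih (j + 4) (by omega) (by omega), eval_pow, eval_pow, ih (j + 3) (by omega) (by omega)]
        simp
      · obtain rfl : m = 1 := by omega
        simp [preΨ'_three, Ψ₃, EllLocal.nodeCurve, b₂, b₄, b₆, b₈]

/-- A node curve has a torsion point reducing to the node. -/
theorem exists_torsion_notMem_E0 {K : Type*} [Field K] [DecidableEq K] [IsAlgClosed K] [CharZero K]
    {A : ValuationSubring K} {c : A}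
    (hc : IsLocalRing.residue A c = 0) [(EllLocal.nodeGen c).IsElliptic] {n : ℕ} (hn : Odd n)
    (h3 : 3 ≤ n) (hnA : (n : IsLocalRing.ResidueField A) ≠ 0) :
    ∃ P : (EllLocal.nodeGen c).Point, n • P = 0 ∧ P ∉ EllLocal.E0 A (EllLocal.nodeCurve c) := by
  set f := (EllLocal.nodeCurve c).preΨ' n with hf
  have hf0 : A.valuation ((f.eval 0 : A) : K) < 1 := by
    refine EllLocal.valuation_lt_of_residue_eq_zero A ?_
    have h := eval_map_apply (f := IsLocalRing.residue A) (p := f) (x := 0)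
    rw [map_zero, hf, ← map_preΨ', EllLocal.map_nodeCurve, hc, preΨ'_nodeZero_eval n h3] at h
    exact h.symm
  set g := f.map A.subtype with hgdef
  have hg : g = (EllLocal.nodeGen c).preΨ' n := (map_preΨ' _ _ n).symm
  have hnK : (n : K) ≠ 0 := Nat.cast_ne_zero.mpr (by omega)
  have hlead : g.leadingCoeff = (n : K) := by
    rw [hg, leadingCoeff_preΨ' _ hnK, if_neg (Nat.not_even_iff_odd.mpr hn)]
  have hvn : A.valuation (n : K) = 1 := by
    refine le_antisymm ((A.valuation_le_one_iff _).mpr (natCast_mem A n)) (not_lt.mp fun h => hnA ?_)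
    have h' : ((n : A) : K) ∈ A.nonunits := by
      rw [ValuationSubring.mem_nonunits_iff]; simpa using h
    rw [ValuationSubring.coe_mem_nonunits_iff, ← IsLocalRing.residue_eq_zero_iff, map_natCast] at h'
    exact h'
  obtain ⟨r, hr, hrv⟩ : ∃ r ∈ g.roots, A.valuation r < 1 := by
    by_contra hcon
    push Not at hcon
    have hev : g.eval 0 = ((f.eval 0 : A) : K) := by
      rw [hgdef, show (0 : K) = A.subtype 0 from (map_zero _).symm, eval_map_apply]
      rfl
    have hprod : g.eval 0 = (n : K) * (g.roots.map fun r => 0 - r).prod := by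
      conv_lhs => rw [(IsAlgClosed.splits g).eq_prod_roots]
      rw [eval_mul, eval_C, hlead, eval_multiset_prod, Multiset.map_map]
      simp
    have h1 : 1 ≤ A.valuation ((g.roots.map fun r => 0 - r).prod) := by
      rw [map_multiset_prod, Multiset.map_map]
      refine Multiset.one_le_prod_of_one_le fun x hx => ?_
      simp only [Multiset.mem_map, Function.comp_apply, zero_sub, Valuation.map_neg] at hx
      obtain ⟨r, hr, rfl⟩ := hx
      exact hcon r hr
    rw [← hev, hprod, map_mul, hvn, one_mul] at hf0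
    exact hf0.not_ge h1
  obtain ⟨y, hy⟩ := EllTorsion.exists_nonsingular (W := EllLocal.nodeGen c) r
  refine ⟨.some r y hy, ?_, (EllLocal.notMem_E0_some hc hy).mpr hrv⟩
  rw [EllTorsion.nsmul_some_eq_zero_iff_preΨ' hn hy, ← hg]
  exact isRoot_of_mem_roots hr

/-- Some inertia element moves the `r`-torsion at a multiplicative prime `q` with
`r ∤ v_q(Δ)`. -/
theorem exists_inertia_smul_ne_of_not_dvd (hq : q.Prime) (hA : A.LiesOverPrime q) (hΔ : W.Δ ≠ 0)
    (hqΔ : (q : ℤ) ∣ W.Δ) (hqc : ¬ (q : ℤ) ∣ W.c₄) {r : ℕ} (hr : r.Prime) (hr2 : r ≠ 2)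
    (hrq : q ≠ r) (hre : ¬ r ∣ padicValInt q W.Δ) :
    ∃ σ ∈ A.inertiaSubgroupIn ℚ, ∃ P : QPoint W, r • P = 0 ∧ σ • P ≠ P := by
  by_contra hcon
  push Not at hcon
  have hqr : ¬ q ∣ r := fun h => hrq ((Nat.prime_dvd_prime_iff_eq hq hr).mp h)
  obtain ⟨C, c, hC, hc, hc0, hvc, hu, hr', hs, ht, hfix⟩ := node_data hq hA hΔ hqΔ hqc
  haveI hE1 : (EllLocal.genCurve A (modelAt A W)).IsElliptic := by
    rw [genCurve_modelAt]; exact isElliptic_baseChange hΔ
  haveI hE2 : (EllLocal.nodeGen c).IsElliptic := by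
    have : (C • EllLocal.genCurve A (modelAt A W)).IsElliptic := inferInstance
    rwa [hC] at this
  have hrK : (r : Qb) ≠ 0 := Nat.cast_ne_zero.mpr hr.ne_zero
  obtain ⟨R, hR0, hRE⟩ := exists_torsion_notMem_E0 hc (hr.odd_of_ne_two hr2)
    (by have := hr.two_le; omega) (natCast_residue_ne_zero_of_coprime hq hA hqr)
  let φ : QPoint W →+ (EllLocal.nodeGen c).Point :=
    ((pointCongr (congrArg WeierstrassCurve.toAffine hC)).toAddMonoidHom.comp
      (EllLocal.vcPoint (EllLocal.genCurve A (modelAt A W)) C)).comp (toModel A).toAddMonoidHom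
  have hφ : Function.Injective φ :=
    ((pointCongr _).injective.comp (EllLocal.vcPoint_injective C)).comp (toModel A).injective
  let φr : Submodule.torsionBy ℤ (QPoint W) r →
      Submodule.torsionBy ℤ (EllLocal.nodeGen c).Point r := fun P =>
    ⟨φ P.1, by
      rw [Submodule.mem_torsionBy_iff, natCast_zsmul, ← map_nsmul, ← natCast_zsmul,
        (Submodule.mem_torsionBy_iff _ _).mp P.2, _root_.map_zero]⟩
  haveI hEQ : ((W.map (Int.castRingHom ℚ))⁄Qb).toAffine.IsElliptic := isElliptic_baseChange hΔ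
  have hbij : Function.Bijective φr := by
    haveI : Finite (Submodule.torsionBy ℤ (EllLocal.nodeGen c).Point r) :=
      Nat.finite_of_card_ne_zero (by
        rw [EllTorsion.natCard_torsionBy r hrK]; exact pow_ne_zero _ hr.ne_zero)
    refine (Nat.bijective_iff_injective_and_card φr).mpr
      ⟨fun P Q h => Subtype.ext (hφ (congrArg Subtype.val h)), ?_⟩
    exact (EllTorsion.natCard_torsionBy (W := ((W.map (Int.castRingHom ℚ))⁄Qb).toAffine) r hrK).trans
      (EllTorsion.natCard_torsionBy r hrK).symm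
  obtain ⟨⟨x, hx⟩, hxR⟩ := hbij.2 ⟨R, by rw [Submodule.mem_torsionBy_iff, natCast_zsmul, hR0]⟩
  have hxR' : φ x = R := congrArg Subtype.val hxR
  rw [Submodule.mem_torsionBy_iff, natCast_zsmul] at hx
  obtain ⟨a, b, hab, hReq, ha1, hkind, k, hk⟩ :=
    EllLocal.exists_zpow_of_torsion hc hc0 hRE (hr.odd_of_ne_two hr2) hR0
  have hsq : A.valuation (c : Qb) < A.valuation a ^ 2 := by
    rcases hkind with h | h <;> exact h.1
  have ha0 : a ≠ 0 := by
    intro h
    simp [h] at hsq
  have hfixa : ∀ σ ∈ A.inertiaSubgroupIn ℚ, σ a = a := by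
    intro σ hσ
    have h := isConjPoint_pointCongr (congrArg WeierstrassCurve.toAffine hC)
      ((isConjPoint_toModel (A := A) σ x).vc (hfix σ hσ).1)
    rw [hcon σ hσ x hx] at h
    change EllLocal.IsConjPoint _ (φ x) (φ x) at h
    rw [hxR', hReq] at h
    obtain ⟨h', he⟩ := h.eq_some
    exact ((Affine.Point.some.injEq ..).mp he).1.symm
  obtain ⟨m, hm⟩ := exists_valuation_eq_zpow hq hA ha0 hfixa
  obtain ⟨e, u, hu', he⟩ :=
    Nat.exists_eq_pow_mul_and_not_dvd (Int.natAbs_ne_zero.2 hΔ) q hq.ne_one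
  have hu0 : u ≠ 0 := fun h => hu' (h ▸ dvd_zero q)
  have her : ¬ r ∣ e := by
    haveI : Fact q.Prime := ⟨hq⟩
    rwa [padicValInt, he, padicValNat.mul (pow_ne_zero _ hq.ne_zero) hu0, padicValNat.prime_pow,
      padicValNat.eq_zero_of_not_dvd hu', add_zero] at hre
  have he0 : e ≠ 0 := by
    rintro rfl
    have h := Int.natCast_dvd.mp hqΔ
    rw [he, pow_zero, one_mul] at h
    exact hu' h
  set v := A.valuation
  have hvu : v ((u : ℤ) : Qb) = 1 := by
    refine le_antisymm ((A.valuation_le_one_iff _).2 (intCast_mem A _)) (not_lt.1 fun h' => hu' ?_)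
    exact Int.natCast_dvd_natCast.1 ((intCast_mem_nonunits hq hA).1 h')
  have hvΔ : v (W.Δ : Qb) = v (q : Qb) ^ e := by
    rcases Int.natAbs_eq W.Δ with hn' | hn' <;>
      (rw [hn', he]; push_cast; simp [map_mul, map_pow, Valuation.map_neg] at hvu ⊢;
       rw [hvu, mul_one])
  have hq1 : v (q : Qb) < 1 := hA
  have hq0 : v (q : Qb) ≠ 0 := by simpa [v] using hq.ne_zero
  have hinj := (zpow_right_strictAnti₀ (pos_of_ne_zero hq0) hq1)
  rw [hvc, hvΔ, ← zpow_natCast (v (q : Qb)) e] at hk hsq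
  rw [hm, ← zpow_natCast (v (q : Qb) ^ m), ← zpow_mul] at hk hsq
  rw [← zpow_mul] at hk
  rw [hm] at ha1
  have e1 : m * (r : ℤ) = (e : ℤ) * k := hinj.injective hk
  have e2 : m * 2 < (e : ℤ) := hinj.lt_iff_gt.1 hsq
  have e3 : 0 < m := hinj.lt_iff_gt.1 (by rwa [zpow_zero])
  have hrdvd : (r : ℤ) ∣ k := by
    refine ((Nat.prime_iff_prime_int.1 hr).dvd_or_dvd ⟨m, ?_⟩).resolve_left
      (fun h => her (Int.natCast_dvd_natCast.1 h))
    linear_combination -e1
  obtain ⟨j, rfl⟩ := hrdvd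
  have hpos : (0 : ℤ) < r := by exact_mod_cast hr.pos
  have e4 : m = (e : ℤ) * j := mul_right_cancel₀ hpos.ne' (by linear_combination e1)
  rw [e4] at e2 e3
  have hj : 0 < j := pos_of_mul_pos_right e3 (Int.natCast_nonneg e)
  nlinarith

/-- Some inertia element moves the `r`-torsion at a multiplicative prime, for large `r`. -/
theorem exists_inertia_smul_ne (hq : q.Prime) (hA : A.LiesOverPrime q) (hΔ : W.Δ ≠ 0)
    (hqΔ : (q : ℤ) ∣ W.Δ) (hqc : ¬ (q : ℤ) ∣ W.c₄) {r : ℕ} (hr : r.Prime) (hr2 : r ≠ 2)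
    (hrq : q ≠ r) (hrΔ : W.Δ.natAbs < r) :
    ∃ σ ∈ A.inertiaSubgroupIn ℚ, ∃ P : QPoint W, r • P = 0 ∧ σ • P ≠ P := by
  refine exists_inertia_smul_ne_of_not_dvd hq hA hΔ hqΔ hqc hr hr2 hrq fun h => ?_
  haveI : Fact q.Prime := ⟨hq⟩
  have hlt : padicValInt q W.Δ < W.Δ.natAbs := lt_of_lt_of_le (Nat.lt_pow_self hq.one_lt)
    (Nat.le_of_dvd (Int.natAbs_pos.mpr hΔ) pow_padicValNat_dvd)
  have hne : padicValInt q W.Δ ≠ 0 := fun h0 => by
    rw [padicValInt, padicValNat.eq_zero_iff] at h0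
    rcases h0 with h0 | h0 | h0
    · exact hq.ne_one h0
    · exact hΔ (Int.natAbs_eq_zero.mp h0)
    · exact h0 (Int.natCast_dvd.mp hqΔ)
  exact absurd ((Nat.le_of_dvd (Nat.pos_of_ne_zero hne) h).trans_lt hlt) hrΔ.le.not_gt

/-- An affine point count bound: `1 ≤ #E(𝔽_q) ≤ 2 q + 1`. -/
theorem card_bounds (W : WeierstrassCurve ℤ) (q : ℕ) [Fact q.Prime] :
    1 ≤ (W.reductionMod q).card ∧ (W.reductionMod q).card ≤ 2 * q + 1 := by
  classical
  haveI : Nonempty (W.reductionMod q).toAffine.Point := ⟨.zero⟩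
  refine ⟨Nat.one_le_iff_ne_zero.mpr Nat.card_pos.ne', ?_⟩
  set E := (W.reductionMod q).toAffine
  let S : ZMod q → Finset (ZMod q) := fun x =>
    Finset.univ.filter fun y => E.Equation x y
  have hS : ∀ x, (S x).card ≤ 2 := by
    intro x
    rcases (S x).eq_empty_or_nonempty with h | ⟨y₀, hy₀⟩
    · simp [h]
    refine (Finset.card_le_card (t := {y₀, E.negY x y₀}) fun y hy => ?_).trans Finset.card_le_two
    simp only [S, Finset.mem_filter] at hy hy₀
    rcases Affine.Y_eq_of_X_eq hy.2 hy₀.2 rfl with h | h <;> simp [h]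
  let f : E.Point → Option ((x : ZMod q) × S x)
    | .zero => none
    | .some x y h => some ⟨x, y, by simp [S, h.1]⟩
  have hf : Function.Injective f := by
    rintro (_ | ⟨x, y, h⟩) (_ | ⟨x', y', h'⟩) he <;> simp [f] at he ⊢
    obtain ⟨rfl, he⟩ := he
    simpa using he
  have h := Nat.card_le_card_of_injective f hf
  have hsum : ∑ x : ZMod q, (S x).card ≤ 2 * q :=
    (Finset.sum_le_sum fun x _ => hS x).trans (by simp [mul_comm])
  have hcard : Nat.card (Option ((x : ZMod q) × S x)) ≤ 2 * q + 1 := by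
    rw [Nat.card_eq_fintype_card, Fintype.card_option, Fintype.card_sigma]
    simpa using hsum
  exact h.trans hcard

end FLTAgent.Local.Curve
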