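import Fermat.Agent.Local.Scalar
import Fermat.Agent.Local.CurveFacts
import Fermat.Agent.EllFrob.Interface

/-!
# The scalar of a system of eigenvalues read on a curve

For an integral system with the Frobenius traces of a curve, `exists_trace_of_curve` identifies the
scalar of `Local/Scalar` with the trace on the torsion (`IsTraceOfCurve`). It is `a_ℓ` at good
Frobenius elements (`trace_frobenius`) and `2` on semistable inertia (`trace_inertia`). If it is
invariant under inertia at a multiplicative prime, the `p`-torsion has a stable line for large `p`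
(`exists_stable_line`), contradicting the point count at a small prime (`false_of_stable_line`).
-/

set_option autoImplicit false
set_option linter.style.haveILetI false
set_option maxHeartbeats 400000

noncomputable section

open CuspForm Matrix WeierstrassCurve
open scoped WeierstrassCurve.Affine

namespace FLTAgent.Local.Curve

open FLTAgent.Reps FLTAgent.EllP

local notation "Qb" => AlgebraicClosure ℚ
local notation "GQ" => (AlgebraicClosure ℚ ≃ₐ[ℚ] AlgebraicClosure ℚ)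

variable {W : WeierstrassCurve ℤ} {p : ℕ} [Fact p.Prime]

theorem smul_inv_smul_point (σ : GQ) (P : QPoint W) : σ • σ⁻¹ • P = P := by
  rw [← mul_smul, mul_inv_cancel, one_smul]

theorem smul_zero_point (σ : GQ) : σ • (0 : QPoint W) = 0 := smul_zero (A := QPoint W) σ

theorem smul_sub_point (σ : GQ) (P Q : QPoint W) : σ • (P - Q) = σ • P - σ • Q :=
  smul_sub (A := QPoint W) σ P Q

theorem smul_neg_point (σ : GQ) (P : QPoint W) : σ • (-P) = -(σ • P) :=
  smul_neg (A := QPoint W) σ P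

theorem nsmul_smul_eq_zero {m : ℕ} (σ : GQ) {P : QPoint W} (hP : m • P = 0) : m • σ • P = 0 := by
  have h : m • σ • P = σ • (m • P) :=
    (map_nsmul (DistribSMul.toAddMonoidHom (QPoint W) σ) m P).symm
  rw [h, hP]
  exact smul_zero (A := QPoint W) σ

theorem zsmul_eq_of_dvd {k : ℕ} {a b : ℤ} {P : QPoint W} (hP : k • P = 0)
    (h : (k : ℤ) ∣ a - b) : a • P = b • P := by
  obtain ⟨z, hz⟩ := h
  rw [← sub_add_cancel a b, hz, add_zsmul, mul_zsmul', natCast_zsmul, hP, zsmul_zero, zero_add]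

/-- The congruence property of the scalar, on the points of the curve. -/
def IsTraceOfCurve (W : WeierstrassCurve ℤ) (c : GQ → ℤ_[p]) : Prop :=
  ∀ (n : ℕ) (g : GQ) (d : ℕ), (d : ZMod (p ^ n)) = cycMod p n g → ∀ P : QPoint W, p ^ n • P = 0 →
    g • P + d • g⁻¹ • P = (PadicInt.toZModPow n (c g)).val • P

/-- An integral eigen system with the Frobenius traces of the curve has a scalar with the traces of
the curve. -/
theorem exists_trace_of_curve {M : ℕ} [NeZero M] {S : Finset ℕ} (G : GalModel M p) (hp2 : p ≠ 2)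
    (hpS : p ∈ S) (hMS : ∀ q : ℕ, q.Prime → q ∣ M → q ∈ S) (hΔ : W.Δ ≠ 0)
    (hΔS : ∀ q : ℕ, q.Prime → (q : ℤ) ∣ W.Δ → q ∈ S)
    (χ : ↥(heckeAlgebra M 2 (↑S : Set ℕ)) →+* ℤ)
    (hχ : ∀ (ℓ : ℕ) (hℓ : ℓ.Prime) (hℓM : ¬ ℓ ∣ M) (hℓS : ℓ ∉ (↑S : Set ℕ)),
      χ (heckeAlgebra.T hℓ hℓM hℓS) = W.apOfModel ℓ) :
    ∃ c : GQ → ℤ_[p], IsTraceOfCurve W c ∧
      ∀ (K : Type) [Field K] [CharZero K] (f : ℤ_[p] →+* K) (v : Fin G.r → K),
        (∀ t, linMap (Int.castRingHom K) (tauS G S t) v = (χ t : K) • v) →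
        ∀ g, aOp (galRep f G) (chiL f) g v = f (c g) • v := by
  obtain ⟨c, hc, hcongr⟩ := exists_scalar G hpS hMS χ
  refine ⟨c, fun n g d hd P hP => ?_, hc⟩
  have hpn : p ^ n ≠ 0 := pow_ne_zero _ (Fact.out : p.Prime).ne_zero
  haveI := EllTorsion.isElliptic_map_rat hΔ
  have hmem : P ∈ Submodule.torsionBy ℤ (QPoint W) (p ^ n : ℕ) := by
    rw [Submodule.mem_torsionBy_iff, natCast_zsmul, hP]
  let R : GQ →* Module.End ℤ (QTorsion W (p ^ n)) :=
    DistribMulAction.toModuleEnd ℤ (QTorsion W (p ^ n))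
  have hV : ∀ x : QTorsion W (p ^ n), p ^ n • x = 0 := fun x => by
    apply Subtype.ext
    show p ^ n • (x : QPoint W) = 0
    rw [← natCast_zsmul]
    exact (Submodule.mem_torsionBy_iff _ _).mp x.2
  have h := hcongr n (QTorsion W (p ^ n)) R hV ?_ ?_ g d hd ⟨P, hmem⟩
  · exact congrArg Subtype.val h
  · obtain ⟨F, hF, hfix⟩ :=
      EllTorsion.exists_finiteLevel_smul_eq (W.map (Int.castRingHom ℚ)) (p ^ n) hpn
    exact ⟨F, hF, fun σ hσ => LinearMap.ext fun x => hfix σ hσ x⟩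
  · intro ℓ hℓ hℓM hℓS A hA σ hσ x
    rw [hχ ℓ hℓ hℓM hℓS]
    apply Subtype.ext
    show σ • σ • (x : QPoint W) - W.apOfModel ℓ • (σ • (x : QPoint W)) + (ℓ : ℤ) • (x : QPoint W) = 0
    have hℓp : ℓ ≠ p := fun e => hℓS (Finset.mem_coe.mpr (e ▸ hpS))
    exact EllFrob.frobenius_relation W hℓ (fun hd => hℓS (Finset.mem_coe.mpr (hΔS ℓ hℓ hd)))
      ((Fact.out : p.Prime).odd_of_ne_two hp2).pow
      ((Nat.coprime_primes Fact.out hℓ).mpr (Ne.symm hℓp) |>.pow_left n) hA hσ _
      (congrArg Subtype.val (hV x))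

/-- A number killing all the `p ^ n`-torsion is divisible by `p ^ n`. -/
theorem dvd_of_forall_smul_eq_zero (hΔ : W.Δ ≠ 0) {n : ℕ} {m : ℤ}
    (h : ∀ P : QPoint W, p ^ n • P = 0 → m • P = 0) : (p : ℤ) ^ n ∣ m := by
  by_contra hnd
  haveI := EllTorsion.isElliptic_map_rat hΔ
  have hp : p.Prime := Fact.out
  obtain ⟨j, hj, hgcd⟩ := (Nat.dvd_prime_pow hp).mp (Int.gcd_dvd_natAbs_left ((p ^ n : ℕ) : ℤ) m)
  have hjn : j < n := by
    refine lt_of_le_of_ne hj ?_
    rintro rfl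
    apply hnd
    have := Int.gcd_dvd_right ((p ^ j : ℕ) : ℤ) m
    rw [hgcd] at this
    exact_mod_cast this
  have hkill : ∀ P : QPoint W, p ^ n • P = 0 → p ^ j • P = 0 := by
    intro P hP
    rw [← natCast_zsmul, ← hgcd, Int.gcd_eq_gcd_ab, add_zsmul, mul_zsmul', mul_zsmul',
      natCast_zsmul, hP, h P hP, zsmul_zero, zsmul_zero, add_zero]
  haveI := EllTorsion.finite_torsionBy_rat (W.map (Int.castRingHom ℚ)) (p ^ j)
    (pow_ne_zero _ hp.ne_zero)
  let ψ : QTorsion W (p ^ n) → QTorsion W (p ^ j) := fun P => ⟨P.1, by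
    rw [Submodule.mem_torsionBy_iff, natCast_zsmul]
    exact hkill _ (by rw [← natCast_zsmul]; exact (Submodule.mem_torsionBy_iff _ _).mp P.2)⟩
  have hle := Nat.card_le_card_of_injective ψ fun P Q hh =>
    Subtype.ext (congrArg (fun z : QTorsion W (p ^ j) => (z : QPoint W)) hh)
  rw [EllTorsion.natCard_torsionBy_rat _ _ (pow_ne_zero _ hp.ne_zero),
    EllTorsion.natCard_torsionBy_rat _ _ (pow_ne_zero _ hp.ne_zero)] at hle
  exact absurd hle ((Nat.pow_lt_pow_left (Nat.pow_lt_pow_right hp.one_lt hjn) two_ne_zero).not_ge)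

/-- A scalar acting as an integer on all torsion is that integer. -/
theorem eq_intCast_of_forall (hΔ : W.Δ ≠ 0) {x : ℤ_[p]} {a : ℤ}
    (h : ∀ (n : ℕ) (P : QPoint W), p ^ n • P = 0 →
      (PadicInt.toZModPow n x).val • P = a • P) : x = a := by
  refine PadicInt.ext_of_toZModPow.mp fun n => ?_
  haveI : NeZero (p ^ n) := ⟨pow_ne_zero n (Fact.out : p.Prime).ne_zero⟩
  have hdvd : (p : ℤ) ^ n ∣ a - ((PadicInt.toZModPow n x).val : ℤ) :=
    dvd_of_forall_smul_eq_zero hΔ fun P hP => by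
      rw [sub_smul, natCast_zsmul, h n P hP, sub_self]
  rw [← Nat.cast_pow, ← ZMod.intCast_eq_intCast_iff_dvd_sub, Int.cast_natCast,
    ZMod.natCast_zmod_val] at hdvd
  rw [map_intCast, hdvd]

variable {c : GQ → ℤ_[p]}

/-- The trace at a good prime is the point count. -/
theorem trace_frobenius (hc : IsTraceOfCurve W c) (hp2 : p ≠ 2) (hΔ : W.Δ ≠ 0) {q : ℕ}
    (hq : q.Prime) (hqp : q ≠ p) (hgood : W.IsGoodPrimeFor q) {A : ValuationSubring Qb}
    (hA : A.LiesOverPrime q) {F : GQ} (hF : A.IsFrobeniusAt F q) :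
    c F = W.apOfModel q := by
  refine eq_intCast_of_forall hΔ fun n P hP => ?_
  have hd : (q : ZMod (p ^ n)) = cycMod p n F := by
    show _ = PadicInt.toZModPow n (cyc p F)
    rw [cyc_frobenius hq hqp hA hF, map_natCast]
  rw [← hc n F q hd P hP]
  have h := EllFrob.frobenius_relation W hq hgood ((Fact.out : p.Prime).odd_of_ne_two hp2).pow
    (((Nat.coprime_primes Fact.out hq).mpr (Ne.symm hqp)).pow_left n) hA hF (F⁻¹ • P)
    (nsmul_smul_eq_zero F⁻¹ hP)
  rw [smul_inv_smul_point, sub_add_eq_add_sub, sub_eq_zero, natCast_zsmul] at h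
  exact h

/-- The trace on inertia at a semistable prime is `2`. -/
theorem trace_inertia (hc : IsTraceOfCurve W c) (hp2 : p ≠ 2) (hΔ : W.Δ ≠ 0) {q : ℕ} (hq : q.Prime)
    (hqp : q ≠ p) (hss : (q : ℤ) ∣ W.Δ → ¬ (q : ℤ) ∣ W.c₄) {A : ValuationSubring Qb}
    (hA : A.LiesOverPrime q) {i : GQ} (hi : i ∈ A.inertiaSubgroupIn ℚ) : c i = 2 := by
  have h2 : c i = ((2 : ℤ) : ℤ_[p]) := by
    refine eq_intCast_of_forall hΔ fun n P hP => ?_
    have hd : ((1 : ℕ) : ZMod (p ^ n)) = cycMod p n i := by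
      show _ = PadicInt.toZModPow n (cyc p i)
      rw [cyc_inertia hq hqp hA hi, map_one, Nat.cast_one]
    rw [← hc n i 1 hd P hP, one_nsmul]
    have h := smul_sub_smul_sub_eq_zero hq hA hΔ hss ((Fact.out : p.Prime).odd_of_ne_two hp2).pow
      (fun hd => hqp ((Nat.prime_dvd_prime_iff_eq hq Fact.out).mp (hq.dvd_of_dvd_pow hd))) hi hP
    have h' := congrArg (fun X : QPoint W => i⁻¹ • X) h
    simp only [smul_sub_point, inv_smul_smul, smul_zero_point] at h'
    rw [sub_eq_zero] at h'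
    rw [show (2 : ℤ) = 1 + 1 from rfl, add_zsmul, one_zsmul]
    calc i • P + i⁻¹ • P = (i • P - P) + (P + i⁻¹ • P) := by abel
      _ = (P - i⁻¹ • P) + (P + i⁻¹ • P) := by rw [h']
      _ = P + P := by abel
  simpa using h2

/-- If the trace is invariant under translation by inertia at `q`, the `p`-torsion has a stable
line unless inertia at `q` fixes it. -/
theorem exists_stable_line (hc : IsTraceOfCurve W c) (hp2 : p ≠ 2) (hΔ : W.Δ ≠ 0) {q : ℕ}
    (hq : q.Prime) (hqp : q ≠ p) (hqΔ : (q : ℤ) ∣ W.Δ) (hqc : ¬ (q : ℤ) ∣ W.c₄)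
    (hbig : W.Δ.natAbs < p) {A : ValuationSubring Qb} (hA : A.LiesOverPrime q)
    (hinv : ∀ g, ∀ i ∈ A.inertiaSubgroupIn ℚ, c (g * i) = c g) :
    ∃ L : Submodule (ZMod p) (QTorsion W p), Nat.card L = p ∧
      ∀ σ : GQ, ∀ P ∈ L, σ • P ∈ L := by
  have hp : p.Prime := Fact.out
  obtain ⟨i, hi, P₀, hP₀, hne⟩ := exists_inertia_smul_ne hq hA hΔ hqΔ hqc hp hp2 hqp hbig
  have hcp : ∀ {P : QPoint W}, p • P = 0 → p ^ 1 • P = 0 := fun h => by rwa [pow_one]
  have hqdvd : ¬ q ∣ p := fun hd => hqp ((Nat.prime_dvd_prime_iff_eq hq hp).mp hd)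
  let D : GQ → ℕ := fun g => (cycMod p 1 g).val
  haveI : NeZero (p ^ 1) := ⟨pow_ne_zero _ hp.ne_zero⟩
  have hD : ∀ g, (D g : ZMod (p ^ 1)) = cycMod p 1 g := fun g => ZMod.natCast_zmod_val _
  have hcyc : cycMod p 1 i = 1 := by
    show PadicInt.toZModPow 1 (cyc p i) = 1
    rw [cyc_inertia hq hqp hA hi, map_one]
  let ν : QPoint W → QPoint W := fun P => i • P - P
  have hsq : ∀ {P : QPoint W}, p • P = 0 → ν (ν P) = 0 := fun h =>
    smul_sub_smul_sub_eq_zero hq hA hΔ (fun _ => hqc) (hp.odd_of_ne_two hp2) hqdvd hi h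
  have hinv' : ∀ {P : QPoint W}, p • P = 0 → i⁻¹ • P - P = -ν P := by
    intro P hP
    have h := congrArg (fun X : QPoint W => i⁻¹ • X) (hsq hP)
    simp only [ν, smul_sub_point, inv_smul_smul, smul_zero_point, sub_eq_zero] at h
    show i⁻¹ • P - P = -(i • P - P)
    rw [h, neg_sub]
  have hrel : ∀ g, ∀ {P : QPoint W}, p • P = 0 → g • ν P = D g • ν (g⁻¹ • P) := by
    intro g P hP
    have h1 := hc 1 (g * i) (D g) (by rw [hD, map_mul, hcyc, mul_one]) P (hcp hP)
    rw [hinv g i hi, ← hc 1 g (D g) (hD g) P (hcp hP), mul_smul, _root_.mul_inv_rev, mul_smul] at h1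
    have h2 : g • ν P + D g • (i⁻¹ • g⁻¹ • P - g⁻¹ • P) = 0 := by
      show g • (i • P - P) + _ = 0
      rw [smul_sub_point, nsmul_sub, sub_add_sub_comm, h1, sub_self]
    rw [hinv' (nsmul_smul_eq_zero _ hP), neg_nsmul, ← sub_eq_add_neg, sub_eq_zero] at h2
    exact h2
  let L : Submodule (ZMod p) (QTorsion W p) := AddSubgroup.toZModSubmodule p
    ((DistribSMul.toAddMonoidHom (QTorsion W p) i - AddMonoidHom.id _).ker)
  have hL : ∀ P : QTorsion W p, P ∈ L ↔ ν P.1 = 0 := fun P =>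
    (AddMonoidHom.mem_ker).trans ⟨fun h => congrArg Subtype.val h, fun h => Subtype.ext h⟩
  have hp0 : ∀ P : QTorsion W p, p • (P : QPoint W) = 0 := fun P => by
    rw [← natCast_zsmul]; exact (Submodule.mem_torsionBy_iff _ _).mp P.2
  haveI := EllTorsion.isElliptic_map_rat hΔ
  refine ⟨L, ?_, ?_⟩
  · rcases submodule_card_cases
      (EllTorsion.natCard_torsionBy_rat (W.map (Int.castRingHom ℚ)) p hp.ne_zero) L with h | h | h
    · have hmem : (⟨ν P₀, by
          rw [Submodule.mem_torsionBy_iff, natCast_zsmul]; exact nsmul_smul_sub hP₀ i⟩ :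
            QTorsion W p) ∈ L := (hL _).mpr (hsq hP₀)
      rw [h, Submodule.mem_bot] at hmem
      exact absurd (sub_eq_zero.mp (congrArg Subtype.val hmem)) hne
    · exact h
    · have hmem : (⟨P₀, by rw [Submodule.mem_torsionBy_iff, natCast_zsmul, hP₀]⟩ :
            QTorsion W p) ∈ L := h ▸ Submodule.mem_top
      exact absurd (sub_eq_zero.mp ((hL _).mp hmem)) hne
  · intro σ P hP
    rw [hL] at hP ⊢
    show ν (σ • (P : QPoint W)) = 0
    have h := hrel σ⁻¹ (hp0 P)
    rw [hP, inv_inv, smul_zero_point] at h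
    have hunit : IsUnit (cycMod p 1 σ⁻¹) := (Group.isUnit σ⁻¹).map _
    have hcop : (D σ⁻¹).Coprime p := by
      rw [← hD] at hunit
      simpa using (ZMod.isUnit_iff_coprime _ _).mp hunit
    have hk : p • ν (σ • (P : QPoint W)) = 0 := nsmul_smul_sub (nsmul_smul_eq_zero σ (hp0 P)) i
    have h1 : (Nat.gcd (D σ⁻¹) p : ℤ) • ν (σ • (P : QPoint W)) = 0 := by
      rw [Nat.gcd_eq_gcd_ab, add_zsmul, mul_zsmul', mul_zsmul', natCast_zsmul, natCast_zsmul, ← h,
        hk, zsmul_zero, zsmul_zero, add_zero]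
    rwa [hcop, Nat.cast_one, one_zsmul] at h1

/-- A stable line contradicts the point count at a small good prime. -/
theorem false_of_stable_line (hc : IsTraceOfCurve W c) (hp2 : p ≠ 2) (hΔ : W.Δ ≠ 0)
    (hss : W.IsSemistableModel) {l : ℕ} (hl : l.Prime) (hgood : W.IsGoodPrimeFor l)
    (hbig : 2 * l + 1 < p) (L : Submodule (ZMod p) (QTorsion W p)) (hL : Nat.card L = p)
    (hstab : ∀ σ : GQ, ∀ P ∈ L, σ • P ∈ L) : False := by
  have hp : p.Prime := Fact.out
  haveI := EllTorsion.isElliptic_map_rat hΔ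
  haveI : Fact l.Prime := ⟨hl⟩
  haveI : NeZero (p ^ 1) := ⟨pow_ne_zero _ hp.ne_zero⟩
  have hlp : l ≠ p := by omega
  obtain ⟨A, hA⟩ := GalCommon.exists_liesOverPrime hl
  obtain ⟨F, hF⟩ := GalCommon.exists_isFrobeniusAt hl hA
  obtain ⟨Fld, hFld, hfix⟩ :=
    EllTorsion.exists_finiteLevel_smul_eq (W.map (Int.castRingHom ℚ)) p hp.ne_zero
  haveI := hFld
  have hV : Nat.card (QTorsion W p) = p ^ 2 :=
    EllTorsion.natCard_torsionBy_rat (W.map (Int.castRingHom ℚ)) p hp.ne_zero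
  have hdich := line_fixed_or_quotient_fixed hV hΔ hp2
    (fun q hq A hA => inertiaMovesIntoE0_of_semistable hq hA hΔ (hss q hq) (hp.odd_of_ne_two hp2))
    Fld (fun σ hσ P => hfix σ (fun x hx =>
      (IntermediateField.mem_fixingSubgroup_iff Fld σ).mp hσ x hx) P) L hL hstab
  have hFr : ∀ P : QTorsion W p, F • P + l • F⁻¹ • P = W.apOfModel l • P := by
    intro P
    apply Subtype.ext
    show F • (P : QPoint W) + l • F⁻¹ • (P : QPoint W) = W.apOfModel l • (P : QPoint W)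
    have hP : p ^ 1 • (P : QPoint W) = 0 := by
      rw [pow_one, ← natCast_zsmul]; exact (Submodule.mem_torsionBy_iff _ _).mp P.2
    rw [hc 1 F l (by
        show _ = PadicInt.toZModPow 1 (cyc p F)
        rw [cyc_frobenius hl hlp hA hF, map_natCast]) _ hP,
      trace_frobenius hc hp2 hΔ hl hlp hgood hA hF, map_intCast, ← natCast_zsmul]
    refine zsmul_eq_of_dvd hP ?_
    rw [← ZMod.intCast_eq_intCast_iff_dvd_sub, Int.cast_natCast, ZMod.natCast_zmod_val]
  set a := W.apOfModel l with ha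
  have hdvd : (p : ℤ) ∣ a - (1 + l) := by
    have hgen : ∀ P : QTorsion W p, (P ∉ (⊥ : Submodule (ZMod p) (QTorsion W p))) →
        ∀ m : ℤ, m • P = 0 → (p : ℤ) ∣ m := by
      intro P hP m hm
      by_contra hnd
      apply hP
      rw [Submodule.mem_bot]
      have hmu : (m : ZMod p) ≠ 0 := fun h => hnd ((ZMod.intCast_zmod_eq_zero_iff_dvd m p).mp h)
      rw [← Int.cast_smul_eq_zsmul (ZMod p)] at hm
      exact (smul_eq_zero.mp hm).resolve_left hmu
    rcases hdich with h | h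
    · obtain ⟨P, hP, hP0⟩ : ∃ P ∈ L, P ≠ 0 := L.exists_mem_ne_zero_of_ne_bot (by
        rintro rfl
        haveI : Subsingleton (⊥ : Submodule (ZMod p) (QTorsion W p)) := inferInstance
        rw [Nat.card_unique] at hL
        exact hp.ne_one hL.symm)
      refine hgen P (by simpa using hP0) _ ?_
      rw [sub_smul, ← hFr P, h F P hP, h F⁻¹ P hP, add_smul, one_smul, natCast_zsmul, sub_self]
    · by_contra hnd
      have hmu : ((a - (1 + l) : ℤ) : ZMod p) ≠ 0 := fun h =>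
        hnd ((ZMod.intCast_zmod_eq_zero_iff_dvd _ p).mp h)
      have htop : L = ⊤ := by
        refine eq_top_iff.mpr fun P _ => ?_
        have h1 : (a - (1 + l : ℤ)) • P ∈ L := by
          rw [sub_smul, ← hFr P, add_smul, one_smul, natCast_zsmul, add_sub_add_comm, ← nsmul_sub]
          exact add_mem (h F P) (nsmul_mem (h F⁻¹ P) l)
        rw [← Int.cast_smul_eq_zsmul (ZMod p)] at h1
        exact (L.smul_mem_iff hmu).mp h1
      have hcard : Nat.card (⊤ : Submodule (ZMod p) (QTorsion W p)) = p ^ 2 := by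
        rw [← hV]; exact Nat.card_congr (Equiv.subtypeUnivEquiv fun _ => trivial)
      rw [← htop, hL] at hcard
      nlinarith [hp.two_le]
  obtain ⟨h1, h2⟩ := card_bounds W l
  have hcard : a = (l : ℤ) + 1 - ((W.reductionMod l).card : ℤ) := by
    simp [ha, apOfModel, traceOfFrobenius, Nat.card_eq_fintype_card, ZMod.card]
  rw [hcard] at hdvd
  have h3 : (p : ℤ) ∣ ((W.reductionMod l).card : ℤ) := by
    rwa [show (l : ℤ) + 1 - ((W.reductionMod l).card : ℤ) - (1 + l) =
      -((W.reductionMod l).card : ℤ) by ring, dvd_neg] at hdvd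
  have := Nat.le_of_dvd (by omega) (Int.natCast_dvd_natCast.mp h3)
  omega

end FLTAgent.Local.Curve
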