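import Fermat.Agent.Degen.Inputs

/-!
# Existence of the bad reduction data

`exists_dataOneCore`, `exists_dataOne` and `exists_dataTwo`: for `q ≠ p` prime and `N₀` prime to
`q`, the data of `Local/Interface` exist at the auxiliary level `M = auxLevel q N₀`. Their inputs
are assembled from `Degen`: canonical models, the toric part (`exists_toric`) and the bound on
inertia invariants at level `q² M` (`fixed_le`).
-/

set_option autoImplicit false

namespace FLTAgent.Local

open FLTAgent.Degen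

/-- The toric data at a prime dividing the level exactly once exist. -/
theorem exists_dataOneCore {p : ℕ} [Fact p.Prime] {q : ℕ} [NeZero q] (hq : q.Prime) (hqp : q ≠ p)
    (N₀ : ℕ) [NeZero N₀] (hN₀ : ¬ q ∣ N₀) :
    ∃ (M : ℕ) (_ : NeZero M), Nonempty (DataOneCore p q N₀ (q * N₀) M (q * M)) := by
  have hne := auxLevel_ne_zero q N₀
  have hM := coprime_auxLevel hq hN₀
  obtain ⟨k, hk, htor⟩ := exists_toric hq hqp hM (aux_dvd hq) (canModel (q * auxLevel q N₀) p)
  exact ⟨auxLevel q N₀, hne, nonempty_dataOneCore hq hM (dvd_auxLevel q N₀) (canModel N₀ p)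
    (canModel (q * N₀) p) (canModel (auxLevel q N₀) p) (canModel (q * auxLevel q N₀) p) k hk htor⟩

/-- The full data at a prime dividing the level exactly once exist. -/
theorem exists_dataOne {p : ℕ} [Fact p.Prime] {q : ℕ} [NeZero q] (hq : q.Prime) (hqp : q ≠ p)
    (N₀ : ℕ) [NeZero N₀] (hN₀ : ¬ q ∣ N₀) :
    ∃ (M : ℕ) (_ : NeZero M), Nonempty (DataOne p q N₀ (q * N₀) M (q * M)) := by
  have hne := auxLevel_ne_zero q N₀
  have hM := coprime_auxLevel hq hN₀
  let g₀ := canModel N₀ p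
  let g₁ := canModel (q * N₀) p
  let h₀ := canModel (auxLevel q N₀) p
  let h₁ := canModel (q * auxLevel q N₀) p
  let h₂ := canModel (q ^ 2 * auxLevel q N₀) p
  obtain ⟨k, hk, htor⟩ := exists_toric hq hqp hM (aux_dvd hq) h₁
  exact ⟨auxLevel q N₀, hne,
    nonempty_dataOne hq hM (dvd_auxLevel q N₀) g₀ g₁ h₀ h₁ k hk htor h₂
      (fun A hA L _ _ f => fixed_le hq hqp hM (aux_dvd hq) h₂ A hA L f)⟩

/-- The data at a prime dividing the level exactly twice exist. -/
theorem exists_dataTwo {p : ℕ} [Fact p.Prime] {q : ℕ} [NeZero q] (hq : q.Prime) (hqp : q ≠ p)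
    (N₀ : ℕ) [NeZero N₀] (hN₀ : ¬ q ∣ N₀) :
    ∃ (M : ℕ) (_ : NeZero M),
      Nonempty (DataTwo p q (q * N₀) (q ^ 2 * N₀) M (q * M) (q ^ 2 * M)) := by
  have hne := auxLevel_ne_zero q N₀
  have hM := coprime_auxLevel hq hN₀
  let g₁ := canModel (q * N₀) p
  let g₂ := canModel (q ^ 2 * N₀) p
  let h₀ := canModel (auxLevel q N₀) p
  let h₁ := canModel (q * auxLevel q N₀) p
  let h₂ := canModel (q ^ 2 * auxLevel q N₀) p
  obtain ⟨k, hk, htor⟩ := exists_toric hq hqp hM (aux_dvd hq) h₁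
  exact ⟨auxLevel q N₀, hne,
    nonempty_dataTwo hq hM (dvd_auxLevel q N₀) g₁ g₂ h₀ h₁ h₂ k hk htor
      (fun A hA L _ _ f => fixed_le hq hqp hM (aux_dvd hq) h₂ A hA L f)⟩

end FLTAgent.Local
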