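import Fermat.Agent.Local.LevelOne

/-!
# A prime dividing the level exactly twice

`DataTwo.mem_range_of_fixed`: a vector at level `q² N₀` fixed by inertia at `q` is in the image of
the two degeneracy maps from level `q N₀`. At the auxiliary level the old classes together with
the toric part fill the whole space of invariants, by the bound `fixed_le` and a rank count; the
transfer square brings the statement down to the small level.
-/

set_option autoImplicit false
set_option linter.style.haveILetI false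

noncomputable section

open CuspForm Matrix Module

namespace FLTAgent.Local

open FLTAgent.Reps

local notation "ℚ̄" => AlgebraicClosure ℚ
local notation "Γℚ" => (AlgebraicClosure ℚ ≃ₐ[ℚ] AlgebraicClosure ℚ)

variable {p : ℕ} [Fact p.Prime] {L : Type} [Field L] [CharZero L]

/-- Joint injectivity of two integral matrices survives extension to a field of characteristic
zero. -/
theorem coprod_injective {m n n' : Type*} [Fintype m] [Fintype n] [Fintype n'] [DecidableEq m]
    [DecidableEq n] [DecidableEq n'] {a : Matrix m n ℤ} {b : Matrix m n' ℤ}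
    (h : ∀ x y, a *ᵥ x + b *ᵥ y = 0 → x = 0 ∧ y = 0) :
    Function.Injective ((linMap (Int.castRingHom L) a).coprod (linMap (Int.castRingHom L) b)) := by
  have hinj : Function.Injective fun v => Matrix.fromCols a b *ᵥ v := by
    intro v w hvw
    have h0 : Matrix.fromCols a b *ᵥ (v - w) = 0 := by
      rw [Matrix.mulVec_sub]; exact sub_eq_zero.mpr hvw
    rw [Matrix.fromCols_mulVec] at h0
    obtain ⟨h2, h3⟩ := h _ _ h0
    funext i
    rcases i with s | s
    · exact sub_eq_zero.mp (congrFun h2 s)
    · exact sub_eq_zero.mp (congrFun h3 s)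
  rw [injective_iff_map_eq_zero]
  rintro ⟨x, y⟩ hxy
  have h4 : linMap (Int.castRingHom L) (Matrix.fromCols a b) (Sum.elim x y) = 0 := by
    rw [linMap_apply, Matrix.fromCols_map, Matrix.fromCols_mulVec]
    simpa [linMap_apply] using hxy
  have h5 := (injective_iff_map_eq_zero _).mp
    (linMap_injective (RingHom.injective_int _) hinj) _ h4
  exact Prod.ext (funext fun s => congrFun h5 (Sum.inl s))
    (funext fun s => congrFun h5 (Sum.inr s))

variable {q N₁ N₂ M M₁ M₂ : ℕ} [NeZero N₁] [NeZero N₂] [NeZero M] [NeZero M₁] [NeZero M₂]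
  (D : DataTwo p q N₁ N₂ M M₁ M₂) {f : ℤ_[p] →+* L} (hf : Function.Injective f)
  (hq : q.Prime) (hqp : q ≠ p) {A : ValuationSubring ℚ̄} (hA : A.LiesOverPrime q)

include hf hq hqp hA in
/-- A vector fixed by inertia comes from the lower level. -/
theorem DataTwo.mem_range_of_fixed {v : Fin D.g₂.r → L}
    (hv : ∀ i ∈ A.inertiaSubgroupIn ℚ, galRep f D.g₂ i v = v) :
    v ∈ LinearMap.range ((linMap (Int.castRingHom L) D.sq.a₀.mat).coprod
      (linMap (Int.castRingHom L) D.sq.b₀.mat)) := by
  obtain ⟨F, hF⟩ := GalCommon.exists_isFrobeniusAt hq hA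
  obtain ⟨K, hKk, hKi, hKF⟩ := D.toric.exists_sub hf hA
  let Ψ := (linMap (Int.castRingHom L) D.a.mat).coprod (linMap (Int.castRingHom L) D.b.mat)
  let Φ := (linMap (Int.castRingHom L) D.sq.a.mat).coprod (linMap (Int.castRingHom L) D.sq.b.mat)
  have hΨ : Function.Injective Ψ := coprod_injective D.deg_injective
  have hΨg : ∀ g x, galRep f D.h₁ g (Ψ x) = Ψ (galRep f D.h₀ g x.1, galRep f D.h₀ g x.2) := by
    intro g x
    simp only [Ψ, LinearMap.coprod_apply, map_add, galMap_comm]
  let X := LinearMap.range Ψ ⊔ K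
  have hXfix : ∀ i ∈ A.inertiaSubgroupIn ℚ, ∀ x ∈ X, galRep f D.h₁ i x = x := by
    intro i hi x hx
    obtain ⟨_, ⟨y, rfl⟩, w, hw, rfl⟩ := Submodule.mem_sup.mp hx
    rw [map_add, hKi i hi w hw, hΨg, galRep_inertia_eq_one f D.h₀ hq D.not_dvd hqp hA hi]
    rfl
  have hX : finrank L X = 2 * D.h₀.r + D.k := by
    have hdisj : Disjoint (LinearMap.range Ψ) K := by
      rw [Submodule.disjoint_def]
      rintro _ ⟨y, rfl⟩ hy
      have h := hKF F hF _ hy
      rw [hΨg, hΨg, ← map_smul] at h
      have h2 := hΨ h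
      rw [Prod.ext_iff] at h2
      rw [show y = 0 from Prod.ext (frobenius_sq_ne_q f D.h₀ hq D.not_dvd hqp hA hF h2.1)
        (frobenius_sq_ne_q f D.h₀ hq D.not_dvd hqp hA hF h2.2), map_zero]
    have h := Submodule.finrank_sup_add_finrank_inf_eq (LinearMap.range Ψ) K
    rw [disjoint_iff.mp hdisj, finrank_bot, add_zero, LinearMap.finrank_range_of_inj hΨ,
      Module.finrank_prod, Module.finrank_fin_fun, hKk] at h
    show finrank L ↥(LinearMap.range Ψ ⊔ K) = _
    omega
  let Φ' := Φ.comp (X.prod X).subtype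
  let U := LinearMap.range Φ'
  let Z : Submodule L (Fin D.h₂.r → L) := ⨅ i ∈ A.inertiaSubgroupIn ℚ,
    LinearMap.ker ((f.mapMatrix (D.h₂.M i)).mulVecLin - LinearMap.id)
  have hmem : ∀ z, z ∈ Z ↔ ∀ i ∈ A.inertiaSubgroupIn ℚ, galRep f D.h₂ i z = z := by
    intro z
    simp only [Z, Submodule.mem_iInf, LinearMap.mem_ker, LinearMap.sub_apply, LinearMap.id_apply,
      sub_eq_zero]
    rfl
  have hUZ : U ≤ Z := by
    rintro _ ⟨⟨⟨x, y⟩, hxy⟩, rfl⟩
    rw [Submodule.mem_prod] at hxy
    rw [hmem]
    intro i hi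
    simp only [Φ', Φ, LinearMap.comp_apply, Submodule.subtype_apply, LinearMap.coprod_apply,
      map_add, galMap_comm, hXfix i hi _ hxy.1, hXfix i hi _ hxy.2]
  have hU : U = Z := by
    refine Submodule.eq_of_le_of_finrank_le hUZ ?_
    have h1 : finrank L Z ≤ D.h₀.r + D.h₁.r := D.fixed_le A hA L f
    have h2 : finrank L U + finrank L (LinearMap.ker Φ') = finrank L (X.prod X) :=
      LinearMap.finrank_range_add_finrank_ker Φ'
    have h3 : finrank L (LinearMap.ker Φ') ≤ D.h₀.r := by
      refine le_trans ?_ (D.ker_le L)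
      rw [show LinearMap.ker Φ' = (LinearMap.ker Φ).comap (X.prod X).subtype from
        LinearMap.ker_comp _ _]
      refine LinearMap.finrank_le_finrank_of_injective
        (f := ((X.prod X).subtype.comp (Submodule.subtype _)).codRestrict (LinearMap.ker Φ)
          fun z => z.2) ?_
      intro z w hzw
      have h := congrArg (fun t : ↥(LinearMap.ker Φ) => t.1) hzw
      exact Subtype.ext (Subtype.ext h)
    have h4 : finrank L (X.prod X) = finrank L X + finrank L X := by
      rw [← Module.finrank_prod]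
      exact (LinearEquiv.finrank_eq
        { toFun := fun z => (⟨z.1.1, z.2.1⟩, ⟨z.1.2, z.2.2⟩)
          invFun := fun z => ⟨(z.1.1, z.2.1), z.1.2, z.2.2⟩
          map_add' := fun _ _ => rfl
          map_smul' := fun _ _ => rfl
          left_inv := fun _ => rfl
          right_inv := fun _ => rfl })
    have h5 := D.rank_le
    omega
  have hxZ : linMap (Int.castRingHom L) D.sq.up.mat v ∈ Z := by
    rw [hmem]
    intro i hi
    rw [galMap_comm, hv i hi]
  rw [← hU] at hxZ
  obtain ⟨⟨⟨x, y⟩, hxy⟩, hz⟩ := hxZ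
  have hd : (D.sq.d : L) ≠ 0 := Nat.cast_ne_zero.mpr D.sq.d_ne_zero
  have h6 : (D.sq.d : L) • v = linMap (Int.castRingHom L) D.sq.down (Φ (x, y)) := by
    rw [show Φ (x, y) = linMap (Int.castRingHom L) D.sq.up.mat v from hz, ← linMap_mul,
      D.sq.down_up, linMap_smul, eq_intCast, Int.cast_natCast]
    simp [linMap_apply]
  simp only [Φ, LinearMap.coprod_apply, map_add] at h6
  rw [← linMap_mul, ← linMap_mul, D.sq.down_a, D.sq.down_b, linMap_mul, linMap_mul] at h6
  refine (Submodule.smul_mem_iff _ hd).mp ?_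
  rw [h6]
  exact ⟨(_, _), rfl⟩

end FLTAgent.Local
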