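import Fermat.Agent.Local.Newform
import Fermat.Agent.Local.CurveScalar
import Fermat.Prelude.Def_WeierstrassCurve_ConductorLevel

/-!
# Conductor-level matching

`isModularModelOfLevel_conductorLevel`: a semistable model modular of some level `N` divisible by
all bad primes and by no cube is modular of its conductor level `rad Δ`. A minimal level gives a
newform, and `newform_level` shows that its level is squarefree with exactly the bad primes and
that its good coefficients are those of the curve, by comparing inertia and Frobenius on a model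
with the torsion of the curve at a large auxiliary prime `p`.
-/

set_option autoImplicit false
set_option linter.style.haveILetI false
set_option maxHeartbeats 400000

noncomputable section

open CuspForm Matrix WeierstrassCurve ModularFormClass CongruenceSubgroup

namespace FLTAgent.Local

open FLTAgent.Reps

local notation "ℚ̄" => AlgebraicClosure ℚ
local notation "Γℚ" => (AlgebraicClosure ℚ ≃ₐ[ℚ] AlgebraicClosure ℚ)

/-- Eigen systems with integral values at the good primes are integral away from them. -/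
theorem exists_intHom {M : ℕ} [NeZero M] {g : CuspForm (Gamma0 M) 2} (hg : g.IsNormalizedEigenform)
    {S : Set ℕ} (hS : ∀ q : ℕ, q.Prime → q ∣ M → q ∈ S) (a : ℕ → ℤ)
    (ha : ∀ ℓ : ℕ, ℓ.Prime → ℓ ∉ S → qCoeff g ℓ = (a ℓ : ℂ)) :
    ∃ χ : ↥(heckeAlgebra M 2 S) →+* ℤ,
      (∀ (ℓ : ℕ) (hℓ : ℓ.Prime) (hℓM : ¬ ℓ ∣ M) (hℓS : ℓ ∉ S),
        χ (heckeAlgebra.T hℓ hℓM hℓS) = a ℓ) ∧
      ∀ t, eigenHom hg (inclS S t) = (χ t : ℂ) := by
  let ψ : ↥(heckeAlgebra M 2 S) →+* ℂ := (eigenHom hg).comp (inclS S)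
  have hψ : ∀ (ℓ : ℕ) (hℓ : ℓ.Prime) (hℓM : ¬ ℓ ∣ M) (hℓS : ℓ ∉ S),
      ψ (heckeAlgebra.T hℓ hℓM hℓS) = (a ℓ : ℂ) :=
    fun ℓ hℓ hℓM hℓS => (eigenHom_T hg hℓ hℓM).trans (ha ℓ hℓ hℓS)
  have hint : ∀ t, ∃ z : ℤ, ψ t = (z : ℂ) :=
    hecke_induction hS (P := fun t => ∃ z : ℤ, ψ t = (z : ℂ))
      (fun ℓ hℓ hℓM hℓS => ⟨a ℓ, hψ ℓ hℓ hℓM hℓS⟩)
      (fun r => ⟨r, map_intCast ψ r⟩)
      (fun s t ⟨x, hx⟩ ⟨y, hy⟩ => ⟨x + y, by rw [map_add, hx, hy, Int.cast_add]⟩)
      (fun s t ⟨x, hx⟩ ⟨y, hy⟩ => ⟨x * y, by rw [map_mul, hx, hy, Int.cast_mul]⟩)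
  choose z hz using hint
  refine ⟨{ toFun := z
            map_one' := Int.cast_injective (α := ℂ) (by rw [← hz, map_one, Int.cast_one])
            map_mul' := fun s t => Int.cast_injective (α := ℂ)
              (by rw [← hz, map_mul, Int.cast_mul, hz, hz])
            map_zero' := Int.cast_injective (α := ℂ) (by rw [← hz, map_zero, Int.cast_zero])
            map_add' := fun s t => Int.cast_injective (α := ℂ)
              (by rw [← hz, map_add, Int.cast_add, hz, hz]) },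
    fun ℓ hℓ hℓM hℓS => Int.cast_injective (α := ℂ) ((hz _).symm.trans (hψ ℓ hℓ hℓM hℓS)),
    fun t => hz t⟩

/-- A newform with the good coefficients of a semistable curve has squarefree level with exactly
the bad primes, and the same coefficients at all good primes. -/
theorem newform_level {W : WeierstrassCurve ℤ} (hss : W.IsSemistableModel) (hΔ : W.Δ ≠ 0)
    {N : ℕ} (hN0 : N ≠ 0) (hbad : ∀ ℓ : ℕ, ℓ.Prime → (ℓ : ℤ) ∣ W.Δ → ℓ ∣ N)
    (hN3 : ∀ q : ℕ, q.Prime → ¬ q ^ 3 ∣ N) {M : ℕ} [NeZero M] (hMN : M ∣ N)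
    {g : CuspForm (Gamma0 M) 2} (hg : g.IsNewform)
    (hcoef : ∀ ℓ : ℕ, ℓ.Prime → ¬ ℓ ∣ N → qCoeff g ℓ = (W.apOfModel ℓ : ℂ))
    {q : ℕ} (hq : q.Prime) :
    ¬ q ^ 2 ∣ M ∧ (q ∣ M ↔ (q : ℤ) ∣ W.Δ) ∧
      (¬ q ∣ M → qCoeff g q = (W.apOfModel q : ℂ)) := by
  haveI : Fact q.Prime := ⟨hq⟩
  obtain ⟨l₀, hl₀N, hl₀⟩ := Nat.exists_infinite_primes (N + 1)
  have hl₀good : W.IsGoodPrimeFor l₀ := fun h => by
    have := Nat.le_of_dvd (Nat.pos_of_ne_zero hN0) (hbad l₀ hl₀ h)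
    omega
  obtain ⟨p, hbig, hp⟩ := Nat.exists_infinite_primes (q + W.Δ.natAbs + 2 * l₀ + 3)
  haveI : Fact p.Prime := ⟨hp⟩
  have hqp : q ≠ p := by omega
  have hp2 : p ≠ 2 := by omega
  let S : Finset ℕ := insert p (N.primeFactors)
  have hpS : p ∈ S := Finset.mem_insert_self _ _
  have hNS : ∀ r : ℕ, r.Prime → r ∣ N → r ∈ S := fun r hr h =>
    Finset.mem_insert_of_mem (Nat.mem_primeFactors.mpr ⟨hr, h, hN0⟩)
  have hMS : ∀ r : ℕ, r.Prime → r ∣ M → r ∈ S := fun r hr h => hNS r hr (h.trans hMN)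
  obtain ⟨χ, hχT, hχ⟩ := exists_intHom hg.1 (S := (↑S : Set ℕ))
    (fun r hr h => Finset.mem_coe.mpr (hMS r hr h)) (fun ℓ => W.apOfModel ℓ)
    (fun ℓ hℓ hℓS => hcoef ℓ hℓ fun h => hℓS (Finset.mem_coe.mpr (hNS ℓ hℓ h)))
  let K := AlgebraicClosure ℚ_[p]
  let f : ℤ_[p] →+* K := (algebraMap ℚ_[p] K).comp PadicInt.Coe.ringHom
  have hf : Function.Injective f := padicInt_hom_injective f
  let chig : ↥(heckeAlgebra M 2 (↑S : Set ℕ)) →+* ℂ := (eigenHom hg.1).comp (inclS _)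
  have hchig : ∀ (ℓ : ℕ) (hℓ : ℓ.Prime) (hℓM : ¬ ℓ ∣ M) (hℓS : ℓ ∉ (↑S : Set ℕ)),
      chig (heckeAlgebra.T hℓ hℓM hℓS) = qCoeff g ℓ := fun ℓ hℓ hℓM _ => eigenHom_T hg.1 hℓ hℓM
  haveI := range_isIntegral chig
  obtain ⟨e, -⟩ := exists_ringHom_extension (Ω := K) (i := algebraMap ℤ chig.range)
    (RingHom.injective_int _) (Algebra.IsIntegral.isIntegral (R := ℤ) (A := chig.range))
    (Int.castRingHom K)
  have he : ∀ t, e (chig.rangeRestrict t) = (χ t : K) := by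
    intro t
    rw [show chig.rangeRestrict t = ((χ t : ℤ) : chig.range) from Subtype.ext (by
      rw [RingHom.coe_rangeRestrict, SubringClass.coe_intCast]; exact hχ t), map_intCast]
  have hscal := fun G : GalModel M p => Curve.exists_trace_of_curve G hp2 hpS hMS hΔ
    (fun r hr h => hNS r hr (hbad r hr h)) χ hχT
  obtain ⟨A, hA⟩ := GalCommon.exists_liesOverPrime hq
  obtain ⟨F, hF⟩ := GalCommon.exists_isFrobeniusAt hq hA
  have ha2 : ¬ q ^ 2 ∣ M := by
    intro h2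
    have hfac : M.factorization q = 2 := by
      have h3 : ¬ q ^ 3 ∣ M := fun h => hN3 q hq (h.trans hMN)
      have e2 := (hq.pow_dvd_iff_le_factorization (NeZero.ne M)).mp h2
      have e3 : ¬ 3 ≤ M.factorization q := fun h =>
        h3 ((hq.pow_dvd_iff_le_factorization (NeZero.ne M)).mpr h)
      omega
    refine not_two_on_inertia hg hchig hMS e f hq hqp hfac hA fun G x hx i hi => ?_
    obtain ⟨c, hc, hcv⟩ := hscal G
    rw [hcv K f x (fun t => by rw [hx t, he t]) i,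
      Curve.trace_inertia hc hp2 hΔ hq hqp (hss q hq) hA hi, map_ofNat]
  obtain ⟨G⟩ := nonempty_galModel M p
  obtain ⟨c, hc, hcv⟩ := hscal G
  have hdvd : (q : ℤ) ∣ W.Δ → q ∣ M := by
    intro hqΔ
    by_contra hqM
    obtain ⟨v, hv0, hv⟩ := exists_eigvec_S (L := K) G (e.comp chig.rangeRestrict)
    have hv' : ∀ t, linMap (Int.castRingHom K) (tauS G S t) v = (χ t : K) • v := fun t => by
      rw [hv t, RingHom.comp_apply, he t]
    have hinv : ∀ g, ∀ i ∈ A.inertiaSubgroupIn ℚ, c (g * i) = c g := by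
      intro g i hi
      apply hf
      apply smul_left_injective K hv0
      show f _ • v = f _ • v
      rw [← hcv K f v hv', ← hcv K f v hv']
      have h1 : galRep f G i = 1 := galRep_inertia_eq_one f G hq hqM hqp hA hi
      have h1' : galRep f G i⁻¹ = 1 :=
        galRep_inertia_eq_one f G hq hqM hqp hA (inv_mem hi)
      simp only [aOp, map_mul, _root_.mul_inv_rev, h1, h1', mul_one, one_mul,
        chiL_inertia f hq hqp hA hi]
    obtain ⟨L, hL, hstab⟩ :=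
      Curve.exists_stable_line hc hp2 hΔ hq hqp hqΔ (hss q hq hqΔ) (by omega) hA hinv
    exact Curve.false_of_stable_line hc hp2 hΔ hss hl₀ hl₀good (by omega) L hL hstab
  refine ⟨ha2, ⟨fun hqM => ?_, hdvd⟩, fun hqM => ?_⟩
  · by_contra hgood
    haveI : NeZero q := ⟨hq.ne_zero⟩
    obtain ⟨N₀, rfl⟩ := hqM
    haveI : NeZero N₀ := ⟨right_ne_zero_of_mul (NeZero.ne (q * N₀))⟩
    have hN₀ : ¬ q ∣ N₀ := fun hd => ha2 (sq q ▸ Nat.mul_dvd_mul_left q hd)
    obtain ⟨M', hM', ⟨D⟩⟩ := exists_dataOne (p := p) hq hqp N₀ hN₀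
    obtain ⟨c₁, hc₁, hcv₁⟩ := hscal D.g₁
    obtain ⟨v, hv0, hv⟩ := exists_eigvec_S (L := K) D.g₁ (e.comp chig.rangeRestrict)
    have haOp := hcv₁ K f v (fun t => by rw [hv t, RingHom.comp_apply, he t]) F
    rw [Curve.trace_frobenius hc₁ hp2 hΔ hq hqp hgood hA hF, map_intCast] at haOp
    have hne : ((W.apOfModel q : K)) ^ 2 ≠ ((q : K) + 1) ^ 2 := by
      intro h
      have h' : (W.apOfModel q) ^ 2 = ((q : ℤ) + 1) ^ 2 := by exact_mod_cast h
      obtain ⟨h1, h2⟩ := Curve.card_bounds W q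
      have hcard : W.apOfModel q = (q : ℤ) + 1 - ((W.reductionMod q).card : ℤ) := by
        simp [apOfModel, traceOfFrobenius, Nat.card_eq_fintype_card, ZMod.card]
      rw [hcard, sq_eq_sq_iff_eq_or_eq_neg] at h'
      omega
    exact false_of_range hg hchig hMS (dvd_mul_left N₀ q)
      (fun hh => by nlinarith [hq.two_le, NeZero.pos N₀])
      D.sq.a₀ D.sq.b₀ e hv0 hv (mem_oldRange_of_eigen D.toDataOneCore hf hq hqp hA hF haOp hne)
  · have hgood : W.IsGoodPrimeFor q := fun h => hqM (hdvd h)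
    let C := integralClosure ℤ ℂ
    obtain ⟨eC, -⟩ := exists_ringHom_extension (Ω := K) (i := algebraMap ℤ C)
      (RingHom.injective_int _) (Algebra.IsIntegral.isIntegral (R := ℤ) (A := C))
      (Int.castRingHom K)
    haveI := IntStr.moduleFinite_heckeAlgebra_two M
    let χC : TZ M →+* C := (eigenHom hg.1).codRestrict C
      fun x => map_isIntegral_int _ (Algebra.IsIntegral.isIntegral x)
    obtain ⟨v, hv0, hv⟩ := exists_eigvec G (eC.comp χC)
    have hχC : ∀ t, χC (inclS _ t) = ((χ t : ℤ) : C) := fun t => Subtype.ext (by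
      rw [SubringClass.coe_intCast]; exact hχ t)
    have hv' : ∀ t, linMap (Int.castRingHom K) (tauS G S t) v = (χ t : K) • v := fun t => by
      rw [tauS_eq, hv, RingHom.comp_apply, hχC t, map_intCast]
    have h1 := hcv K f v hv' F
    rw [aOp_frobenius f G hq hqM hqp hA hF, heckeL, linEnd_apply, hv,
      Curve.trace_frobenius hc hp2 hΔ hq hqp hgood hA hF, map_intCast, RingHom.comp_apply] at h1
    have h2 : χC (heckeTOf hq hqM) = ((W.apOfModel q : ℤ) : C) :=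
      injective_of_int_integral eC (by rw [map_intCast]; exact smul_left_injective K hv0 h1)
    rw [← eigenHom_T hg.1 hq hqM]
    exact (congrArg Subtype.val h2).trans (SubringClass.coe_intCast C _)

/-- Conductor-level matching. -/
theorem isModularModelOfLevel_conductorLevel {W : WeierstrassCurve ℤ} (hss : W.IsSemistableModel)
    {N : ℕ} (hN : W.IsModularModelOfLevel N) (hbad : ∀ ℓ : ℕ, ℓ.Prime → (ℓ : ℤ) ∣ W.Δ → ℓ ∣ N)
    (hN3 : ∀ q : ℕ, q.Prime → ¬ q ^ 3 ∣ N) : W.IsModularModelOfLevel W.conductorLevel := by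
  classical
  have hN0 : N ≠ 0 := fun h => hN3 2 Nat.prime_two (h ▸ dvd_zero _)
  have hΔ : W.Δ ≠ 0 := fun h => by
    obtain ⟨r, hr, hrp⟩ := Nat.exists_infinite_primes (N + 1)
    have := Nat.le_of_dvd (Nat.pos_of_ne_zero hN0) (hbad r hrp (h ▸ dvd_zero _))
    omega
  obtain ⟨f, hf, hfc⟩ := hN
  let P : ℕ → Prop := fun M => M ∣ N ∧ ∃ g : CuspForm (Gamma0 M) 2, g.IsNormalizedEigenform ∧
    ∀ ℓ : ℕ, ℓ.Prime → ¬ ℓ ∣ N → qCoeff g ℓ = (W.apOfModel ℓ : ℂ)
  have hP : ∃ M, P M := ⟨N, dvd_rfl, f, hf,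
    fun ℓ hℓ hℓN => hfc ℓ hℓ (fun h => hℓN (hbad ℓ hℓ h)) hℓN⟩
  obtain ⟨M, hMdef⟩ : ∃ M, M = Nat.find hP := ⟨_, rfl⟩
  obtain ⟨hMN, g, hg, hgc⟩ : P M := hMdef ▸ Nat.find_spec hP
  haveI : NeZero M := ⟨fun h => hN0 (Nat.eq_zero_of_zero_dvd (h ▸ hMN))⟩
  have hnew : g.IsNewform := by
    refine ⟨hg, fun M' hM' hne ⟨g', hg', hgc'⟩ => ?_⟩
    refine Nat.find_min hP (hMdef ▸ lt_of_le_of_ne (Nat.le_of_dvd (NeZero.pos M) hM') hne)
      ⟨hM'.trans hMN, g', hg', fun ℓ hℓ hℓN => ?_⟩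
    rw [hgc' ℓ hℓ fun h => hℓN (h.trans hMN)]
    exact hgc ℓ hℓ hℓN
  have key := fun (q : ℕ) (hq : q.Prime) => newform_level hss hΔ hN0 hbad hN3 hMN hnew hgc hq
  have hM : M = W.conductorLevel := by
    refine (Nat.Squarefree.ext_iff ?_ W.squarefree_conductorLevel).mpr fun q hq => ?_
    · exact Nat.squarefree_iff_prime_squarefree.mpr fun q hq h => (key q hq).1 (by rwa [sq])
    · rw [(key q hq).2.1, W.prime_dvd_conductorLevel_iff hΔ hq]
  rw [← hM]
  exact ⟨g, hg, fun q hq _ hqM => (key q hq).2.2 hqM⟩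

end FLTAgent.Local
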