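import Fermat.Agent.Reps.Existence
import Fermat.Agent.Local.Eigenforms

/-!
# Strong multiplicity one at the good primes

`qCoeff_eq_of_eventually_eq`: two normalised eigenforms with equal coefficients at almost all
primes agree at every prime prime to both levels. In the direct sum of two models the trace
operator lies in the span of the pairs of Hecke operators with equal eigenvalues
(`hecke_values_eq`), and at a Frobenius element at `ℓ` it is the pair of the two `T_ℓ`.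
-/

set_option autoImplicit false
set_option linter.style.haveILetI false
set_option maxHeartbeats 400000

noncomputable section

open CuspForm Matrix ModularFormClass CongruenceSubgroup

namespace FLTAgent.Local

open FLTAgent.Reps

local notation "ℚ̄" => AlgebraicClosure ℚ
local notation "Γℚ" => (AlgebraicClosure ℚ ≃ₐ[ℚ] AlgebraicClosure ℚ)

variable {p : ℕ} [Fact p.Prime] {N₁ N₂ : ℕ} [NeZero N₁] [NeZero N₂]

/-- The direct sum of two models. -/
def sumGal (G₁ : GalModel N₁ p) (G₂ : GalModel N₂ p) :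
    Γℚ →* Matrix (Fin G₁.r ⊕ Fin G₂.r) (Fin G₁.r ⊕ Fin G₂.r) ℤ_[p] where
  toFun σ := Matrix.fromBlocks (G₁.M σ) 0 0 (G₂.M σ)
  map_one' := by rw [map_one, map_one, Matrix.fromBlocks_one]
  map_mul' σ τ := by
    rw [map_mul, map_mul, Matrix.fromBlocks_multiply]
    simp

theorem sumGal_apply (G₁ : GalModel N₁ p) (G₂ : GalModel N₂ p) (σ : Γℚ) :
    sumGal G₁ G₂ σ = Matrix.fromBlocks (G₁.M σ) 0 0 (G₂.M σ) := rfl

/-- The direct sum of the Hecke actions. -/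
def sumTau (G₁ : GalModel N₁ p) (G₂ : GalModel N₂ p) {TS : Type*} [CommRing TS]
    (u₁ : TS →+* TZ N₁) (u₂ : TS →+* TZ N₂) :
    TS →+* Matrix (Fin G₁.r ⊕ Fin G₂.r) (Fin G₁.r ⊕ Fin G₂.r) ℤ where
  toFun t := Matrix.fromBlocks (G₁.τ (u₁ t)) 0 0 (G₂.τ (u₂ t))
  map_one' := by rw [map_one, map_one, map_one, map_one, Matrix.fromBlocks_one]
  map_mul' s t := by
    rw [map_mul, map_mul, map_mul, map_mul, Matrix.fromBlocks_multiply]
    simp
  map_zero' := by simp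
  map_add' s t := by
    rw [map_add, map_add, map_add, map_add, Matrix.fromBlocks_add]
    simp

theorem sumGal_continuous (G₁ : GalModel N₁ p) (G₂ : GalModel N₂ p) :
    MatContinuous (sumGal G₁ G₂) := by
  intro m
  obtain ⟨L₁, hL₁, h₁⟩ := G₁.continuous_level m
  obtain ⟨L₂, hL₂, h₂⟩ := G₂.continuous_level m
  refine ⟨L₁ ⊔ L₂, inferInstance, fun σ hσ => ?_⟩
  rw [sumGal_apply, RingHom.mapMatrix_apply, Matrix.fromBlocks_map,
    ← RingHom.mapMatrix_apply, ← RingHom.mapMatrix_apply,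
    h₁ σ fun x hx => hσ x (le_sup_left (b := L₂) hx),
    h₂ σ fun x hx => hσ x (le_sup_right (a := L₁) hx)]
  simp

/-- Two systems of eigenvalues in one field agreeing at almost all primes agree at every prime
prime to both levels and to `p`. -/
theorem hecke_values_eq (G₁ : GalModel N₁ p) (G₂ : GalModel N₂ p) {L : Type} [Field L] [CharZero L]
    (f : ℤ_[p] →+* L) (χ₁ : TZ N₁ →+* L) (χ₂ : TZ N₂ →+* L) (S : Finset ℕ)
    (h : ∀ (ℓ : ℕ) (hℓ : ℓ.Prime) (h₁ : ¬ ℓ ∣ N₁) (h₂ : ¬ ℓ ∣ N₂), ℓ ∉ S →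
      χ₁ (heckeTOf hℓ h₁) = χ₂ (heckeTOf hℓ h₂))
    {ℓ : ℕ} (hℓ : ℓ.Prime) (hℓp : ℓ ≠ p) (h₁ : ¬ ℓ ∣ N₁) (h₂ : ¬ ℓ ∣ N₂) :
    χ₁ (heckeTOf hℓ h₁) = χ₂ (heckeTOf hℓ h₂) := by
  obtain ⟨v₁, hv₁0, hv₁⟩ := exists_eigvec G₁ χ₁
  obtain ⟨v₂, hv₂0, hv₂⟩ := exists_eigvec G₂ χ₂
  let TS := RingHom.eqLocus (χ₁.comp (RingHom.fst (TZ N₁) (TZ N₂)))
    (χ₂.comp (RingHom.snd (TZ N₁) (TZ N₂)))
  let u₁ : TS →+* TZ N₁ := (RingHom.fst _ _).comp TS.subtype
  let u₂ : TS →+* TZ N₂ := (RingHom.snd _ _).comp TS.subtype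
  let S' : Finset ℕ := insert p (S ∪ N₁.primeFactors ∪ N₂.primeFactors)
  obtain ⟨A, hA⟩ := GalCommon.exists_liesOverPrime hℓ
  obtain ⟨F, hF⟩ := GalCommon.exists_isFrobeniusAt hℓ hA
  have hmem := traceOp_mem_span (sumTau G₁ G₂ u₁ u₂) (sumGal G₁ G₂) (sumGal_continuous G₁ G₂) S'
    (Finset.mem_insert_self _ _) (fun l hl hlS B hB σ hσ => by
      have hlp : l ≠ p := fun e => hlS (e ▸ Finset.mem_insert_self _ _)
      have hl₁ : ¬ l ∣ N₁ := fun e => hlS (Finset.mem_insert_of_mem (Finset.mem_union_left _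
        (Finset.mem_union_right _ (Nat.mem_primeFactors.mpr ⟨hl, e, NeZero.ne N₁⟩))))
      have hl₂ : ¬ l ∣ N₂ := fun e => hlS (Finset.mem_insert_of_mem (Finset.mem_union_right _
        (Nat.mem_primeFactors.mpr ⟨hl, e, NeZero.ne N₂⟩)))
      have hlS' : l ∉ S := fun e => hlS (Finset.mem_insert_of_mem (Finset.mem_union_left _
        (Finset.mem_union_left _ e)))
      refine ⟨⟨(heckeTOf hl hl₁, heckeTOf hl hl₂), h l hl hl₁ hl₂ hlS'⟩, ?_⟩
      have e₁ := G₁.frobenius_rel l hl hl₁ hlp B hB σ hσ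
      have e₂ := G₂.frobenius_rel l hl hl₂ hlp B hB σ hσ
      show Matrix.fromBlocks (G₁.M σ) 0 0 (G₂.M σ) * Matrix.fromBlocks (G₁.M σ) 0 0 (G₂.M σ)
        - (Matrix.fromBlocks (G₁.τ (heckeTOf hl hl₁)) 0 0 (G₂.τ (heckeTOf hl hl₂))).map
            (Int.castRingHom ℤ_[p]) * Matrix.fromBlocks (G₁.M σ) 0 0 (G₂.M σ) + (l : Matrix _ _ _) = 0
      rw [← Nat.smul_one_eq_cast, ← Matrix.fromBlocks_one, Matrix.fromBlocks_smul,
        Matrix.fromBlocks_map, Matrix.fromBlocks_multiply, Matrix.fromBlocks_multiply,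
        sub_eq_add_neg, Matrix.fromBlocks_neg, Matrix.fromBlocks_add, Matrix.fromBlocks_add]
      rw [← Nat.smul_one_eq_cast] at e₁ e₂
      simp only [Matrix.map_zero _ (map_zero _), Matrix.mul_zero, Matrix.zero_mul, neg_zero, add_zero, zero_add, ← sub_eq_add_neg,
        smul_zero]
      simp only [RingHom.mapMatrix_apply] at e₁ e₂
      rw [e₁, e₂, Matrix.fromBlocks_zero]) F
  have key : ∀ X ∈ Submodule.span ℤ_[p]
      (Set.range fun t => icast ℤ_[p] (sumTau G₁ G₂ u₁ u₂ t)),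
      ∃ c : L, linMap f X (Sum.elim v₁ v₂) = c • Sum.elim v₁ v₂ := by
    intro X hX
    induction hX using Submodule.span_induction with
    | mem y hy =>
      obtain ⟨t, rfl⟩ := hy
      refine ⟨χ₁ (u₁ t), ?_⟩
      rw [linMap_icast]
      show linMap _ (Matrix.fromBlocks (G₁.τ (u₁ t)) 0 0 (G₂.τ (u₂ t))) _ = _
      rw [linMap_apply, Matrix.fromBlocks_map, Matrix.fromBlocks_mulVec]
      simp only [Matrix.map_zero _ (map_zero _), Matrix.zero_mulVec, add_zero, zero_add,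
        Sum.elim_comp_inl, Sum.elim_comp_inr, ← linMap_apply, hv₁, hv₂]
      rw [show χ₂ (u₂ t) = χ₁ (u₁ t) from t.2.symm]
      funext i
      rcases i with i | i <;> rfl
    | zero => exact ⟨0, by simp [linMap_apply]⟩
    | add y z _ _ hy hz =>
      obtain ⟨c, hc⟩ := hy
      obtain ⟨d, hd⟩ := hz
      exact ⟨c + d, by rw [linMap_add, hc, hd, add_smul]⟩
    | smul r y _ hy =>
      obtain ⟨c, hc⟩ := hy
      exact ⟨f r * c, by rw [linMap_smul, hc, smul_smul]⟩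
  obtain ⟨c, hc⟩ := key _ hmem
  have hX : traceOp (sumGal G₁ G₂) F =
      Matrix.fromBlocks (traceOp G₁.M F) 0 0 (traceOp G₂.M F) := by
    simp only [traceOp, sumGal_apply, Matrix.fromBlocks_smul, Matrix.fromBlocks_add, smul_zero,
      add_zero]
  rw [hX, linMap_apply, Matrix.fromBlocks_map, Matrix.fromBlocks_mulVec] at hc
  simp only [Matrix.map_zero _ (map_zero _), Matrix.zero_mulVec, add_zero, zero_add,
    Sum.elim_comp_inl, Sum.elim_comp_inr] at hc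
  have c₁ : linMap f (traceOp G₁.M F) v₁ = c • v₁ := funext fun i => congrFun hc (Sum.inl i)
  have c₂ : linMap f (traceOp G₂.M F) v₂ = c • v₂ := funext fun i => congrFun hc (Sum.inr i)
  rw [← linEnd_apply, linEnd_traceOp, aOp_frobenius f G₁ hℓ h₁ hℓp hA hF, heckeL, linEnd_apply,
    hv₁] at c₁
  rw [← linEnd_apply, linEnd_traceOp, aOp_frobenius f G₂ hℓ h₂ hℓp hA hF, heckeL, linEnd_apply,
    hv₂] at c₂
  exact (smul_left_injective L hv₁0 c₁).trans (smul_left_injective L hv₂0 c₂).symm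

/-- Strong multiplicity one at the good primes. -/
theorem qCoeff_eq_of_eventually_eq {g₁ : CuspForm (Gamma0 N₁) 2} {g₂ : CuspForm (Gamma0 N₂) 2}
    (hg₁ : g₁.IsNormalizedEigenform) (hg₂ : g₂.IsNormalizedEigenform) (S : Finset ℕ)
    (h : ∀ ℓ : ℕ, ℓ.Prime → ℓ ∉ S → qCoeff g₁ ℓ = qCoeff g₂ ℓ)
    {ℓ : ℕ} (hℓ : ℓ.Prime) (h₁ : ¬ ℓ ∣ N₁) (h₂ : ¬ ℓ ∣ N₂) : qCoeff g₁ ℓ = qCoeff g₂ ℓ := by
  obtain ⟨p, hℓp, hp⟩ := Nat.exists_infinite_primes (ℓ + 1)
  haveI : Fact p.Prime := ⟨hp⟩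
  obtain ⟨G₁⟩ := nonempty_galModel N₁ p
  obtain ⟨G₂⟩ := nonempty_galModel N₂ p
  let L := AlgebraicClosure ℚ_[p]
  let f : ℤ_[p] →+* L := (algebraMap ℚ_[p] L).comp PadicInt.Coe.ringHom
  let C := integralClosure ℤ ℂ
  obtain ⟨e, -⟩ := exists_ringHom_extension (Ω := L) (i := algebraMap ℤ C)
    (RingHom.injective_int _) (Algebra.IsIntegral.isIntegral (R := ℤ) (A := C))
    (Int.castRingHom L)
  have he : Function.Injective e := injective_of_int_integral e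
  haveI := IntStr.moduleFinite_heckeAlgebra_two N₁
  haveI := IntStr.moduleFinite_heckeAlgebra_two N₂
  let χ₁ : TZ N₁ →+* C := (eigenHom hg₁).codRestrict C
    fun x => map_isIntegral_int _ (Algebra.IsIntegral.isIntegral x)
  let χ₂ : TZ N₂ →+* C := (eigenHom hg₂).codRestrict C
    fun x => map_isIntegral_int _ (Algebra.IsIntegral.isIntegral x)
  have val₁ : ∀ (l : ℕ) (hl : l.Prime) (hlN : ¬ l ∣ N₁),
      (χ₁ (heckeTOf hl hlN) : ℂ) = qCoeff g₁ l := fun l hl hlN => eigenHom_T hg₁ hl hlN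
  have val₂ : ∀ (l : ℕ) (hl : l.Prime) (hlN : ¬ l ∣ N₂),
      (χ₂ (heckeTOf hl hlN) : ℂ) = qCoeff g₂ l := fun l hl hlN => eigenHom_T hg₂ hl hlN
  have key := hecke_values_eq G₁ G₂ f (e.comp χ₁) (e.comp χ₂) S
    (fun l hl hl₁ hl₂ hlS => congrArg e (Subtype.ext (by rw [val₁, val₂, h l hl hlS])))
    hℓ (by omega) h₁ h₂
  rw [← val₁ ℓ hℓ h₁, ← val₂ ℓ hℓ h₂, he key]

end FLTAgent.Local
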