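import Fermat.Agent.Local.LevelTwo
import Fermat.Agent.Local.StrongMult
import Fermat.Agent.Local.Existence
import Fermat.Prelude.Def_CuspForm_Newforms

/-!
# Newforms at the primes dividing the level once or twice

`trace_frobenius_newform`: if `q ∥ M` then Frobenius has trace `±(q + 1)`.
`not_isUnipotentOnInertiaAt_newform`: if `q² ∥ M` then inertia at `q` is not unipotent. Otherwise
an eigenvector would lie in the image of a lower level (`mem_oldRange_of_eigen`,
`mem_range_of_fixed`), giving an eigenform there with the same eigenvalues (`false_of_range`).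
`exists_common_fixed`: a subgroup on which `R i + R i⁻¹ = 2` has a common fixed vector.
-/

set_option autoImplicit false
set_option linter.style.haveILetI false
set_option maxHeartbeats 400000

noncomputable section

open CuspForm Matrix ModularFormClass CongruenceSubgroup IsLocalRing Polynomial

namespace FLTAgent.Local

open FLTAgent.Reps

local notation "ℚ̄" => AlgebraicClosure ℚ
local notation "Γℚ" => (AlgebraicClosure ℚ ≃ₐ[ℚ] AlgebraicClosure ℚ)

variable {p : ℕ} [Fact p.Prime]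

/-- Ring homomorphisms from `ℤ_p` to fields of characteristic zero are injective. -/
theorem padicInt_hom_injective {L : Type*} [Field L] [CharZero L] (f : ℤ_[p] →+* L) :
    Function.Injective f := by
  rw [injective_iff_map_eq_zero]
  intro x hx
  by_contra h0
  rw [PadicInt.unitCoeff_spec h0, map_mul, map_pow, map_natCast, mul_eq_zero] at hx
  rcases hx with hx | hx
  · exact ((PadicInt.unitCoeff h0).isUnit.map f).ne_zero hx
  · exact pow_ne_zero _ (Nat.cast_ne_zero.mpr (Fact.out : p.Prime).ne_zero) hx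

/-- A subgroup on which `R i + R i⁻¹ = 2` has a common fixed vector. -/
theorem exists_common_fixed {L V : Type*} [Field L] [CharZero L] [AddCommGroup V] [Module L V]
    {G : Type*} [Group G] (R : G →* Module.End L V) (I : Subgroup G)
    (h : ∀ i ∈ I, R i + R i⁻¹ = 2) {v : V} (hv : v ≠ 0) :
    ∃ w : V, w ≠ 0 ∧ ∀ i ∈ I, R i w = w := by
  let n : G → Module.End L V := fun i => R i - 1
  have htwo : ∀ x : Module.End L V, x + x = 0 → x = 0 := by
    intro x hx
    rw [← two_smul L] at hx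
    exact (smul_eq_zero.mp hx).resolve_left two_ne_zero
  have hinv : ∀ i ∈ I, n i⁻¹ = -n i := by
    intro i hi
    simp only [n]
    rw [eq_sub_of_add_eq' (h i hi), ← one_add_one_eq_two]
    abel
  have hsq : ∀ i ∈ I, n i * n i = 0 := by
    intro i hi
    have h1 : R i * (R i + R i⁻¹) = R i * R i + 1 := by
      rw [mul_add, ← map_mul R i i⁻¹, mul_inv_cancel, map_one]
    rw [h i hi, mul_two] at h1
    simp only [n]
    rw [sub_mul, mul_sub, mul_one, one_mul, sub_sub, add_comm, sub_eq_zero, eq_comm, sub_add_eq_add_sub]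
    exact (eq_sub_of_add_eq h1.symm).symm
  have hmul : ∀ i j, n (i * j) = n i * n j + n i + n j := by
    intro i j
    simp only [n, map_mul]
    noncomm_ring
  have hanti : ∀ i ∈ I, ∀ j ∈ I, n i * n j + n j * n i = 0 := by
    intro i hi j hj
    have hn := hsq i hi
    have hm := hsq j hj
    have h1 : (n i * n j + n i + n j) * (n i * n j + n i + n j) = 0 := by
      rw [← hmul]; exact hsq _ (I.mul_mem hi hj)
    have h2 : (n i * (-n j) + n i + -n j) * (n i * (-n j) + n i + -n j) = 0 := by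
      rw [← hinv j hj, ← hmul]; exact hsq _ (I.mul_mem hi (I.inv_mem hj))
    have h3 : (n i * n j + n j * n i + n i * n j * n i) +
        (n i * n j + n j * n i + n i * n j * n i) = 0 := by
      have : (n i * n j + n j * n i + n i * n j * n i) + (n i * n j + n j * n i + n i * n j * n i) =
          ((n i * n j + n i + n j) * (n i * n j + n i + n j) -
            (n i * (-n j) + n i + -n j) * (n i * (-n j) + n i + -n j)) -
            ((n i * n i) * n j + (n i * n i) * n j) := by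
        noncomm_ring
      rw [this, h1, h2, hn]
      simp
    have h4 := htwo _ h3
    have h5 : n i * n j * n i = 0 := by
      have h6 := congrArg (fun x => n i * x) h4
      simp only [mul_add, ← mul_assoc, hn, zero_mul, zero_add, add_zero, mul_zero] at h6
      exact h6
    rwa [h5, add_zero] at h4
  have htriple : ∀ i ∈ I, ∀ j ∈ I, ∀ k ∈ I, n i * n j * n k = 0 := by
    intro i hi j hj k hk
    refine htwo _ ?_
    have h1 := hanti i hi (j * k) (I.mul_mem hj hk)
    rw [hmul] at h1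
    have : n i * n j * n k + n i * n j * n k =
        (n i * (n j * n k + n j + n k) + (n j * n k + n j + n k) * n i)
        + ((n i * n j + n j * n i) * n k - n j * (n i * n k + n k * n i))
        - (n i * n j + n j * n i) - (n i * n k + n k * n i) := by
      noncomm_ring
    rw [this, h1, hanti i hi j hj, hanti i hi k hk]
    simp
  have hfix : ∀ w, ∀ i, n i w = 0 → R i w = w := fun w i hw => by
    simpa [n, sub_eq_zero] using hw
  by_cases h2 : ∃ i ∈ I, ∃ j ∈ I, n i (n j v) ≠ 0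
  · obtain ⟨i, hi, j, hj, hne⟩ := h2
    exact ⟨_, hne, fun k hk => hfix _ _ (LinearMap.congr_fun (htriple k hk i hi j hj) v)⟩
  · push Not at h2
    by_cases h1 : ∃ i ∈ I, n i v ≠ 0
    · obtain ⟨i, hi, hne⟩ := h1
      exact ⟨_, hne, fun k hk => hfix _ _ (h2 k hk i hi)⟩
    · push Not at h1
      exact ⟨v, hv, fun k hk => hfix _ _ (h1 k hk)⟩

section Newform

variable {M : ℕ} [NeZero M] {g : CuspForm (Gamma0 M) 2} {S : Finset ℕ}
  {chig : ↥(heckeAlgebra M 2 (↑S : Set ℕ)) →+* ℂ} {L : Type} [Field L] [CharZero L]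

/-- An eigenvector in the image of level `N₀` contradicts newness. -/
theorem false_of_range (hg : g.IsNewform)
    (hchig : ∀ (ℓ : ℕ) (hℓ : ℓ.Prime) (hℓM : ¬ ℓ ∣ M) (hℓS : ℓ ∉ (↑S : Set ℕ)),
      chig (heckeAlgebra.T hℓ hℓM hℓS) = qCoeff g ℓ)
    (hMS : ∀ q : ℕ, q.Prime → q ∣ M → q ∈ S) {N₀ : ℕ} [NeZero N₀] (hdvd : N₀ ∣ M) (hne : N₀ ≠ M)
    {G₀ : GalModel N₀ p} {G : GalModel M p} (a b : DegMap G₀ G) (e : chig.range →+* L)
    {v : Fin G.r → L} (hv0 : v ≠ 0)
    (hv : ∀ t, linMap (Int.castRingHom L) (tauS G S t) v = e (chig.rangeRestrict t) • v)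
    (hrange : v ∈ LinearMap.range ((linMap (Int.castRingHom L) a.mat).coprod
      (linMap (Int.castRingHom L) b.mat))) : False := by
  haveI := range_isIntegral chig
  have hS₀ : ∀ q : ℕ, q.Prime → q ∣ N₀ → q ∈ S := fun q hq h => hMS q hq (h.trans hdvd)
  obtain ⟨ψ, hψ⟩ := exists_hom_of_range a b S hS₀ hMS (e.comp chig.rangeRestrict) hv0 hv hrange
  classical
  let c : ℕ → chig.range := fun ℓ => if h : ℓ.Prime ∧ ℓ ∉ (↑S : Set ℕ) then
    chig.rangeRestrict (heckeAlgebra.T h.1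
      (fun hd => h.2 (Finset.mem_coe.mpr (hMS ℓ h.1 hd))) h.2) else 0
  have hc : ∀ (ℓ : ℕ) (hℓ : ℓ.Prime) (hℓM : ¬ ℓ ∣ M) (hℓS : ℓ ∉ (↑S : Set ℕ)),
      c ℓ = chig.rangeRestrict (heckeAlgebra.T hℓ hℓM hℓS) := fun ℓ hℓ _ hℓS => dif_pos ⟨hℓ, hℓS⟩
  obtain ⟨g₀, hg₀, hcoef⟩ := exists_eigenform_of_hom_away
    (fun q hq hd => Finset.mem_coe.mpr (hS₀ q hq hd)) e (injective_of_int_integral e) c ψ
    fun ℓ hℓ hℓN hℓS => by
      have hℓM : ¬ ℓ ∣ M := fun hd => hℓS (Finset.mem_coe.mpr (hMS ℓ hℓ hd))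
      rw [hψ ℓ hℓ hℓN hℓM hℓS, hc ℓ hℓ hℓM hℓS]
      rfl
  refine hg.2 N₀ hdvd hne ⟨g₀, hg₀, fun ℓ hℓ hℓM =>
    qCoeff_eq_of_eventually_eq hg₀ hg.1 S (fun l hl hlS => ?_) hℓ
      (fun hd => hℓM (hd.trans hdvd)) hℓM⟩
  have hlM : ¬ l ∣ M := fun hd => hlS (hMS l hl hd)
  rw [hcoef l hl (mod_cast hlS), hc l hl hlM (mod_cast hlS)]
  exact hchig l hl hlM (mod_cast hlS)

/-- An eigenvector for the system of `g`. -/
theorem exists_eigvec_S [IsAlgClosed L] (G : GalModel M p)
    (χ : ↥(heckeAlgebra M 2 (↑S : Set ℕ)) →+* L) :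
    ∃ v : Fin G.r → L, v ≠ 0 ∧ ∀ t, linMap (Int.castRingHom L) (tauS G S t) v = χ t • v := by
  obtain ⟨χ', hχ'⟩ := exists_ringHom_extension (inclS_injective (↑S : Set ℕ))
    (inclS_isIntegral _) χ
  obtain ⟨v, hv0, hv⟩ := exists_eigvec G χ'
  exact ⟨v, hv0, fun t => by rw [tauS_eq, hv, ← RingHom.congr_fun hχ' t]; rfl⟩

variable {T : Type} [CommRing T] [IsDomain T] [IsDiscreteValuationRing T]
  [IsAdicComplete (maximalIdeal T) T] [CharZero T] {ρ : GaloisRepAdic T}

/-- At a prime exactly dividing the level the Frobenius trace is `±(q + 1)`. -/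
theorem trace_frobenius_newform (hg : g.IsNewform)
    (hchig : ∀ (ℓ : ℕ) (hℓ : ℓ.Prime) (hℓM : ¬ ℓ ∣ M) (hℓS : ℓ ∉ (↑S : Set ℕ)),
      chig (heckeAlgebra.T hℓ hℓM hℓS) = qCoeff g ℓ)
    (e₀ : chig.range →+* T) (h : IsAttached (e₀.comp chig.rangeRestrict) ρ p)
    {q : ℕ} (hq : q.Prime) (hqp : q ≠ p) (hqM : q ∣ M) (hq2 : ¬ q ^ 2 ∣ M)
    {A : ValuationSubring ℚ̄} (hA : A.LiesOverPrime q) {F : Γℚ} (hF : A.IsFrobeniusAt F q) :
    LinearMap.trace T ρ.V (ρ.ρ F) = (q : T) + 1 ∨
      LinearMap.trace T ρ.V (ρ.ρ F) = -((q : T) + 1) := by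
  haveI : NeZero q := ⟨hq.ne_zero⟩
  obtain ⟨N₀, rfl⟩ := hqM
  haveI : NeZero N₀ := ⟨right_ne_zero_of_mul (NeZero.ne (q * N₀))⟩
  have hN₀ : ¬ q ∣ N₀ := fun hd => hq2 (sq q ▸ Nat.mul_dvd_mul_left q hd)
  obtain ⟨M', hM', ⟨D⟩⟩ := exists_dataOne (p := p) hq hqp N₀ hN₀
  let K := AlgebraicClosure (FractionRing T)
  let j : T →+* K := (algebraMap (FractionRing T) K).comp (algebraMap T (FractionRing T))
  have hj : Function.Injective j :=
    (algebraMap (FractionRing T) K).injective.comp (IsFractionRing.injective T (FractionRing T))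
  haveI : CharZero K := charZero_of_injective_ringHom hj
  let ι : ℤ_[p] →+* T := padicHom (maximalIdeal T) h.p_max
  obtain ⟨v, hv0, hv⟩ := exists_eigvec_S (L := K) D.g₁ (j.comp (e₀.comp chig.rangeRestrict))
  set a := LinearMap.trace T ρ.V (ρ.ρ F) with ha
  have haOp := h.aOp_eigen D.g₁ j ι hv F
  by_contra hcon
  apply hcon
  rw [← sq_eq_sq_iff_eq_or_eq_neg]
  by_contra hsq
  have hne : (j a) ^ 2 ≠ ((q : K) + 1) ^ 2 := fun hh => hsq (hj (by
    rw [map_pow, map_pow, map_add, map_natCast, map_one, hh]))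
  refine false_of_range hg hchig h.bad_mem (dvd_mul_left N₀ q)
    (fun hh => by nlinarith [hq.two_le, NeZero.pos N₀])
    D.sq.a₀ D.sq.b₀ (j.comp e₀) hv0 hv
    (mem_oldRange_of_eigen D.toDataOneCore (padicInt_hom_injective _) hq hqp hA hF haOp hne)

omit [IsDomain T] [IsDiscreteValuationRing T] [IsAdicComplete (maximalIdeal T) T] [CharZero T] in
/-- At a prime dividing the level exactly twice the trace operators of inertia are not all `2` on
the eigenspace of the newform. -/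
theorem not_two_on_inertia [IsAlgClosed L] (hg : g.IsNewform)
    (hchig : ∀ (ℓ : ℕ) (hℓ : ℓ.Prime) (hℓM : ¬ ℓ ∣ M) (hℓS : ℓ ∉ (↑S : Set ℕ)),
      chig (heckeAlgebra.T hℓ hℓM hℓS) = qCoeff g ℓ)
    (hMS : ∀ q : ℕ, q.Prime → q ∣ M → q ∈ S) (e : chig.range →+* L) (f : ℤ_[p] →+* L)
    {q : ℕ} (hq : q.Prime) (hqp : q ≠ p) (hfac : M.factorization q = 2)
    {A : ValuationSubring ℚ̄} (hA : A.LiesOverPrime q)
    (htwo : ∀ G : GalModel M p, ∀ x : Fin G.r → L,
      (∀ t, linMap (Int.castRingHom L) (tauS G S t) x = e (chig.rangeRestrict t) • x) →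
      ∀ i ∈ A.inertiaSubgroupIn ℚ, aOp (galRep f G) (chiL f) i x = (2 : L) • x) : False := by
  haveI : NeZero q := ⟨hq.ne_zero⟩
  obtain ⟨N₀, hM⟩ : q ^ 2 ∣ M := hfac ▸ Nat.ordProj_dvd M q
  subst hM
  haveI : NeZero N₀ := ⟨right_ne_zero_of_mul (NeZero.ne (q ^ 2 * N₀))⟩
  have hN₀ : ¬ q ∣ N₀ := fun hd => by
    have h3 : q ^ 3 ∣ q ^ 2 * N₀ := by rw [pow_succ q 2]; exact Nat.mul_dvd_mul_left _ hd
    have := (hq.pow_dvd_iff_le_factorization (NeZero.ne _)).mp h3
    omega
  obtain ⟨M', hM', ⟨D⟩⟩ := exists_dataTwo (p := p) hq hqp N₀ hN₀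
  let χ := e.comp chig.rangeRestrict
  obtain ⟨v, hv0, hv⟩ := exists_eigvec_S (L := L) D.g₂ χ
  let W : Submodule L (Fin D.g₂.r → L) :=
    ⨅ t, LinearMap.ker (linMap (Int.castRingHom L) (tauS D.g₂ S t) - χ t • LinearMap.id)
  have hW : ∀ x, x ∈ W ↔ ∀ t, linMap (Int.castRingHom L) (tauS D.g₂ S t) x = χ t • x := by
    intro x
    simp only [W, Submodule.mem_iInf, LinearMap.mem_ker, LinearMap.sub_apply, LinearMap.smul_apply,
      LinearMap.id_apply, sub_eq_zero]
  have hstab : ∀ σ, ∀ x ∈ W, galRep f D.g₂ σ x ∈ W := by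
    intro σ x hx
    rw [hW] at hx ⊢
    intro t
    have hc : icast ℤ_[p] (tauS D.g₂ S t) * D.g₂.M σ = D.g₂.M σ * icast ℤ_[p] (tauS D.g₂ S t) :=
      (D.g₂.commute_hecke σ (inclS _ t)).eq.symm
    rw [← linMap_icast f, galRep_apply, ← linMap_mul, hc, linMap_mul, linMap_icast, hx, map_smul]
  let R : Γℚ →* Module.End L W :=
    { toFun := fun σ => (galRep f D.g₂ σ).restrict (hstab σ)
      map_one' := LinearMap.ext fun v => Subtype.ext (by simp [LinearMap.restrict_apply])
      map_mul' := fun g h => LinearMap.ext fun v => Subtype.ext (by simp [LinearMap.restrict_apply]) }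
  have hR : ∀ i ∈ A.inertiaSubgroupIn ℚ, R i + R i⁻¹ = 2 := by
    intro i hi
    refine LinearMap.ext fun x => Subtype.ext ?_
    have h1 := htwo D.g₂ x.1 ((hW x.1).mp x.2) i hi
    rw [aOp, LinearMap.add_apply, LinearMap.smul_apply, chiL_inertia _ hq hqp hA hi, one_smul] at h1
    exact h1.trans (by simp [Module.End.ofNat_apply, two_smul])
  obtain ⟨w, hw0, hwfix⟩ := exists_common_fixed R (A.inertiaSubgroupIn ℚ) hR
    (v := ⟨v, (hW v).mpr hv⟩) (fun hh => hv0 (congrArg Subtype.val hh))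
  refine false_of_range hg hchig hMS
    (mul_dvd_mul_right (dvd_pow_self q two_ne_zero) N₀)
    (fun hh => ?_) D.sq.a₀ D.sq.b₀ e (fun hh => hw0 (Subtype.ext hh))
    ((hW w.1).mp w.2)
    (D.mem_range_of_fixed (padicInt_hom_injective _) hq hqp hA fun i hi =>
      congrArg Subtype.val (hwfix i hi))
  have := Nat.eq_of_mul_eq_mul_right (NeZero.pos N₀) hh
  nlinarith [hq.two_le]

/-- At a prime dividing the level exactly twice inertia is not unipotent. -/
theorem not_isUnipotentOnInertiaAt_newform (hg : g.IsNewform)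
    (hchig : ∀ (ℓ : ℕ) (hℓ : ℓ.Prime) (hℓM : ¬ ℓ ∣ M) (hℓS : ℓ ∉ (↑S : Set ℕ)),
      chig (heckeAlgebra.T hℓ hℓM hℓS) = qCoeff g ℓ)
    (e₀ : chig.range →+* T) (h : IsAttached (e₀.comp chig.rangeRestrict) ρ p)
    {q : ℕ} (hq : q.Prime) (hqp : q ≠ p) (hfac : M.factorization q = 2) :
    ¬ ρ.IsUnipotentOnInertiaAt q := by
  intro hu
  obtain ⟨A, hA⟩ := GalCommon.exists_liesOverPrime hq
  let K := AlgebraicClosure (FractionRing T)
  let j : T →+* K := (algebraMap (FractionRing T) K).comp (algebraMap T (FractionRing T))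
  have hj : Function.Injective j :=
    (algebraMap (FractionRing T) K).injective.comp (IsFractionRing.injective T (FractionRing T))
  haveI : CharZero K := charZero_of_injective_ringHom hj
  let ι : ℤ_[p] →+* T := padicHom (maximalIdeal T) h.p_max
  refine not_two_on_inertia hg hchig h.bad_mem (j.comp e₀) (j.comp ι) hq hqp hfac hA
    fun G x hx i hi => ?_
  have htr : LinearMap.trace T ρ.V (ρ.ρ i) = 2 := by
    have hc := congrArg (fun P : T[X] => P.coeff 1) (hu A hA i hi)
    simp only [charpoly_of_finrank_eq_two ρ.finrank_eq,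
      show ((X : T[X]) - 1) ^ 2 = X ^ 2 - C 2 * X + C 1 by rw [map_one, map_ofNat]; ring] at hc
    simpa [Polynomial.coeff_one, Polynomial.coeff_X_pow] using hc
  have h1 := h.aOp_eigen G j ι hx i
  rwa [htr, map_ofNat] at h1

end Newform

end FLTAgent.Local
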