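import Fermat.Agent.GalCommon.Burnside
import Fermat.Prelude.Def_GaloisRep_Adic

/-!
# Transport of the trace pairing between rank two representations

`eq_zero_of_trace_pairing`: if the traces of `W` over `B` are the images of those of a residually
absolutely irreducible `ρ` over `A`, then the trace pairing of `End W` against the image of `W` is
nondegenerate. By Burnside the image of `ρ` spans all matrices, so the corresponding combinations
in `End W` have a unimodular Gram matrix. Also `trace_baseChangeAlong`.
-/

set_option autoImplicit false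
set_option linter.style.haveILetI false
set_option maxHeartbeats 400000

noncomputable section

open scoped TensorProduct
open IsLocalRing Module

namespace FLTAgent.Local

local notation "ℚ̄" => AlgebraicClosure ℚ
local notation "Γℚ" => (AlgebraicClosure ℚ ≃ₐ[ℚ] AlgebraicClosure ℚ)

variable {A B : Type} [CommRing A] [IsLocalRing A] [CommRing B] [IsLocalRing B] (φ : A →+* B)

/-- The trace of a base changed representation. -/
theorem trace_baseChangeAlong (hφ : IsLocalHom φ) (ρ : GaloisRepAdic A) (g : Γℚ) :
    LinearMap.trace B (ρ.baseChangeAlong φ hφ).V ((ρ.baseChangeAlong φ hφ).ρ g) =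
      φ (LinearMap.trace A ρ.V (ρ.ρ g)) := by
  letI : Algebra A B := φ.toAlgebra
  exact LinearMap.trace_baseChange (ρ.ρ g) B

/-- If the traces of `W` are the images of those of a residually absolutely irreducible `ρ`, the
trace pairing against the image of `W` is nondegenerate. -/
theorem eq_zero_of_trace_pairing (ρ : GaloisRepAdic A) (hirr : ρ.residual.IsAbsolutelyIrreducible)
    (W : GaloisRepAdic B)
    (htr : ∀ g, LinearMap.trace B W.V (W.ρ g) = φ (LinearMap.trace A ρ.V (ρ.ρ g)))
    {Z : Module.End B W.V} (hZ : ∀ g, LinearMap.trace B W.V (W.ρ g * Z) = 0) : Z = 0 := by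
  classical
  let b := Module.finBasisOfFinrankEq A ρ.V ρ.finrank_eq
  let E : Fin 2 × Fin 2 → Module.End A ρ.V := fun k =>
    (LinearMap.toMatrixAlgEquiv b).symm (Matrix.single k.1 k.2 1)
  have hspan : ∀ k, ∃ c : Γℚ →₀ A, c.sum (fun g a => a • ρ.ρ g) = E k := fun k =>
    Finsupp.mem_span_range_iff_exists_finsupp.mp
      (GalCommon.span_range_eq_top ρ hirr ▸ Submodule.mem_top)
  choose c hc using hspan
  let Y : Fin 2 × Fin 2 → Module.End B W.V := fun k => (c k).sum fun g a => φ a • W.ρ g
  have hpair : ∀ k l, LinearMap.trace B W.V (Y k * Y l) =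
      φ (LinearMap.trace A ρ.V (E k * E l)) := by
    intro k l
    rw [← hc k, ← hc l]
    simp only [Y, Finsupp.sum, Finset.sum_mul_sum, map_sum, smul_mul_assoc, mul_smul_comm,
      map_smul, smul_eq_mul, ← map_mul, htr]
  have hE : ∀ k l : Fin 2 × Fin 2, LinearMap.trace A ρ.V (E (k.2, k.1) * E l) =
      if l = k then 1 else 0 := by
    intro k l
    rw [LinearMap.trace_eq_matrix_trace A b]
    show Matrix.trace (LinearMap.toMatrixAlgEquiv b (E (k.2, k.1) * E l)) = _
    rw [map_mul, AlgEquiv.apply_symm_apply, AlgEquiv.apply_symm_apply]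
    obtain ⟨a, a'⟩ := k
    obtain ⟨l₁, l₂⟩ := l
    fin_cases a <;> fin_cases a' <;> fin_cases l₁ <;> fin_cases l₂ <;>
      simp [Matrix.trace]
  let P : (Fin 2 × Fin 2 → B) →ₗ[B] Module.End B W.V :=
    ∑ k, (LinearMap.proj k).smulRight (Y k)
  let Q : Module.End B W.V →ₗ[B] (Fin 2 × Fin 2 → B) :=
    LinearMap.pi fun k => (LinearMap.trace B W.V).comp (LinearMap.mulLeft B (Y (k.2, k.1)))
  have hQP : ∀ s, Q (P s) = s := by
    intro s
    funext k
    simp only [Q, P, LinearMap.pi_apply, LinearMap.comp_apply, LinearMap.mulLeft_apply,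
      LinearMap.coe_sum, Finset.sum_apply, LinearMap.smulRight_apply, LinearMap.proj_apply,
      map_sum, map_smul, hpair, hE, smul_eq_mul]
    rw [Finset.sum_eq_single k] <;> simp +contextual
  haveI : Module.Free B W.V := inferInstance
  have hrank : finrank B (Module.End B W.V) = finrank B (Fin 2 × Fin 2 → B) := by
    rw [Module.finrank_linearMap, W.finrank_eq, Module.finrank_pi, Fintype.card_prod,
      Fintype.card_fin]
  let e := LinearEquiv.ofFinrankEq (R := B) (Module.End B W.V) (Fin 2 × Fin 2 → B) hrank
  have hinj : Function.Injective Q := by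
    have hsur : Function.Surjective (Q.comp e.symm.toLinearMap) := fun s =>
      ⟨e (P s), by simp [hQP]⟩
    have h := OrzechProperty.injective_of_surjective_endomorphism _ hsur
    intro x y hxy
    have := @h (e x) (e y) (by simpa using hxy)
    exact e.injective this
  apply hinj
  rw [map_zero]
  funext k
  simp only [Q, Y, LinearMap.pi_apply, LinearMap.comp_apply, LinearMap.mulLeft_apply, Finsupp.sum,
    Finset.sum_mul, smul_mul_assoc, map_sum, map_smul, hZ, smul_zero, Finset.sum_const_zero,
    Pi.zero_apply]

end FLTAgent.Local
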