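import Fermat.Agent.Local.Rho

/-!
# The scalar of an integral system of eigenvalues

`exists_scalar`: for an integral system `χ` of level `N` there is a function `c` on the Galois
group such that `M(g) + χ_cyc(g) M(g)⁻¹` acts by `c g` on the eigenvectors of `χ`, and such that
every Galois module killed by `p ^ n`, of finite level, with the same Frobenius equations satisfies
`g x + χ_cyc(g) g⁻¹ x = c(g) x` modulo `p ^ n`. The proof is density plus `expansion_congr`.
-/

set_option autoImplicit false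
set_option linter.style.haveILetI false
set_option linter.unusedSectionVars false
set_option maxHeartbeats 400000

noncomputable section

open CuspForm Matrix IsLocalRing

namespace FLTAgent.Local

open FLTAgent.Reps

local notation "ℚ̄" => AlgebraicClosure ℚ
local notation "Γℚ" => (AlgebraicClosure ℚ ≃ₐ[ℚ] AlgebraicClosure ℚ)

variable {p : ℕ} [Fact p.Prime] {N : ℕ} [NeZero N] {S : Finset ℕ}

/-- A Hecke operator congruent to an expansion has congruent value at every system. -/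
theorem expansion_congr (G : GalModel N p) {T : Type*} [CommRing T]
    (π : ↥(heckeAlgebra N 2 (↑S : Set ℕ)) →+* T) {I : Ideal T} (hp : (p : T) ∈ I)
    (ι : ℤ_[p] →+* T) :
    ∃ k : ℕ, ∀ (n : ℕ) (g : Γℚ) (s : Finset (↥(heckeAlgebra N 2 (↑S : Set ℕ))))
      (c : ↥(heckeAlgebra N 2 (↑S : Set ℕ)) → ℤ_[p]) (t₀ : ↥(heckeAlgebra N 2 (↑S : Set ℕ))),
      traceOp G.M g = ∑ t ∈ s, c t • icast ℤ_[p] (tauS G S t) →
      (PadicInt.toZModPow (n + k)).mapMatrix (traceOp G.M g) =
        icast (ZMod (p ^ (n + k))) (tauS G S t₀) →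
      π t₀ - ∑ t ∈ s, ι (c t) * π t ∈ I ^ n := by
  obtain ⟨k, hk⟩ := G.tauMod_faithful (↑S : Set ℕ) π hp
  refine ⟨k, fun n g s c t₀ hg ht₀ => ?_⟩
  haveI : NeZero (p ^ (n + k)) := ⟨pow_ne_zero _ (Fact.out : p.Prime).ne_zero⟩
  let e : ↥(heckeAlgebra N 2 (↑S : Set ℕ)) → ℕ := fun i => (PadicInt.toZModPow (n + k) (c i)).val
  have he : ∀ i, PadicInt.toZModPow (n + k) (c i) = (e i : ZMod (p ^ (n + k))) := fun i =>
    (ZMod.natCast_zmod_val _).symm
  let t₁ : ↥(heckeAlgebra N 2 (↑S : Set ℕ)) :=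
    ∑ i ∈ s, Nat.cast (R := ↥(heckeAlgebra N 2 (↑S : Set ℕ))) (e i) * i
  have h1 : icast (ZMod (p ^ (n + k))) (tauS G S t₀) =
      icast (ZMod (p ^ (n + k))) (tauS G S t₁) := by
    rw [← ht₀, hg]
    ext a b
    simp only [t₁, icast, RingHom.mapMatrix_apply, Matrix.map_apply, Matrix.sum_apply, map_sum,
      Matrix.smul_apply, smul_eq_mul, map_mul, map_natCast, he]
    refine Finset.sum_congr rfl fun i _ => ?_
    rw [← nsmul_eq_mul, ← nsmul_eq_mul, Matrix.smul_apply, map_nsmul]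
    congr 1
    simp
  have h2 : π (t₀ - t₁) ∈ I ^ n := by
    refine hk n _ ?_
    show icast (ZMod (p ^ (n + k))) (tauS G S (t₀ - t₁)) = 0
    rw [map_sub, icast, Matrix.map_sub _ (map_sub _)]
    exact sub_eq_zero.mpr h1
  rw [map_sub, show π t₁ = ∑ i ∈ s,
    π (Nat.cast (R := ↥(heckeAlgebra N 2 (↑S : Set ℕ))) (e i) * i) from map_sum π _ _] at h2
  rw [← sub_add_sub_cancel (π t₀) (∑ i ∈ s,
    π (Nat.cast (R := ↥(heckeAlgebra N 2 (↑S : Set ℕ))) (e i) * i))]
  refine add_mem h2 ?_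
  rw [← Finset.sum_sub_distrib]
  refine sum_mem fun i _ => ?_
  rw [map_mul, map_natCast, ← sub_mul]
  refine Ideal.mul_mem_right _ _ ?_
  have h3 : PadicInt.toZModPow (n + k) ((e i : ℤ_[p]) - c i) = 0 := by
    rw [map_sub, map_natCast, he, sub_self]
  rw [← RingHom.mem_ker, PadicInt.ker_toZModPow, Ideal.mem_span_singleton] at h3
  obtain ⟨x, hx⟩ := h3
  have h4 := congrArg ι hx
  rw [map_sub, map_natCast, map_mul, map_pow, map_natCast] at h4
  rw [h4]
  exact Ideal.mul_mem_right _ _ (Ideal.pow_le_pow_right (Nat.le_add_right n k)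
    (Ideal.pow_mem_pow hp _))

/-- Two numbers congruent modulo `p ^ n` act alike on a group killed by `p ^ n`. -/
theorem nsmul_eq_of_cast_eq {V : Type*} [AddCommGroup V] {n a b : ℕ}
    (hV : ∀ x : V, p ^ n • x = 0) (h : (a : ZMod (p ^ n)) = b) (x : V) : a • x = b • x := by
  have key : ∀ a, a • x = (a % p ^ n) • x := fun a => by
    conv_lhs => rw [← Nat.mod_add_div a (p ^ n), add_nsmul, mul_nsmul, hV, nsmul_zero, add_zero]
  rw [key a, key b, (ZMod.natCast_eq_natCast_iff' a b _).mp h]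

/-- The scalar of an integral system of eigenvalues, congruent to every Galois module with the same
Frobenius equations. -/
theorem exists_scalar (G : GalModel N p) (hpS : p ∈ S) (hS : ∀ q : ℕ, q.Prime → q ∣ N → q ∈ S)
    (χ : ↥(heckeAlgebra N 2 (↑S : Set ℕ)) →+* ℤ) :
    ∃ c : Γℚ → ℤ_[p],
      (∀ (K : Type) [Field K] [CharZero K] (f : ℤ_[p] →+* K) (v : Fin G.r → K),
        (∀ t, linMap (Int.castRingHom K) (tauS G S t) v = (χ t : K) • v) →
        ∀ g, aOp (galRep f G) (chiL f) g v = f (c g) • v) ∧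
      ∀ (n : ℕ) (V : Type) [AddCommGroup V] (R : Γℚ →* Module.End ℤ V),
        (∀ x : V, p ^ n • x = 0) →
        (∃ F : IntermediateField ℚ ℚ̄, FiniteDimensional ℚ F ∧
          ∀ σ : Γℚ, (∀ y ∈ F, σ y = y) → R σ = 1) →
        (∀ (ℓ : ℕ) (hℓ : ℓ.Prime) (hℓN : ¬ ℓ ∣ N) (hℓS : ℓ ∉ (↑S : Set ℕ)),
          ∀ A : ValuationSubring ℚ̄, A.LiesOverPrime ℓ → ∀ σ : Γℚ, A.IsFrobeniusAt σ ℓ →
            ∀ x, R σ (R σ x) - χ (heckeAlgebra.T hℓ hℓN hℓS) • R σ x + (ℓ : ℤ) • x = 0) →
        ∀ (g : Γℚ) (d : ℕ), (d : ZMod (p ^ n)) = cycMod p n g → ∀ x : V,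
          R g x + d • R g⁻¹ x = (PadicInt.toZModPow n (c g)).val • x := by
  have hmem : ∀ g, traceOp G.M g ∈
      Submodule.span ℤ_[p] (Set.range fun t => icast ℤ_[p] (tauS G S t)) :=
    traceOp_mem_span (tauS G S) G.M G.continuous_level S hpS fun ℓ hℓ hℓS A hA σ hσ =>
      have hℓN : ¬ ℓ ∣ N := fun hd => hℓS (hS ℓ hℓ hd)
      ⟨heckeAlgebra.T hℓ hℓN (mod_cast hℓS),
        G.frobenius_rel ℓ hℓ hℓN (fun e => hℓS (e ▸ hpS)) A hA σ hσ⟩
  choose cf hcf using fun g => Finsupp.mem_span_range_iff_exists_finsupp.mp (hmem g)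
  refine ⟨fun g => ∑ t ∈ (cf g).support, cf g t * (χ t : ℤ_[p]), ?_, ?_⟩
  · intro K _ _ f v hv g
    rw [← linEnd_traceOp, ← hcf g, Finsupp.sum, map_sum, LinearMap.sum_apply, map_sum,
      Finset.sum_smul]
    refine Finset.sum_congr rfl fun t _ => ?_
    rw [linEnd_apply, linMap_smul, linMap_icast, hv, smul_smul, map_mul, map_intCast]
  intro n V _ R hV hlev hfrob g d hd x
  obtain ⟨F, hF, hfix⟩ := hlev
  obtain ⟨k, hk⟩ := expansion_congr (S := S) G ((Int.castRingHom ℤ_[p]).comp χ)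
    (I := Ideal.span {(p : ℤ_[p])}) (Ideal.mem_span_singleton_self _) (RingHom.id _)
  set m := n + k
  obtain ⟨F', hF', hfix'⟩ := exists_level_cycMod (p := p) m
  haveI : NeZero (p ^ m) := ⟨pow_ne_zero m (Fact.out : p.Prime).ne_zero⟩
  haveI : NeZero (p ^ n) := ⟨pow_ne_zero n (Fact.out : p.Prime).ne_zero⟩
  have hVm : ∀ x : V, p ^ m • x = 0 := fun x => by rw [pow_add, mul_comm, mul_nsmul', hV, nsmul_zero]
  have hVZ : ∀ {a b : ℤ}, (p : ℤ) ^ n ∣ a - b → ∀ x : V, a • x = b • x := by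
    rintro a b ⟨z, hz⟩ x
    rw [← sub_eq_zero, ← sub_smul, hz, mul_comm, mul_smul]
    rw [show ((p : ℤ) ^ n) • x = 0 by rw [← Nat.cast_pow, natCast_zsmul, hV], smul_zero]
  let D : Γℚ → ℕ := fun g => (cycMod p m g).val
  obtain ⟨t₀, ht₀, hE⟩ := exists_mod_rel (tauS G S) G.M G.continuous_level S hpS m
    (fun g t => ∀ x, R g x + D g • R g⁻¹ x = χ t • x) (F ⊔ F')
    (fun g u t hu hE x => by
      have h1 : R u = 1 := hfix u fun y hy => hu y (le_sup_left (b := F') hy)
      have h2 : R u⁻¹ = 1 := hfix u⁻¹ fun y hy => by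
        conv_lhs => rw [← hu y (le_sup_left (b := F') hy)]
        exact u.symm_apply_apply y
      have h3 : cycMod p m u = 1 := hfix' u fun y hy => hu y (le_sup_right (a := F) hy)
      simp only [D, map_mul, h3, mul_one, h1, _root_.mul_inv_rev, h2, one_mul]
      exact hE x)
    (fun g t j hE x => by
      let Φ : ℤ →+* Module.End ℤ V := algebraMap ℤ (Module.End ℤ V)
      have hsum : R g + Φ (D g) * R g⁻¹ = Φ (χ t) := LinearMap.ext fun x => by
        simpa [Φ, Module.algebraMap_end_apply, natCast_zsmul] using hE x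
      have hc : Commute (Φ (D g)) (R g⁻¹) := Algebra.commutes _ _
      have hprod : R g * (Φ (D g) * R g⁻¹) = Φ (D g) := by
        rw [← mul_assoc, ← Algebra.commutes, mul_assoc, ← map_mul, mul_inv_cancel, map_one, mul_one]
      have key := pow_add_pow_eq_luc Φ (x := R g) (y := Φ (D g) * R g⁻¹) (a := χ t)
        (d := (D g : ℤ)) ((Algebra.commute_algebraMap_right _ _).mul_right (by
          rw [Commute, SemiconjBy, ← map_mul, mul_inv_cancel, ← map_mul, inv_mul_cancel]))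
        hsum hprod j
      rw [hc.mul_pow, ← map_pow, ← map_pow, ← map_pow, inv_pow] at key
      have key' := LinearMap.congr_fun key x
      simp only [LinearMap.add_apply, Module.End.mul_apply, Φ, Module.algebraMap_end_apply] at key'
      rw [map_luc, map_natCast]
      refine Eq.trans ?_ key'
      congr 1
      rw [← Nat.cast_pow, natCast_zsmul]
      exact nsmul_eq_of_cast_eq hVm (by simp [D, map_pow]) _)
    (fun ℓ hℓ hℓS A hA σ hσ => by
      have hℓN : ¬ ℓ ∣ N := fun hd => hℓS (hS ℓ hℓ hd)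
      have hℓp : ℓ ≠ p := fun e => hℓS (e ▸ hpS)
      refine ⟨heckeAlgebra.T hℓ hℓN (mod_cast hℓS), G.frobenius_rel ℓ hℓ hℓN hℓp A hA σ hσ,
        fun x => ?_⟩
      have h := hfrob ℓ hℓ hℓN (mod_cast hℓS) A hA σ hσ (R σ⁻¹ x)
      rw [← Module.End.mul_apply (R σ) (R σ⁻¹), ← map_mul, mul_inv_cancel, map_one,
        Module.End.one_apply, natCast_zsmul] at h
      have hc : cycMod p m σ = ℓ := by
        show PadicInt.toZModPow m (cyc p σ) = _
        rw [cyc_frobenius hℓ hℓp hA hσ, map_natCast]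
      rw [nsmul_eq_of_cast_eq hVm (show (D σ : ZMod (p ^ m)) = ℓ by simp [D, hc])]
      rw [sub_add_eq_add_sub, sub_eq_zero] at h
      exact h) g
  have hE' := hE x
  have hd' : d • R g⁻¹ x = D g • R g⁻¹ x := by
    refine nsmul_eq_of_cast_eq hV ?_ _
    rw [hd]
    show PadicInt.toZModPow n (cyc p g) = _
    rw [show (D g : ZMod (p ^ n)) = ZMod.castHom (pow_dvd_pow p (Nat.le_add_right n k)) _
        (cycMod p m g) by simp [D, ZMod.natCast_val]]
    exact (RingHom.congr_fun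
      (PadicInt.zmod_cast_comp_toZModPow n m (Nat.le_add_right n k)) (cyc p g)).symm
  rw [hd', hE', ← natCast_zsmul]
  refine hVZ ?_ x
  have h5 := hk n g _ (cf g) t₀ (by rw [← hcf g]; rfl) ht₀
  simp only [RingHom.coe_comp, Function.comp_apply, RingHom.id_apply, eq_intCast] at h5
  rw [Ideal.span_singleton_pow, ← PadicInt.ker_toZModPow, RingHom.mem_ker, map_sub, map_intCast,
    sub_eq_zero] at h5
  rw [← Nat.cast_pow, ← ZMod.intCast_eq_intCast_iff_dvd_sub, Int.cast_natCast,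
    ZMod.natCast_zmod_val]
  exact h5.symm

end FLTAgent.Local
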