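import Fermat.Agent.Reps.Unramified
import Fermat.Agent.Local.Interface

/-!
# The trace operator lies in the span of the Hecke image

For a Galois representation `M` by matrices over `ℤ_p`, `traceOp M g = M(g) + χ(g) M(g)⁻¹` with
`χ` cyclotomic. `exists_mod_rel`: modulo `p ^ m` it is a Hecke operator, by Frobenius density and
a Lucas sequence for powers. `traceOp_mem_span` passes to the limit by Krull intersection; for a
model of level `N` (`traceOp_mem_span_model`) it follows that `traceOp` commutes with Galois and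
with everything commuting with the Hecke image.
-/

set_option autoImplicit false

noncomputable section

open CuspForm Matrix IsLocalRing

namespace FLTAgent.Local

open FLTAgent.Reps

local notation "ℚ̄" => AlgebraicClosure ℚ
local notation "Γℚ" => (AlgebraicClosure ℚ ≃ₐ[ℚ] AlgebraicClosure ℚ)

variable {p : ℕ} [Fact p.Prime] {ι : Type*} [Fintype ι] [DecidableEq ι]

/-- The operator `M(g) + χ(g) M(g)⁻¹`. -/
def traceOp (M : Γℚ →* Matrix ι ι ℤ_[p]) (g : Γℚ) : Matrix ι ι ℤ_[p] :=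
  M g + cyc p g • M g⁻¹

/-- Continuity of a matrix representation. -/
def MatContinuous (M : Γℚ →* Matrix ι ι ℤ_[p]) : Prop :=
  ∀ m : ℕ, ∃ L : IntermediateField ℚ ℚ̄, FiniteDimensional ℚ L ∧
    ∀ σ : Γℚ, (∀ x ∈ L, σ x = x) → (PadicInt.toZModPow m).mapMatrix (M σ) = 1

theorem mapMatrix_natCast_smul {m : ℕ} (d : ZMod (p ^ m)) (X : Matrix ι ι (ZMod (p ^ m))) :
    (Nat.cast d.val : Matrix ι ι (ZMod (p ^ m))) * X = d • X := by
  have : NeZero (p ^ m) := ⟨pow_ne_zero m (Fact.out : p.Prime).ne_zero⟩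
  rw [← nsmul_eq_mul, ← Nat.cast_smul_eq_nsmul (ZMod (p ^ m)), ZMod.natCast_zmod_val]

theorem toZModPow_traceOp (M : Γℚ →* Matrix ι ι ℤ_[p]) (m : ℕ) (g : Γℚ) :
    (PadicInt.toZModPow m).mapMatrix (traceOp M g) =
      (PadicInt.toZModPow m).mapMatrix (M g) +
        cycMod p m g • (PadicInt.toZModPow m).mapMatrix (M g⁻¹) := by
  ext i j
  simp [traceOp, cycMod]

theorem toZModPow_icast (m : ℕ) (A : Matrix ι ι ℤ) :
    (PadicInt.toZModPow m).mapMatrix (icast ℤ_[p] A) = icast (ZMod (p ^ m)) A := by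
  ext i j
  simp [icast]

variable {TS : Type*} [CommRing TS] (τ : TS →+* Matrix ι ι ℤ) (M : Γℚ →* Matrix ι ι ℤ_[p])

/-- Modulo `p ^ m` the trace operator is a Hecke operator, compatibly with any relation `E` which
propagates from Frobenius elements. -/
theorem exists_mod_rel (hM : MatContinuous M) (S : Finset ℕ) (hpS : p ∈ S) (m : ℕ)
    (E : Γℚ → TS → Prop) (LE : IntermediateField ℚ ℚ̄) [FiniteDimensional ℚ LE]
    (hEU : ∀ (g u : Γℚ) (t : TS), (∀ x ∈ LE, u x = x) → E g t → E (g * u) t)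
    (hEpow : ∀ (g : Γℚ) (t : TS) (k : ℕ), E g t →
      E (g ^ k) (luc t (Nat.cast (R := TS) (cycMod p m g).val) k))
    (hfrob : ∀ ℓ : ℕ, ℓ.Prime → ℓ ∉ S → ∀ A : ValuationSubring ℚ̄, A.LiesOverPrime ℓ →
      ∀ σ : Γℚ, A.IsFrobeniusAt σ ℓ → ∃ t : TS,
        (M σ * M σ - icast ℤ_[p] (τ t) * M σ + (ℓ : Matrix ι ι ℤ_[p]) = 0) ∧ E σ t)
    (g : Γℚ) :
    ∃ t : TS, (PadicInt.toZModPow m).mapMatrix (traceOp M g) = icast (ZMod (p ^ m)) (τ t) ∧
      E g t := by
  obtain ⟨L₁, hL₁, hfix₁⟩ := hM m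
  obtain ⟨L₂, hL₂, hfix₂⟩ := exists_level_cycMod (p := p) m
  have : NeZero (p ^ m) := ⟨pow_ne_zero m (Fact.out : p.Prime).ne_zero⟩
  let R : Γℚ →* Matrix ι ι (ZMod (p ^ m)) :=
    (PadicInt.toZModPow m).mapMatrix.toMonoidHom.comp M
  let f : TS →+* Matrix ι ι (ZMod (p ^ m)) := (Int.castRingHom _).mapMatrix.comp τ
  suffices h : ∃ t : TS, R g + cycMod p m g • R g⁻¹ = f t ∧ E g t by
    obtain ⟨t, ht, hE⟩ := h
    exact ⟨t, (toZModPow_traceOp M m g).trans ht, hE⟩
  refine forall_of_frobenius (P := fun g => ∃ t : TS, R g + cycMod p m g • R g⁻¹ = f t ∧ E g t)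
    (L₁ ⊔ L₂ ⊔ LE) S ?_ ?_ ?_ g
  · rintro g u hu ⟨t, ht, hE⟩
    have h1 : ∀ x ∈ L₁, u x = x := fun x hx =>
      hu x (le_sup_left (a := L₁ ⊔ L₂) (le_sup_left (a := L₁) hx))
    have h2 : ∀ x ∈ L₂, u x = x := fun x hx =>
      hu x (le_sup_left (a := L₁ ⊔ L₂) (le_sup_right (b := L₂) hx))
    have h3 : ∀ x ∈ LE, u x = x := fun x hx => hu x (le_sup_right (b := LE) hx)
    have h1' : ∀ x ∈ L₁, u⁻¹ x = x := fun x hx => by
      conv_lhs => rw [← h1 x hx]
      exact u.symm_apply_apply x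
    have e1 : R u = 1 := hfix₁ u h1
    have e1' : R u⁻¹ = 1 := hfix₁ _ h1'
    refine ⟨t, ?_, hEU g u t h3 hE⟩
    rw [map_mul, map_mul, hfix₂ u h2, mul_one, e1, mul_one, _root_.mul_inv_rev, map_mul, e1',
      one_mul]
    exact ht
  · rintro g k ⟨t, ht, hE⟩
    refine ⟨_, ?_, hEpow g t k hE⟩
    have hinv : R g * R g⁻¹ = 1 := by rw [← map_mul, mul_inv_cancel, map_one]
    have hinv' : R g⁻¹ * R g = 1 := by rw [← map_mul, inv_mul_cancel, map_one]
    have key := pow_add_pow_eq_luc f (x := R g) (y := cycMod p m g • R g⁻¹) (a := t)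
      (d := Nat.cast (R := TS) (cycMod p m g).val)
      (Commute.smul_right (hinv.trans hinv'.symm) _) ht
      (by rw [mul_smul_comm, hinv, map_natCast, ← mapMatrix_natCast_smul, mul_one]) k
    rw [_root_.smul_pow, ← map_pow, ← map_pow, ← map_pow, inv_pow] at key
    exact key
  · intro ℓ hℓ hℓS A hA σ hσ
    obtain ⟨t, ht, hE⟩ := hfrob ℓ hℓ hℓS A hA σ hσ
    refine ⟨t, ?_, hE⟩
    have hℓp : ℓ ≠ p := fun h => hℓS (h ▸ hpS)
    have h0 := congrArg (fun X => (PadicInt.toZModPow m).mapMatrix X) ht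
    simp only [map_zero, map_add, map_sub, map_mul, map_natCast, toZModPow_icast] at h0
    have hc : cycMod p m σ = ℓ := by
      show PadicInt.toZModPow m (cyc p σ) = _
      rw [cyc_frobenius hℓ hℓp hA hσ, map_natCast]
    have h2 : (R σ * R σ - f t * R σ + (ℓ : Matrix ι ι (ZMod (p ^ m)))) * R σ⁻¹ = 0 := by
      show ((PadicInt.toZModPow m).mapMatrix (M σ) * (PadicInt.toZModPow m).mapMatrix (M σ)
        - icast _ (τ t) * (PadicInt.toZModPow m).mapMatrix (M σ)
        + (ℓ : Matrix ι ι (ZMod (p ^ m)))) * _ = 0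
      rw [h0, zero_mul]
    rw [add_mul, sub_mul, mul_assoc, mul_assoc, ← map_mul, mul_inv_cancel, map_one, mul_one,
      mul_one, sub_add_eq_add_sub, sub_eq_zero] at h2
    rw [hc, Nat.cast_smul_eq_nsmul, nsmul_eq_mul]
    exact h2

/-- A matrix congruent to elements of a submodule modulo every power of `p` lies in it. -/
theorem mem_of_forall_mod (W : Submodule ℤ_[p] (Matrix ι ι ℤ_[p])) (X : Matrix ι ι ℤ_[p])
    (h : ∀ m : ℕ, ∃ Y ∈ W,
      (PadicInt.toZModPow m).mapMatrix X = (PadicInt.toZModPow m).mapMatrix Y) : X ∈ W := by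
  have key : W.mkQ X ∈ (⨅ i : ℕ, maximalIdeal ℤ_[p] ^ i •
      (⊤ : Submodule ℤ_[p] (Matrix ι ι ℤ_[p] ⧸ W))) := by
    rw [Submodule.mem_iInf]
    intro m
    obtain ⟨Y, hY, hXY⟩ := h m
    have hdiv : ∀ i j, ∃ c, (X - Y) i j = (p : ℤ_[p]) ^ m * c := by
      intro i j
      have h1 := congrFun (congrFun hXY i) j
      simp only [RingHom.mapMatrix_apply, Matrix.map_apply] at h1
      have h2 : PadicInt.toZModPow m ((X - Y) i j) = 0 := by rw [Matrix.sub_apply, map_sub, h1, sub_self]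
      rw [← RingHom.mem_ker, PadicInt.ker_toZModPow, Ideal.mem_span_singleton] at h2
      exact h2
    choose Z hZ using hdiv
    have hXYZ : X = Y + (p : ℤ_[p]) ^ m • Matrix.of Z := by
      ext i j
      have := hZ i j
      rw [Matrix.sub_apply, sub_eq_iff_eq_add'] at this
      simp [this]
    rw [hXYZ, map_add, Submodule.mkQ_apply, (Submodule.Quotient.mk_eq_zero W).mpr hY, zero_add,
      map_smul]
    refine Submodule.smul_mem_smul ?_ Submodule.mem_top
    rw [PadicInt.maximalIdeal_eq_span_p, Ideal.span_singleton_pow]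
    exact Ideal.mem_span_singleton_self _
  rw [Ideal.iInf_pow_smul_eq_bot_of_isLocalRing _ (maximalIdeal.isMaximal ℤ_[p]).ne_top,
    Submodule.mem_bot, Submodule.mkQ_apply, Submodule.Quotient.mk_eq_zero] at key
  exact key

/-- The trace operator lies in the span of the Hecke image. -/
theorem traceOp_mem_span (hM : MatContinuous M) (S : Finset ℕ) (hpS : p ∈ S)
    (hfrob : ∀ ℓ : ℕ, ℓ.Prime → ℓ ∉ S → ∀ A : ValuationSubring ℚ̄, A.LiesOverPrime ℓ →
      ∀ σ : Γℚ, A.IsFrobeniusAt σ ℓ → ∃ t : TS,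
        M σ * M σ - icast ℤ_[p] (τ t) * M σ + (ℓ : Matrix ι ι ℤ_[p]) = 0)
    (g : Γℚ) :
    traceOp M g ∈ Submodule.span ℤ_[p] (Set.range fun t => icast ℤ_[p] (τ t)) := by
  refine mem_of_forall_mod _ _ fun m => ?_
  obtain ⟨L, hL, -⟩ := exists_level_cycMod (p := p) 0
  obtain ⟨t, ht, -⟩ := exists_mod_rel τ M hM S hpS m (fun _ _ => True) L
    (fun _ _ _ _ _ => trivial) (fun _ _ _ _ => trivial)
    (fun ℓ hℓ hℓS A hA σ hσ => by
      obtain ⟨t, ht⟩ := hfrob ℓ hℓ hℓS A hA σ hσ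
      exact ⟨t, ht, trivial⟩) g
  exact ⟨icast ℤ_[p] (τ t), Submodule.subset_span ⟨t, rfl⟩, by rw [ht, toZModPow_icast]⟩

/-- Everything commuting with the Hecke image commutes with the trace operator. -/
theorem commute_of_mem_span {X Y : Matrix ι ι ℤ_[p]}
    (hY : Y ∈ Submodule.span ℤ_[p] (Set.range fun t => icast ℤ_[p] (τ t)))
    (hX : ∀ t, Commute X (icast ℤ_[p] (τ t))) : Commute X Y := by
  induction hY using Submodule.span_induction with
  | mem y hy => obtain ⟨t, rfl⟩ := hy; exact hX t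
  | zero => exact Commute.zero_right X
  | add y z _ _ hy hz => exact hy.add_right hz
  | smul c y _ hy => exact hy.smul_right c

/-- The relation `M(g)² - A(g) M(g) + χ(g) = 0`. -/
theorem quadratic_traceOp (g : Γℚ) :
    M g * M g - traceOp M g * M g + cyc p g • (1 : Matrix ι ι ℤ_[p]) = 0 := by
  rw [traceOp, add_mul, smul_mul_assoc, ← map_mul M g⁻¹, inv_mul_cancel, map_one]
  abel

theorem GalModel.matContinuous {N : ℕ} [NeZero N] (G : GalModel N p) : MatContinuous G.M :=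
  G.continuous_level

/-- The trace operator of a model lies in the span of the Hecke algebra. -/
theorem traceOp_mem_span_model {N : ℕ} [NeZero N] (G : GalModel N p) (g : Γℚ) :
    traceOp G.M g ∈ Submodule.span ℤ_[p] (Set.range fun t => icast ℤ_[p] (G.τ t)) := by
  refine traceOp_mem_span G.τ G.M G.continuous_level (insert p N.primeFactors)
    (Finset.mem_insert_self _ _) (fun ℓ hℓ hℓS A hA σ hσ => ?_) g
  have hℓN : ¬ ℓ ∣ N := fun h =>
    hℓS (Finset.mem_insert_of_mem (Nat.mem_primeFactors.mpr ⟨hℓ, h, NeZero.ne N⟩))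
  exact ⟨heckeTOf hℓ hℓN,
    G.frobenius_rel ℓ hℓ hℓN (fun h => hℓS (h ▸ Finset.mem_insert_self _ _)) A hA σ hσ⟩

theorem commute_galois_traceOp {N : ℕ} [NeZero N] (G : GalModel N p) (g h : Γℚ) :
    Commute (G.M h) (traceOp G.M g) :=
  commute_of_mem_span G.τ (traceOp_mem_span_model G g) fun t => G.commute_hecke h t

theorem traceOp_comm {N : ℕ} [NeZero N] (G : GalModel N p) (g : Γℚ)
    {θ : Matrix (Fin G.r) (Fin G.r) ℤ} (hθ : ∀ t, Commute θ (G.τ t)) :
    Commute (icast ℤ_[p] θ) (traceOp G.M g) :=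
  commute_of_mem_span G.τ (traceOp_mem_span_model G g) fun t =>
    (hθ t).map (Int.castRingHom ℤ_[p]).mapMatrix

end FLTAgent.Local
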